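import Fermat.Agent.RT.AtP.Deepen
import Fermat.Agent.RT.Mazur.FixedBasis

/-!
# Functions deeply congruent to one are powers

If `g` is congruent to one modulo `π ^ (e + n₀)` and the sections of `g` and of its inverse are
congruent modulo `π ^ n₀` to bounded functions, then the congruences improve without end, and `g`
is a `p`-th power.
-/

set_option autoImplicit false
set_option linter.unusedSectionVars false

noncomputable section

namespace Fermat.Agent.RT.AtP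

open ModularCurve AlgebraicCurve Fermat.Agent.Semistable Fermat.Agent.Arith
open Fermat.Agent.RT.Mazur Fermat.Agent.RT.MazurP
open scoped IntermediateField

variable {A : ValuationSubring QBar} {p M : ℕ} [Fact p.Prime] [NeZero M]
variable {C : CoefField A p} {hpM : ¬ p ∣ M}

/-- A root of a bounded function is bounded. -/
theorem root_mem_HN (C : CoefField A p) (hpM : ¬ p ∣ M) {m : ℕ} {x : FB (p * M)}
    (h : x ^ p ∈ HN M p (p * m)) : x ∈ HN M p m := by
  rw [← one_V_eq (C := C) (hpM := hpM) m, Kum.mem_V]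
  show x ^ p * 1 ∈ _
  rwa [mul_one]

theorem red_sub_eq_zero {n : ℕ} (hn : 0 < n) {x y : intFix C hpM}
    (h : piI C hpM ^ n ∣ x - y) : red C hpM x = red C hpM y := by
  obtain ⟨u, hu⟩ := h
  rw [← sub_eq_zero, ← map_sub, hu, red_piI_pow_mul hn]

/-- Congruent `p`-th powers have congruent roots. -/
theorem exists_root_congr (hA : A.LiesOverPrime p) {n₀ : ℕ} (hn₀ : 0 < n₀)
    (he : C.e + 1 ≤ (p - 1) * n₀) {x y : intFix C hpM} (hy : ∀ s, red C hpM y s ≠ 0)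
    (h0 : piI C hpM ^ n₀ ∣ x - y) {n : ℕ} (hn : n₀ ≤ n) {D : intFix C hpM}
    (h : x ^ p - y ^ p = piI C hpM ^ (C.e + n) * D) :
    ∃ (u : intFix C hpM) (c : Res A), c ≠ 0 ∧ x - y = piI C hpM ^ n * u ∧
      red C hpM D = (fun _ => algebraMap (Res A) _ c) * (red C hpM y ^ (p - 1) * red C hpM u) := by
  have hp : p.Prime := Fact.out
  -- the expansion at a step
  have hstep : ∀ j, n₀ ≤ j → ∀ u : intFix C hpM, x - y = piI C hpM ^ j * u →
      ∃ (E : intFix C hpM) (c : Res A), c ≠ 0 ∧ x ^ p - y ^ p = piI C hpM ^ (C.e + j) * E ∧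
        red C hpM E = (fun _ => algebraMap (Res A) _ c) *
          (red C hpM y ^ (p - 1) * red C hpM u) := by
    intro j hj u hu
    obtain ⟨ε, r, c, hc, hεr, hpow⟩ := exists_pow_sub y u j
    rw [← hu, add_sub_cancel] at hpow
    obtain ⟨a, ha⟩ : ∃ a, p * j = C.e + j + 1 + a := ⟨p * j - (C.e + j + 1), by
      have := pred_mul_add hp.pos j
      have := Nat.mul_le_mul_left (p - 1) hj
      omega⟩
    obtain ⟨b, hb⟩ : ∃ b, C.e + 2 * j = C.e + j + 1 + b := ⟨j - 1, by omega⟩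
    refine ⟨ε * (y ^ (p - 1) * u) + piI C hpM * (piI C hpM ^ a * u ^ p + piI C hpM ^ b * r),
      c, hc, ?_, ?_⟩
    · rw [hpow, ha, hb]
      simp only [pow_add, pow_one]
      ring
    · rw [map_add, map_mul, map_mul (red C hpM) (piI C hpM), red_piI, zero_mul, add_zero, hεr,
        map_mul, map_pow]
  have hdiv : ∀ d, n₀ + d ≤ n → piI C hpM ^ (n₀ + d) ∣ x - y := by
    intro d
    induction d with
    | zero => exact fun _ => h0
    | succ d ih =>
      intro hd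
      obtain ⟨u, hu⟩ := ih (by omega)
      obtain ⟨E, c, hc, hE, hEr⟩ := hstep (n₀ + d) (by omega) u hu
      obtain ⟨l, hl⟩ : ∃ l, C.e + n = C.e + (n₀ + d) + 1 + l :=
        ⟨n - (n₀ + d + 1), by omega⟩
      have hEz : E = piI C hpM * (piI C hpM ^ l * D) := by
        refine mul_left_cancel₀ (pow_ne_zero (C.e + (n₀ + d)) piI_ne_zero) ?_
        rw [← hE, h, hl]
        simp only [pow_add, pow_one]
        ring
      have hu0 : red C hpM u = 0 := by
        funext s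
        have h1 := congrFun hEr s
        rw [hEz, map_mul, red_piI, zero_mul, Pi.mul_apply, Pi.mul_apply, Pi.pow_apply] at h1
        rcases mul_eq_zero.mp h1.symm with h2 | h2
        · exact absurd h2 ((_root_.map_ne_zero _).mpr hc)
        · exact (mul_eq_zero.mp h2).resolve_left (pow_ne_zero _ (hy s))
      obtain ⟨u', hu'⟩ := piI_dvd hA hu0
      exact ⟨u', by rw [hu, hu', ← add_assoc, pow_succ, mul_assoc]⟩
  obtain ⟨u, hu⟩ := hdiv (n - n₀) (by omega)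
  rw [show n₀ + (n - n₀) = n by omega] at hu
  obtain ⟨E, c, hc, hE, hEr⟩ := hstep n hn u hu
  refine ⟨u, c, hc, hu, ?_⟩
  rw [show D = E from mul_left_cancel₀ (pow_ne_zero (C.e + n) piI_ne_zero) (h.symm.trans hE)]
  exact hEr

/-- A congruence `φ ^ p g ≡ ψ ^ p` for a section `φ`. -/
def Appr (g : intFix C hpM) (n₀ m n : ℕ) (φ : intFix C hpM) : Prop :=
  ∃ ψ : intFix C hpM, (ψ : FB (p * M)) ∈ HN M p m ∧ piI C hpM ^ n₀ ∣ φ - ψ ∧
    piI C hpM ^ (C.e + n) ∣ φ ^ p * g - ψ ^ p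

theorem appr_base {g : intFix C hpM} {n₀ m : ℕ} (he : C.e + 1 ≤ (p - 1) * n₀)
    (hg : piI C hpM ^ (C.e + n₀) ∣ g - 1) {φ ψ : intFix C hpM}
    (hψ : (ψ : FB (p * M)) ∈ HN M p m) (h : piI C hpM ^ n₀ ∣ φ - ψ) :
    Appr g n₀ m n₀ φ := by
  refine ⟨ψ, hψ, h, ?_⟩
  obtain ⟨w, hw⟩ := h
  obtain ⟨y, hy⟩ := hg
  obtain ⟨ε, r, c, -, -, hpow⟩ := exists_pow_sub ψ w n₀
  rw [← hw, add_sub_cancel] at hpow
  have hk := pred_mul_add (Fact.out : p.Prime).pos n₀
  obtain ⟨a, ha⟩ : ∃ a, p * n₀ = C.e + n₀ + a := ⟨p * n₀ - (C.e + n₀), by omega⟩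
  refine ⟨piI C hpM ^ a * w ^ p + ε * (ψ ^ (p - 1) * w) + piI C hpM ^ n₀ * r + φ ^ p * y, ?_⟩
  have e : φ ^ p * g - ψ ^ p = (φ ^ p - ψ ^ p) + φ ^ p * (g - 1) := by ring
  rw [e, hpow, hy, ha, two_mul, ← add_assoc]
  simp only [pow_add]
  ring

/-- The bounds on a function satisfying two relations with bounded functions. -/
theorem mem_bound_of_relations {K F : Type*} [Field K] [Field F] [Algebra K F]
    [FF.IsFunctionField K F] (x : F) (hx : x ≠ 0) (k m : ℕ) {p : ℕ} (hp : 0 < p) {c d : K}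
    (hc : c ≠ 0) {a U W P₁ Z₁ ZJ : F} (ha : a = U - algebraMap K F c⁻¹ * (Z₁ * P₁))
    (heq : algebraMap K F c * (a * ((x ^ k) ^ m) ^ p) =
      algebraMap K F d * (W * ((x ^ k) ^ m) ^ (p - 1)) - ZJ * P₁)
    (hU : U ∈ riemannRochSpace ((k * (2 * m)) • FF.poles K x))
    (hW : W ∈ riemannRochSpace ((k * (2 * m)) • FF.poles K x))
    (hP : P₁ ∈ riemannRochSpace ((k * m) • FF.poles K x))
    (hZ : Z₁ ∈ riemannRochSpace ((k * (p * m)) • FF.poles K x))
    (hZJ : ZJ ∈ riemannRochSpace ((k * (p * m)) • FF.poles K x)) :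
    a ∈ riemannRochSpace ((k * m) • FF.poles K x) := by
  rw [FF.mem_riemannRochSpace'] at hU hW hP hZ hZJ ⊢
  intro P
  have gU := hU P
  have gW := hW P
  have gP := hP P
  have gZ := hZ P
  have gJ := hZJ P
  simp only [Finsupp.smul_apply, FF.poles_apply, nsmul_eq_mul] at gU gW gP gZ gJ ⊢
  push_cast at gU gW gP gZ gJ ⊢
  have hcst : ∀ b : K, algebraMap K F b ∈ FF.ordGe P 0 := fun b => by
    rcases eq_or_ne (algebraMap K F b) 0 with h | h
    · rw [h]; exact zero_mem _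
    · exact FF.mem_ordGe_of_le P (by rw [FF.ord_algebraMap])
  by_cases hj : 0 ≤ P.ord x
  · rw [max_eq_left (show -P.ord x ≤ 0 by omega)] at gU gP gZ ⊢
    simp only [mul_zero, neg_zero] at gU gP gZ ⊢
    rw [ha]
    refine sub_mem gU ?_
    simpa using FF.mul_mem_ordGe P (hcst c⁻¹) (FF.mul_mem_ordGe P gZ gP)
  · rw [max_eq_right (show 0 ≤ -P.ord x by omega)] at gW gP gJ ⊢
    set o : ℤ := (k : ℤ) * (m : ℤ) * P.ord x with ho
    set J := (x ^ k) ^ m with hJdef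
    have hJ0 : J ≠ 0 := pow_ne_zero _ (pow_ne_zero _ hx)
    have hord : ∀ l : ℕ, P.ord (J ^ l) = (l : ℤ) * o := fun l => by
      rw [FF.ord_pow P, hJdef, FF.ord_pow P, FF.ord_pow P]; ring
    have t1 := FF.mul_mem_ordGe P (hcst d) (FF.mul_mem_ordGe P gW
      (FF.mem_ordGe_of_le P (le_refl (P.ord (J ^ (p - 1))))))
    have t2 := FF.mul_mem_ordGe P gJ gP
    have hp1 : ((p - 1 : ℕ) : ℤ) = (p : ℤ) - 1 := by omega
    rw [hord, hp1] at t1
    have t3 : algebraMap K F c * (a * J ^ p) ∈ FF.ordGe P (((p : ℤ) + 1) * o) := by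
      rw [heq]
      exact sub_mem (FF.ordGe_anti P (by rw [ho]; linarith) t1)
        (FF.ordGe_anti P (by rw [ho]; linarith) t2)
    have t4 := FF.mul_mem_ordGe P (FF.mul_mem_ordGe P (hcst c⁻¹) t3)
      (FF.mem_ordGe_of_le P (le_refl (P.ord (J ^ p)⁻¹)))
    have e : algebraMap K F c⁻¹ * (algebraMap K F c * (a * J ^ p)) * (J ^ p)⁻¹ = a := by
      rw [← mul_assoc (algebraMap K F c⁻¹), ← map_mul, inv_mul_cancel₀ hc, map_one, one_mul,
        mul_inv_cancel_right₀ (pow_ne_zero _ hJ0)]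
    rw [e, P.ord_inv, hord] at t4
    exact FF.ordGe_anti P (by rw [ho]; linarith) t4

variable [CharP (Res A) p] [FF.IsFunctionField (Res A) (KM A M)]
variable (hA : A.LiesOverPrime p) (hM : (M : Res A) ≠ 0) (V : VUnit A hpM) (hV : V.Simple)
include hA

omit [FF.IsFunctionField (Res A) (KM A M)] in
/-- The product of sections of a function and of its inverse. -/
theorem pair_rel {g g' : intFix C hpM} (hgg : g * g' = 1) {n₀ m n : ℕ} (hn₀ : 0 < n₀)
    (he : C.e + 1 ≤ (p - 1) * n₀) (hn : n₀ ≤ n) {φ ψ z φ' ψ' z' : intFix C hpM}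
    (hφ : (φ : FB (p * M)) ^ p * g ∈ HN M p (p * m))
    (hφ' : (φ' : FB (p * M)) ^ p * g' ∈ HN M p (p * m))
    (hψ : (ψ : FB (p * M)) ∈ HN M p m) (hψ' : (ψ' : FB (p * M)) ∈ HN M p m)
    (hc : piI C hpM ^ n₀ ∣ φ - ψ) (hc' : piI C hpM ^ n₀ ∣ φ' - ψ')
    (hz : φ ^ p * g - ψ ^ p = piI C hpM ^ (C.e + n) * z)
    (hz' : φ' ^ p * g' - ψ' ^ p = piI C hpM ^ (C.e + n) * z')
    (hne : ∀ s, red C hpM φ s ≠ 0) (hne' : ∀ s, red C hpM φ' s ≠ 0) :
    ∃ r ∈ sp C hpM (2 * m), ∃ c : Res A, c ≠ 0 ∧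
      (fun _ => algebraMap (Res A) _ c) * ((red C hpM ψ * red C hpM ψ') ^ (p - 1) * r) =
        red C hpM z * red C hpM ψ' ^ p + red C hpM z' * red C hpM ψ ^ p := by
  have hψr := red_sub_eq_zero hn₀ hc
  have hψr' := red_sub_eq_zero hn₀ hc'
  have hcong : piI C hpM ^ n₀ ∣ φ * φ' - ψ * ψ' := by
    obtain ⟨a, ha⟩ := hc
    obtain ⟨b, hb⟩ := hc'
    exact ⟨a * φ' + ψ * b, by linear_combination φ' * ha + ψ * hb⟩
  have hD : (φ * φ') ^ p - (ψ * ψ') ^ p = piI C hpM ^ (C.e + n) *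
      (z * ψ' ^ p + z' * ψ ^ p + piI C hpM ^ (C.e + n) * (z * z')) := by
    have e : (φ * φ') ^ p = (φ ^ p * g) * (φ' ^ p * g') := by
      calc (φ * φ') ^ p = φ ^ p * φ' ^ p * (g * g') := by rw [hgg, mul_one, mul_pow]
        _ = _ := by ring
    rw [e, sub_eq_iff_eq_add.mp hz, sub_eq_iff_eq_add.mp hz']
    ring
  obtain ⟨u, c, hc0, hu, hur⟩ := exists_root_congr hA hn₀ he
    (fun s => by rw [map_mul, Pi.mul_apply, ← hψr, ← hψr']; exact mul_ne_zero (hne s) (hne' s))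
    hcong hn hD
  refine ⟨red C hpM u, red_mem_sp (mem_HN_of_piI_pow_mul hu (sub_mem ?_ ?_)), c, hc0, ?_⟩
  · rw [Subring.coe_mul]
    refine root_mem_HN C hpM ?_
    have h1 := mul_mem_polesSpace hφ hφ'
    rw [← two_mul, ← mul_assoc, mul_comm 2 p, mul_assoc] at h1
    convert h1 using 1
    have : (g : FB (p * M)) * (g' : FB (p * M)) = 1 := congrArg Subtype.val hgg
    rw [mul_pow]
    linear_combination (-((φ : FB (p * M)) ^ p * (φ' : FB (p * M)) ^ p)) * this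
  · rw [Subring.coe_mul, two_mul]
    exact mul_mem_polesSpace hψ hψ'
  · rw [← map_mul (red C hpM), ← hur]
    simp only [map_add, map_mul, map_pow, red_piI]
    rw [zero_pow (by omega), zero_mul, add_zero]

include hM V hV

/-- One step of the improvement. -/
theorem appr_step {g g' : intFix C hpM} (hgg : g * g' = 1) {n₀ : ℕ} (hn₀ : 0 < n₀)
    (he : C.e + 1 ≤ (p - 1) * n₀) :
    ∃ m₀ : ℕ, ∀ m, m₀ ≤ m → ∀ n, n₀ ≤ n → ∀ φ φ₁ φJ : intFix C hpM,
      (φ : FB (p * M)) ^ p * g ∈ HN M p (p * m) →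
      (φ₁ : FB (p * M)) ^ p * g' ∈ HN M p (p * m) →
      (φJ : FB (p * M)) ^ p * g' ∈ HN M p (p * m) →
      (∀ s, red C hpM φ s ≠ 0) → red C hpM φ₁ = 1 →
      red C hpM φJ = red C hpM (jI C hpM ^ m) →
      Appr g n₀ m n φ → Appr g' n₀ m n φ₁ → Appr g' n₀ m n φJ → Appr g n₀ m (n + 1) φ := by
  classical
  obtain ⟨m₀, hsat⟩ := exists_saturated (C := C) hA hM V hV
  refine ⟨m₀, fun m hm n hn φ φ₁ φJ hφ hφ₁ hφJ hne h1 hJ h h' h'' => ?_⟩
  obtain ⟨ψ, hψ, hc, z, hz⟩ := h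
  obtain ⟨ψ₁, hψ₁, hc₁, z₁, hz₁⟩ := h'
  obtain ⟨ψJ, hψJ, hcJ, zJ, hzJ⟩ := h''
  have hψr := red_sub_eq_zero hn₀ hc
  have hψ₁r : red C hpM ψ₁ = 1 := (red_sub_eq_zero hn₀ hc₁).symm.trans h1
  have hψJr : red C hpM ψJ = red C hpM (jI C hpM ^ m) := (red_sub_eq_zero hn₀ hcJ).symm.trans hJ
  have hj0 : jK A M ≠ 0 := fun h => jK_transcendental A M (h ▸ isAlgebraic_zero)
  have hJne : ∀ s, red C hpM (jI C hpM ^ m) s ≠ 0 := fun s => by
    rw [map_pow, Pi.pow_apply, red_jI]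
    exact pow_ne_zero _ fun h => pow_ne_zero _ hj0 (Subtype.ext h)
  obtain ⟨u, hu, c, hc0, hrel⟩ := pair_rel hA hgg hn₀ he hn hφ hφ₁ hψ hψ₁ hc hc₁ hz hz₁ hne
    (fun s => by rw [h1]; exact one_ne_zero)
  obtain ⟨v, hv, d, hd0, hrelJ⟩ := pair_rel hA hgg hn₀ he hn hφ hφJ hψ hψJ hc hcJ hz hzJ hne
    (fun s => by rw [hJ]; exact hJne s)
  have hz₁m := red_mem_sp (mem_HN_of_piI_pow_mul hz₁ (sub_mem hφ₁ (pow_mem_polesSpace hψ₁ p)))
  have hzJm := red_mem_sp (mem_HN_of_piI_pow_mul hzJ (sub_mem hφJ (pow_mem_polesSpace hψJ p)))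
  have hψm := red_mem_sp hψ
  -- the correction
  set wb : Fin 2 → LaurentSeries (Res A) :=
    u - c⁻¹ • (red C hpM z₁ * red C hpM ψ) with hwb
  have hwsp : wb ∈ sp C hpM (2 * m + (p * m + m)) :=
    sub_mem (sp_mono hA (Nat.le_add_right _ _) hu)
      (Submodule.smul_mem _ _ (sp_mono hA (Nat.le_add_left _ _) (sp_mul hA hz₁m hψm)))
  have hsmul : ∀ (a : Res A) (x : Fin 2 → LaurentSeries (Res A)) (s : Fin 2),
      (a • x) s = algebraMap (Res A) _ a * x s := fun a x s => by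
    rw [Pi.smul_apply, ← HahnSeries.C_mul_eq_smul, algebraMap_laurentSeries_eq_single]
    rfl
  have hzeq : ∀ s, red C hpM z s =
      algebraMap (Res A) _ c * (red C hpM ψ s ^ (p - 1) * wb s) := by
    intro s
    have h2 := congrFun hrel s
    simp only [Pi.mul_apply, Pi.add_apply, Pi.pow_apply, hψ₁r, one_pow, mul_one] at h2
    have h3 : algebraMap (Res A) (LaurentSeries (Res A)) c * algebraMap (Res A) _ c⁻¹ = 1 := by
      rw [← map_mul, mul_inv_cancel₀ hc0, map_one]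
    have h4 : red C hpM ψ s ^ (p - 1) * red C hpM ψ s = red C hpM ψ s ^ p := by
      rw [← pow_succ]; congr 1; have := (Fact.out : p.Prime).pos; omega
    rw [hwb, Pi.sub_apply, hsmul, Pi.mul_apply]
    linear_combination (-1 : LaurentSeries (Res A)) * h2 +
      red C hpM z₁ s * h4 + red C hpM z₁ s * (red C hpM ψ s ^ (p - 1) * red C hpM ψ s) * h3
  have hb : ∀ s, wb s ∈ LS ((sideDeg p s * m) • FF.poles (Res A) (jK A M)) := by
    intro s
    obtain ⟨U, hU⟩ : ∃ U : KM A M, u s = (U : LaurentSeries (Res A)) := by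
      obtain ⟨x, -, rfl⟩ := exists_sp_lift hA hu
      exact exists_red_KM hA hM x s
    obtain ⟨W, hW⟩ : ∃ W : KM A M, v s = (W : LaurentSeries (Res A)) := by
      obtain ⟨x, -, rfl⟩ := exists_sp_lift hA hv
      exact exists_red_KM hA hM x s
    obtain ⟨P₁, hP₁⟩ := exists_red_KM hA hM ψ s
    obtain ⟨Z₁, hZ₁⟩ := exists_red_KM hA hM z₁ s
    obtain ⟨ZJ, hZJ⟩ := exists_red_KM hA hM zJ s
    set J : KM A M := (jK A M ^ sideDeg p s) ^ m with hJdef
    have hJs : red C hpM (jI C hpM ^ m) s = (J : LaurentSeries (Res A)) := by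
      rw [map_pow, Pi.pow_apply, red_jI, hJdef]; push_cast; rfl
    set a : KM A M := U - algebraMap (Res A) _ c⁻¹ * (Z₁ * P₁) with hadef
    have ha : wb s = (a : LaurentSeries (Res A)) := by
      rw [hwb, Pi.sub_apply, hsmul, Pi.mul_apply, hU, hZ₁, hP₁, hadef]
      push_cast
      rfl
    have hP₁0 : P₁ ≠ 0 := fun h => hne s (by rw [hψr, hP₁, h]; rfl)
    have hp1 : p - 1 + 1 = p := by have := (Fact.out : p.Prime).pos; omega
    have heq : algebraMap (Res A) _ c * (a * J ^ p) =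
        algebraMap (Res A) _ d * (W * J ^ (p - 1)) - ZJ * P₁ := by
      have h2 := congrFun hrelJ s
      simp only [Pi.mul_apply, Pi.add_apply, Pi.pow_apply] at h2
      rw [hzeq s, hψJr, hJs, ha, hW, hZJ, hP₁] at h2
      have h3 : algebraMap (Res A) (KM A M) d * ((P₁ * J) ^ (p - 1) * W) =
          algebraMap (Res A) _ c * (P₁ ^ (p - 1) * a) * J ^ p + ZJ * P₁ ^ p :=
        Subtype.ext (by push_cast; exact h2)
      have h4 : P₁ ^ p = P₁ ^ (p - 1) * P₁ := by rw [← pow_succ, hp1]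
      rw [h4, mul_pow] at h3
      refine mul_left_cancel₀ (pow_ne_zero (p - 1) hP₁0) ?_
      linear_combination -h3
    have hUb : U ∈ _ := mem_LS.mp (hU ▸ sp_bound hA hM V hu s)
    have hWb : W ∈ _ := mem_LS.mp (hW ▸ sp_bound hA hM V hv s)
    have hPb : P₁ ∈ _ := mem_LS.mp (hP₁ ▸ sp_bound hA hM V hψm s)
    have hZb : Z₁ ∈ _ := mem_LS.mp (hZ₁ ▸ sp_bound hA hM V hz₁m s)
    have hZJb : ZJ ∈ _ := mem_LS.mp (hZJ ▸ sp_bound hA hM V hzJm s)
    rw [ha, mem_LS]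
    exact mem_bound_of_relations (jK A M) hj0 (sideDeg p s) m (Fact.out : p.Prime).pos hc0 hadef
      (by rw [hJdef] at heq; exact heq) hUb hWb hPb hZb hZJb
  obtain ⟨w, hw, hwr⟩ := exists_sp_lift hA (hsat m hm _ wb hwsp hb)
  obtain ⟨ε₁, c', hc', hpε, hε₁⟩ := exists_natCast_p C hpM
  -- scale the correction by the constant
  obtain ⟨δ, hδc, hδ⟩ : ∃ δ : intFix C hpM, (δ : FB (p * M)) ∈ HN M p m ∧
      ∀ s, algebraMap (Res A) _ c' * (red C hpM ψ s ^ (p - 1) * red C hpM δ s) =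
        red C hpM z s := by
    obtain ⟨b, hb', hbf, hbr⟩ := exists_inertiaFixed_lift hA (Fact.out : p.Prime) (c'⁻¹ * c)
    refine ⟨cst C hpM b hb' (fun τ hτ => hbf τ (C.le_inertia hτ)) * w, ?_, fun s => ?_⟩
    · rw [Subring.coe_mul]
      exact (Algebra.smul_def b (w : FB (p * M))) ▸ Submodule.smul_mem _ b hw
    · rw [map_mul, Pi.mul_apply, red_cst, hbr, hwr, hzeq, map_mul]
      have h3 : algebraMap (Res A) (LaurentSeries (Res A)) c' * algebraMap (Res A) _ c'⁻¹ = 1 := by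
        rw [← map_mul, mul_inv_cancel₀ hc', map_one]
      linear_combination algebraMap (Res A) (LaurentSeries (Res A)) c *
        (red C hpM ψ s ^ (p - 1) * wb s) * h3
  refine ⟨ψ + piI C hpM ^ n * δ, ?_, ?_, ?_⟩
  · rw [Subring.coe_add, Subring.coe_mul, Subring.coe_pow, coe_piI, ← map_pow, ← Algebra.smul_def]
    exact add_mem hψ (Submodule.smul_mem _ _ hδc)
  · have e : φ - (ψ + piI C hpM ^ n * δ) = (φ - ψ) - piI C hpM ^ n * δ := by ring
    rw [e]
    exact dvd_sub hc ((pow_dvd_pow _ hn).trans (dvd_mul_right _ _))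
  · have hp : p.Prime := Fact.out
    obtain ⟨r, hr⟩ := exists_add_pow_prime hp ψ (piI C hpM ^ n * δ)
    obtain ⟨a, ha⟩ : ∃ a, p * n = C.e + n + 1 + a := ⟨p * n - (C.e + n + 1), by
      have := pred_mul_add hp.pos n
      have := Nat.mul_le_mul_left (p - 1) hn
      omega⟩
    obtain ⟨b, hb'⟩ : ∃ b, C.e + 2 * n = C.e + n + 1 + b := ⟨n - 1, by omega⟩
    obtain ⟨q, hq⟩ := piI_dvd hA (x := z - ε₁ * (ψ ^ (p - 1) * δ)) (by
      funext s
      rw [map_sub, map_mul, map_mul, map_pow, Pi.sub_apply, Pi.mul_apply, Pi.mul_apply,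
        Pi.pow_apply, hε₁, hδ, sub_self]
      rfl)
    refine ⟨q - piI C hpM ^ a * δ ^ p - piI C hpM ^ b * (ε₁ * δ ^ 2 * r), ?_⟩
    have hexp : (piI C hpM ^ n * δ) ^ p = piI C hpM ^ (p * n) * δ ^ p := by
      rw [mul_pow, ← pow_mul, mul_comm n p]
    have hexp2 : (piI C hpM ^ n * δ) ^ 2 = piI C hpM ^ (2 * n) * δ ^ 2 := by
      rw [mul_pow, ← pow_mul, mul_comm n 2]
    rw [hr, hexp, hexp2, hpε, sub_eq_iff_eq_add.mp hz, ha, ← add_assoc C.e n 1]
    have hbb : piI C hpM ^ C.e * piI C hpM ^ (2 * n) =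
        piI C hpM ^ (C.e + n + 1) * piI C hpM ^ b := by
      rw [← pow_add, hb', pow_add]
    have hz' : z = ε₁ * (ψ ^ (p - 1) * δ) + piI C hpM * q := by linear_combination hq
    rw [hz']
    simp only [pow_add, pow_one] at hbb ⊢
    linear_combination -(ε₁ * δ ^ 2 * r) * hbb

end Fermat.Agent.RT.AtP

end
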