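import Fermat.Agent.RT.MazurP.Diff

/-!
# Functions with vanishing derivative

In a function field of characteristic `p` with algebraically closed constants the functions with
`dw/dx = 0` are `p`-th powers.
-/

set_option autoImplicit false
set_option linter.unusedSectionVars false

noncomputable section

namespace Fermat.Agent.RT.AtP

open AlgebraicCurve Fermat.Agent.RT.MazurP
open scoped IntermediateField

variable {K F : Type*} [Field K] [Field F] [Algebra K F] [IsAlgClosed K] (p : ℕ) [Fact p.Prime]
  [CharP K p] [FF.IsFunctionField K F] {x : F} [Algebra.IsSeparable K⟮x⟯ F]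
  (hx : Transcendental K x)

include hx

theorem exists_pow_eq_of_dd_eq_zero {a : F} (h : dd (K := K) x a = 0) : ∃ z : F, z ^ p = a := by
  have hp : p.Prime := Fact.out
  have : CharP F p := charP_of_injective_algebraMap (algebraMap K F).injective p
  set L := (frobenius F p).fieldRange
  have hK : ∀ k : K, algebraMap K F k ∈ L := fun k => by
    obtain ⟨r, hr⟩ := IsAlgClosed.exists_pow_nat_eq k hp.pos
    exact ⟨algebraMap K F r, by rw [frobenius_def, ← map_pow, hr]⟩
  set E : IntermediateField L F := L⟮x⟯
  have hxE : x ∈ E := IntermediateField.mem_adjoin_simple_self L x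
  have hKx : ∀ z ∈ K⟮x⟯, z ∈ E := by
    intro z hz
    induction hz using IntermediateField.adjoin_induction with
    | mem y hy => rw [Set.mem_singleton_iff.mp hy]; exact hxE
    | algebraMap k => exact E.algebraMap_mem ⟨_, hK k⟩
    | add _ _ _ _ h₁ h₂ => exact add_mem h₁ h₂
    | inv _ _ h₁ => exact inv_mem h₁
    | mul _ _ _ _ h₁ h₂ => exact mul_mem h₁ h₂
  have hsep : IsSeparable E a := by
    let i : K⟮x⟯ →+* E :=
      { toFun := fun z => ⟨z, hKx z z.2⟩
        map_one' := rfl
        map_mul' := fun _ _ => rfl
        map_zero' := rfl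
        map_add' := fun _ _ => rfl }
    let := i.toAlgebra
    have : IsScalarTower K⟮x⟯ E F := IsScalarTower.of_algebraMap_eq fun _ => rfl
    exact IsSeparable.tower_top E (Algebra.IsSeparable.isSeparable K⟮x⟯ a)
  have haE : a ∈ E := by
    have hrng : a ^ p ∈ E := E.algebraMap_mem ⟨a ^ p, ⟨a, frobenius_def _ _⟩⟩
    have : CharP E p := ⟨fun n => by
      rw [← CharP.cast_eq_zero_iff F p n, ← map_natCast (algebraMap E F) n,
        map_eq_zero_iff _ (algebraMap E F).injective]⟩
    have : ExpChar E p := ExpChar.prime hp
    have heq := IntermediateField.adjoin_simple_eq_adjoin_pow_expChar_pow_of_isSeparable E F hsep p 1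
    rw [pow_one] at heq
    have : a ∈ (E⟮a ^ p⟯ : IntermediateField E F) := heq ▸ IntermediateField.mem_adjoin_simple_self E a
    rw [show E⟮a ^ p⟯ = ⊥ from
      IntermediateField.adjoin_simple_eq_bot_iff.mpr ⟨⟨_, hrng⟩, rfl⟩] at this
    obtain ⟨b, hb⟩ := IntermediateField.mem_bot.mp this
    exact hb ▸ b.2
  have hroot : Polynomial.aeval x ((Polynomial.X : Polynomial L) ^ p -
      Polynomial.C ⟨x ^ p, ⟨x, frobenius_def _ _⟩⟩) = 0 := by
    rw [map_sub, map_pow, Polynomial.aeval_X, Polynomial.aeval_C]
    exact sub_self _
  have hmon := Polynomial.monic_X_pow_sub_C (⟨x ^ p, ⟨x, frobenius_def _ _⟩⟩ : L) hp.ne_zero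
  have hint : IsIntegral L x := ⟨_, hmon, hroot⟩
  have hdeg : (minpoly L x).natDegree ≤ p := by
    have := Polynomial.natDegree_le_of_dvd (minpoly.dvd L x hroot) hmon.ne_zero
    rwa [Polynomial.natDegree_X_pow_sub_C] at this
  obtain ⟨P₀, hP₀⟩ : ∃ P₀ : Polynomial L, Polynomial.aeval x P₀ = a := by
    have h1 : a ∈ E.toSubalgebra := haE
    rw [IntermediateField.adjoin_simple_toSubalgebra_of_isAlgebraic hint.isAlgebraic,
      Algebra.adjoin_singleton_eq_range_aeval] at h1
    exact h1
  set P := P₀ %ₘ minpoly L x with hPdef
  have hP : Polynomial.aeval x P = a := by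
    rw [hPdef, Polynomial.aeval_modByMonic_eq_self_of_root (minpoly.aeval L x), hP₀]
  have hPdeg : P.natDegree < (minpoly L x).natDegree :=
    Polynomial.natDegree_modByMonic_lt _ (minpoly.monic hint) (fun h1 => by
      have := minpoly.natDegree_pos hint
      rw [h1] at this
      simp at this)
  have hD : ∀ Q : Polynomial L, KaehlerDifferential.D K F (Polynomial.aeval x Q) =
      Polynomial.aeval x (Polynomial.derivative Q) • KaehlerDifferential.D K F x := by
    intro Q
    induction Q using Polynomial.induction_on' with
    | add u v hu hv => rw [map_add, map_add, map_add, map_add, hu, hv, add_smul]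
    | monomial n c =>
      obtain ⟨b, hb⟩ := c.2
      rw [frobenius_def] at hb
      rw [Polynomial.derivative_monomial, Polynomial.aeval_monomial, Polynomial.aeval_monomial,
        Derivation.leibniz, Derivation.leibniz_pow, map_mul, map_natCast,
        show algebraMap L F c = b ^ p from hb.symm, Derivation.leibniz_pow,
        ← Nat.cast_smul_eq_nsmul F p, CharP.cast_eq_zero, zero_smul, smul_zero, add_zero,
        ← Nat.cast_smul_eq_nsmul F n, smul_smul, smul_smul]
  have hder : Polynomial.aeval x (Polynomial.derivative P) = 0 :=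
    (dd_eq hx (hD P).symm).symm.trans (by rw [hP]; exact h)
  have hder0 : Polynomial.derivative P = 0 := by
    by_contra hne
    have h1 := Polynomial.natDegree_le_of_dvd (minpoly.dvd L x hder) hne
    have h2 := Polynomial.natDegree_derivative_le P
    omega
  have hP0 : P = Polynomial.C (P.coeff 0) := by
    ext n
    rcases n with _ | n
    · simp
    · have h1 : (Polynomial.derivative P).coeff n = 0 := by rw [hder0]; simp
      rw [Polynomial.coeff_derivative] at h1
      rw [Polynomial.coeff_C, if_neg (Nat.succ_ne_zero n)]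
      rcases mul_eq_zero.mp h1 with h2 | h2
      · exact congrArg _ h2
      · by_contra hne'
        have hne : P.coeff (n + 1) ≠ 0 := fun h0 => hne' (congrArg _ h0)
        have hn := Polynomial.le_natDegree_of_ne_zero hne
        have h4 : ((n + 1 : ℕ) : F) = 0 := by
          have := congrArg (algebraMap L F) h2
          push_cast at this ⊢
          simpa using this
        have := Nat.le_of_dvd (Nat.succ_pos n) ((CharP.cast_eq_zero_iff F p (n + 1)).mp h4)
        omega
  obtain ⟨b, hb⟩ := (P.coeff 0).2
  refine ⟨b, ?_⟩
  rw [frobenius_def] at hb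
  rw [hb, ← hP]
  conv_rhs => rw [hP0, Polynomial.aeval_C]
  rfl

end Fermat.Agent.RT.AtP

end
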