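import Fermat.Agent.RT.AtP.Flat
import Fermat.Agent.RT.AtP.Derivative
import Fermat.Agent.RT.MazurP.Regular

/-!
# Deepening congruences to one

A function of `intFix` with divisor divisible by `p` and congruent to one is, up to constants and
`p`-th powers, congruent to one to high order, unless one of its layers has nonzero regular
differential.
-/

set_option autoImplicit false
set_option linter.unusedSectionVars false

noncomputable section

namespace Fermat.Agent.RT.AtP

open ModularCurve AlgebraicCurve Fermat.Agent.Semistable Fermat.Agent.Arith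
open Fermat.Agent.RT.Mazur Fermat.Agent.RT.MazurP
open scoped IntermediateField

variable {A : ValuationSubring QBar} {p M : ℕ} [Fact p.Prime] [NeZero M]
variable {C : CoefField A p} {hpM : ¬ p ∣ M}

/-- Equality up to constants and `p`-th powers of fixed functions. -/
def PEq (C : CoefField A p) (f g : FB (p * M)) : Prop :=
  ∃ (c : QBar) (h : FB (p * M)), c ≠ 0 ∧ h ≠ 0 ∧ (∀ τ ∈ C.H, τ c = c) ∧
    (∀ τ ∈ C.H, galF (p * M) τ h = h) ∧ g = algebraMap QBar _ c * h ^ p * f

theorem PEq.refl (f : FB (p * M)) : PEq C f f :=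
  ⟨1, 1, one_ne_zero, one_ne_zero, fun τ _ => map_one τ, fun τ _ => map_one _,
    by rw [map_one, one_pow, one_mul, one_mul]⟩

theorem PEq.trans {f g k : FB (p * M)} (h₁ : PEq C f g) (h₂ : PEq C g k) : PEq C f k := by
  obtain ⟨c, h, hc, hh, hcf, hhf, rfl⟩ := h₁
  obtain ⟨c', h', hc', hh', hcf', hhf', rfl⟩ := h₂
  exact ⟨c' * c, h' * h, mul_ne_zero hc' hc, mul_ne_zero hh' hh,
    fun τ hτ => by rw [map_mul, hcf' τ hτ, hcf τ hτ],
    fun τ hτ => by rw [map_mul, hhf' τ hτ, hhf τ hτ], by rw [map_mul, mul_pow]; ring⟩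

theorem PEq.divP {f g : FB (p * M)} (h : PEq C f g) (hd : DivP p f) : DivP p g := by
  obtain ⟨c, h, hc, hh, -, -, rfl⟩ := h
  intro v
  rcases eq_or_ne f 0 with h0 | h0
  · rw [h0, mul_zero, v.ord_zero]; exact dvd_zero _
  rw [v.ord_mul (mul_ne_zero ((_root_.map_ne_zero _).mpr hc) (pow_ne_zero _ hh)) h0,
    v.ord_mul ((_root_.map_ne_zero _).mpr hc) (pow_ne_zero _ hh), FF.ord_algebraMap,
    FF.ord_pow v, zero_add]
  exact dvd_add (dvd_mul_right _ _) (hd v)

theorem coe_unit_inv {u w : intFix C hpM} (h : u * w = 1) :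
    (w : FB (p * M)) ≠ 0 ∧ (u : FB (p * M)) ≠ 0 := by
  have e : (u : FB (p * M)) * (w : FB (p * M)) = 1 := congrArg Subtype.val h
  exact ⟨right_ne_zero_of_mul_eq_one e, left_ne_zero_of_mul_eq_one e⟩

theorem divP_inv {u w : intFix C hpM} (h : u * w = 1) (hd : DivP p (u : FB (p * M))) :
    DivP p (w : FB (p * M)) := fun v => by
  obtain ⟨hw0, hu0⟩ := coe_unit_inv h
  have h1 : v.ord ((u : FB (p * M)) * (w : FB (p * M))) = 0 := by
    rw [show (u : FB (p * M)) * (w : FB (p * M)) = 1 from congrArg Subtype.val h, v.ord_one]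
  rw [v.ord_mul hu0 hw0] at h1
  rw [show v.ord (w : FB (p * M)) = -v.ord (u : FB (p * M)) by omega]
  exact (hd v).neg_right

variable [CharP (Res A) p] [FF.IsFunctionField (Res A) (KM A M)]
variable (hA : A.LiesOverPrime p) (hM : (M : Res A) ≠ 0) (V : VUnit A hpM) (hV : V.Simple)
include hA hM

omit hM in
/-- Dividing off a constant layer. -/
theorem step_const {g : intFix C hpM} {i : ℕ} (hi : 0 < i) (hg : red C hpM g = 1)
    {y : intFix C hpM} (hy : g - 1 = piI C hpM ^ i * y) {c : Res A}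
    (hc : red C hpM y = fun _ => algebraMap (Res A) _ c) :
    ∃ g' : intFix C hpM, PEq C (g : FB (p * M)) g' ∧ red C hpM g' = 1 ∧
      piI C hpM ^ (i + 1) ∣ g' - 1 := by
  obtain ⟨a, ha, haf, har⟩ := exists_inertiaFixed_lift hA (Fact.out : p.Prime) c
  have hfix : ∀ τ ∈ C.H, τ a = a := fun τ hτ => haf τ (C.le_inertia hτ)
  set a' := cst C hpM a ha hfix with ha'
  set u := 1 + piI C hpM ^ i * a' with hu
  have hur : red C hpM u = 1 := by rw [hu, map_add, map_one, red_piI_pow_mul hi, add_zero]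
  obtain ⟨w, huw, hwr⟩ := exists_inv u (fun s => by rw [hur]; exact one_ne_zero)
  obtain ⟨hw0, -⟩ := coe_unit_inv huw
  obtain ⟨z, hz⟩ := piI_dvd hA (x := y - a') (by
    rw [map_sub, hc, ha', red_cst, har, sub_self])
  have hwc : (w : FB (p * M)) = algebraMap QBar _ (1 + C.π ^ i * a)⁻¹ := by
    have e : (u : FB (p * M)) = algebraMap QBar _ (1 + C.π ^ i * a) := by
      rw [hu, Subring.coe_add, Subring.coe_mul, Subring.coe_pow, coe_piI, OneMemClass.coe_one,
        map_add, map_one, map_mul, map_pow]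
      rfl
    have e1 : (u : FB (p * M)) * (w : FB (p * M)) = 1 := congrArg Subtype.val huw
    rw [map_inv₀, ← e]
    exact eq_inv_of_mul_eq_one_right e1
  have hc0 : (1 + C.π ^ i * a)⁻¹ ≠ 0 := fun h => hw0 (by rw [hwc, h, map_zero])
  refine ⟨g * w, ⟨_, 1, hc0, one_ne_zero, fun τ hτ => ?_, fun τ _ => map_one _, ?_⟩, ?_,
    w * z, ?_⟩
  · rw [map_inv₀, map_add, map_one, map_mul, map_pow, C.π_fixed τ hτ, hfix τ hτ]
  · rw [Subring.coe_mul, hwc, one_pow, mul_one]; exact mul_comm _ _
  · funext s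
    rw [map_mul, Pi.mul_apply, hg, hwr, hur]
    simp
  · calc g * w - 1 = (g - u) * w + (u * w - 1) := by ring
      _ = (piI C hpM ^ i * (y - a')) * w := by
        rw [huw, sub_self, add_zero, hu]
        congr 1
        linear_combination hy
      _ = piI C hpM ^ (i + 1) * (w * z) := by rw [hz, pow_succ]; ring

include V hV

/-- Every pair of functions is a pair of reductions. -/
theorem exists_red_lift (z : Fin 2 → KM A M) :
    ∃ x : intFix C hpM, red C hpM x = fun s => (z s : LaurentSeries (Res A)) := by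
  classical
  have := residueField_isAlgClosed A
  obtain ⟨c, hc⟩ : ∃ c : Res A, ∀ s, z s + algebraMap (Res A) (KM A M) c ≠ 0 := by
    by_contra hall
    push Not at hall
    choose f hf using hall
    have hinj : Function.Injective f → False := fun h => by
      have := Fintype.ofInjective f h
      exact not_finite (Res A)
    refine hinj fun a b hab => ?_
    have h1 := hf a
    have h2 := hf b
    rw [hab] at h1
    exact (algebraMap (Res A) (KM A M)).injective (add_left_cancel (h1.trans h2.symm))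
  obtain ⟨φ, -, hφf, hφ⟩ := exists_fixed_pair (C := C) hA hM V hV
    (fun s => z s + algebraMap (Res A) (KM A M) c) hc 0
  choose h hr using hφ
  have e : ∀ s, algebraMap QBar LSer (C.π ^ (-(![(0 : ℤ), 0] s))) * iota2 M p hpM s φ =
      iota2 M p hpM s φ := fun s => by
    rw [show (![(0 : ℤ), 0] s) = 0 by fin_cases s <;> rfl, neg_zero, zpow_zero, map_one, one_mul]
  have hm : φ ∈ loc2 A (iota2 M p hpM) := (mem_loc2 _).mpr fun s => e s ▸ h s
  let x : intFix C hpM := ⟨φ, hm, hφf⟩
  obtain ⟨a, ha, haf, har⟩ := exists_inertiaFixed_lift hA (Fact.out : p.Prime) c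
  refine ⟨x - cst C hpM a ha (fun τ hτ => haf τ (C.le_inertia hτ)), ?_⟩
  rw [map_sub, red_cst, har]
  funext s
  rw [Pi.sub_apply, red_eq_of_val (x := x) (h s) (e s).symm, hr s]
  push_cast
  rw [sub_eq_iff_eq_add]

/-- Dividing off a layer which is a `p`-th power. -/
theorem step_root {g : intFix C hpM} {k : ℕ} (hk : 0 < k) (hke : (p - 1) * k < C.e)
    (hg : red C hpM g = 1) {y : intFix C hpM} (hy : g - 1 = piI C hpM ^ (p * k) * y)
    (z : Fin 2 → KM A M) (hz : ∀ s, red C hpM y s = (z s : LaurentSeries (Res A)) ^ p) :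
    ∃ g' : intFix C hpM, PEq C (g : FB (p * M)) g' ∧ red C hpM g' = 1 ∧
      piI C hpM ^ (p * k + 1) ∣ g' - 1 := by
  have hp : p.Prime := Fact.out
  obtain ⟨x, hx⟩ := exists_red_lift (C := C) hA hM V hV z
  set u := 1 + piI C hpM ^ k * x with hu
  have hur : red C hpM u = 1 := by rw [hu, map_add, map_one, red_piI_pow_mul hk, add_zero]
  obtain ⟨w, huw, hwr⟩ := exists_inv u (fun s => by rw [hur]; exact one_ne_zero)
  obtain ⟨hw0, -⟩ := coe_unit_inv huw
  obtain ⟨ε, r, c, -, -, hpow⟩ := exists_pow_sub 1 x k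
  rw [← hu, one_pow, one_pow, one_mul] at hpow
  obtain ⟨b, hb⟩ : ∃ b, C.e + k = p * k + 1 + b := ⟨C.e + k - (p * k + 1), by
    have := pred_mul_add hp.pos k
    omega⟩
  obtain ⟨v, hv⟩ := piI_dvd hA (x := y - x ^ p) (by
    rw [map_sub, map_pow, hx]
    funext s
    rw [Pi.sub_apply, Pi.pow_apply, hz, sub_self]
    rfl)
  set rest := v - piI C hpM ^ b * (ε * x) - piI C hpM ^ (b + k) * r
  refine ⟨g * w ^ p, ⟨1, w, one_ne_zero, hw0, fun τ _ => map_one τ, w.2.2, ?_⟩, ?_,
    w ^ p * rest, ?_⟩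
  · rw [Subring.coe_mul, Subring.coe_pow, map_one, one_mul]; exact mul_comm _ _
  · funext s
    rw [map_mul, map_pow, Pi.mul_apply, Pi.pow_apply, hg, hwr, hur]
    simp
  · have e : g * w ^ p - 1 = (g - 1 - (u ^ p - 1)) * w ^ p + ((u * w) ^ p - 1) := by
      rw [mul_pow]; ring
    rw [e, huw, one_pow, sub_self, add_zero, hpow, hy,
      show C.e + 2 * k = p * k + 1 + (b + k) by omega, hb]
    have hv' : y = x ^ p + piI C hpM * v := by linear_combination hv
    rw [hv']
    simp only [rest, pow_add, pow_one]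
    ring

variable [IsAlgClosed (Res A)] [FiniteDimensional (Res A)⟮jK A M⟯ (KM A M)]
  [Algebra.IsSeparable (Res A)⟮jK A M⟯ (KM A M)] (hg' : GoodM A M)
include hg'

omit V hV in
/-- The derivative of a function regular up to `p`-th powers is regular. -/
theorem dd_mem_regular {a : KM A M}
    (ha : ∀ P : Place (Res A) (KM A M), ∃ v : KM A M, a + v ^ p ∈ FF.ordGe P 0) :
    dd (K := Res A) (jK A M) a ∈ riemannRochSpace (regDiv A M) := by
  have hJ : Transcendental (Res A) (jK A M) := jK_transcendental A M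
  refine FF.mem_riemannRochSpace'.mpr fun P => ?_
  obtain ⟨v, hv⟩ := ha P
  have hvp : dd (K := Res A) (jK A M) (v ^ p) = 0 := by
    rw [← zpow_natCast, dd_zpow hJ, Int.cast_natCast, ← map_natCast (algebraMap (Res A) (KM A M)),
      CharP.cast_eq_zero, map_zero, zero_mul, zero_mul]
  have hda : dd (K := Res A) (jK A M) a = dd (K := Res A) (jK A M) (a + v ^ p) := by
    rw [dd_add hJ, hvp, add_zero]
  rw [hda]
  set w := a + v ^ p with hw
  rcases eq_or_ne (dd (K := Res A) (jK A M) w) 0 with h0 | h0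
  · rw [h0]; exact zero_mem _
  obtain ⟨w', hw'0, hw'v, hw'd⟩ : ∃ w' : KM A M, w' ≠ 0 ∧ P.ord w' = 0 ∧
      dd (K := Res A) (jK A M) w' = dd (K := Res A) (jK A M) w := by
    have hw0 : w ≠ 0 := fun h => h0 (by
      rw [h]; simpa using dd_algebraMap hJ (0 : Res A))
    rcases (FF.le_ord_of_mem_ordGe P hw0 hv).eq_or_lt with h | h
    · exact ⟨w, hw0, h.symm, rfl⟩
    · have h1 := FF.ord_add_eq_left P (f := (1 : KM A M)) (g := w) one_ne_zero
        (Or.inr (by rw [P.ord_one]; exact h))
      refine ⟨1 + w, h1.1, h1.2.trans P.ord_one, ?_⟩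
      rw [dd_add hJ, ← map_one (algebraMap (Res A) (KM A M)), dd_algebraMap hJ, zero_add]
  rw [← hw'd] at h0 ⊢
  refine FF.mem_ordGe_of_le P ?_
  rcases lt_or_ge (P.ord (jK A M)) 0 with hpole | hfin
  · rw [regDiv_of_pole hpole]
    obtain ⟨V', π, hgood⟩ := RedTorsion.exists_goodRed (N := M) (A := A) hM
    have hcard : Fintype.card (ModFun.Coset M) =
        Module.finrank (Res A)⟮jK A M⟯ (KM A M) := by
      rw [← Nat.card_eq_fintype_card]
      exact (RedTorsion.finrank_jF (K := Res A) (N := M) (F := KM A M) rfl hM).symm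
    have h := one_le_ord_dd_mul hJ hM (RedTorsion.cuspFamily (F := KM A M) rfl hgood) hcard P hpole
      hw'0 hw'v h0
    rw [P.ord_mul h0 (fun h => by simp [h] at hpole)] at h
    omega
  · rw [regDiv_of_finite hfin]
    exact FF.le_ord_of_mem_ordGe P h0 (dd_mem_ordGe p hA hM hg' hfin hw'0 hw'v)

/-- Deepening: either a regular layer appears or the function is congruent to one to order `B`. -/
theorem deepen {f : intFix C hpM} (hf : red C hpM f = 1) (hd : DivP p (f : FB (p * M))) :
    ∀ B : ℕ, (p - 1) * (B - 1) < p * C.e →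
      (∃ g : intFix C hpM, PEq C (f : FB (p * M)) g ∧ red C hpM g = 1 ∧
        piI C hpM ^ B ∣ g - 1) ∨
      ∃ (g y : intFix C hpM) (i : ℕ) (s : Fin 2) (a : KM A M), PEq C (f : FB (p * M)) g ∧
        red C hpM g = 1 ∧ 0 < i ∧ p ∣ i ∧ (p - 1) * i < p * C.e ∧ g - 1 = piI C hpM ^ i * y ∧
        red C hpM y s = (a : LaurentSeries (Res A)) ∧ dd (K := Res A) (jK A M) a ≠ 0 ∧
        dd (K := Res A) (jK A M) a ∈ riemannRochSpace (regDiv A M) := by
  have hp : p.Prime := Fact.out
  intro B
  induction B with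
  | zero => exact fun _ => Or.inl ⟨f, PEq.refl _, hf, by rw [pow_zero]; exact one_dvd _⟩
  | succ i ih =>
    intro hi
    rw [Nat.add_sub_cancel] at hi
    rcases eq_or_ne i 0 with rfl | hi0
    · exact Or.inl ⟨f, PEq.refl _, hf, by
        rw [pow_one]; exact piI_dvd hA (by rw [map_sub, hf, map_one, sub_self])⟩
    have hi' : 0 < i := Nat.pos_of_ne_zero hi0
    rcases ih (lt_of_le_of_lt (Nat.mul_le_mul_left _ (Nat.sub_le i 1)) hi) with
      ⟨g, hfg, hg, y, hy⟩ | h
    · have hdg := hfg.divP hd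
      by_cases hpi : p ∣ i
      · obtain ⟨k, rfl⟩ := hpi
        have hk : 0 < k := Nat.pos_of_mul_pos_left hi'
        have hke : (p - 1) * k < C.e := by
          rw [← mul_assoc, mul_comm (p - 1) p, mul_assoc] at hi
          exact Nat.lt_of_mul_lt_mul_left hi
        choose a ha using fun s => exists_red_KM hA hM y s
        by_cases hda : ∀ s, dd (K := Res A) (jK A M) (a s) = 0
        · choose z hz using fun s =>
            exists_pow_eq_of_dd_eq_zero p (jK_transcendental A M) (hda s)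
          obtain ⟨g', h1, h2, h3⟩ := step_root hA hM V hV hk hke hg hy z fun s => by
            rw [ha, ← hz s]; push_cast; rfl
          exact Or.inl ⟨g', hfg.trans h1, h2, h3⟩
        · push Not at hda
          obtain ⟨s, hs⟩ := hda
          exact Or.inr ⟨g, y, p * k, s, a s, hfg, hg, hi', dvd_mul_right p k, hi, hy, ha s, hs,
            dd_mem_regular hA hM hg' fun P =>
              layer_regular hA hM V hV hg hdg hk hke hy s (ha s) P⟩
      · obtain ⟨c, hc⟩ := layer_const hA hM V hV hg hdg hi' hpi hi hy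
        obtain ⟨g', h1, h2, h3⟩ := step_const hA hi' hg hy hc
        exact Or.inl ⟨g', hfg.trans h1, h2, h3⟩
    · exact Or.inr h

end Fermat.Agent.RT.AtP

end
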