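import Fermat.Agent.GaloisReps.Results
import Fermat.Agent.GaloisReps.Characters
import Fermat.Prelude.Def_FLTPrelim_Modularity

/-!
# Eigen torsion classes of congruent eigenforms

A normalised eigenform congruent to `a` modulo a maximal ideal over `p` gives a nonzero point of
order `p` of the Jacobian on which the Hecke operators act by `a`.
-/

set_option autoImplicit false

noncomputable section

open AlgebraicCurve ModularCurve Matrix
open Fermat.Agent.GaloisReps

namespace Fermat.Agent.RT.AtP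

/-- The residue field of a maximal ideal over `p` embeds in an algebraic closure of `𝔽_p`. -/
theorem exists_residueHom {p : ℕ} [Fact p.Prime] (F : Type*) [Field F] [IsAlgClosed F]
    [Algebra (ZMod p) F] (𝔫 : Ideal (integralClosure ℤ ℂ)) [𝔫.IsMaximal]
    (hp𝔫 : (p : integralClosure ℤ ℂ) ∈ 𝔫) :
    ∃ φ : integralClosure ℤ ℂ →+* F, RingHom.ker φ = 𝔫 := by
  let : Field (integralClosure ℤ ℂ ⧸ 𝔫) := Ideal.Quotient.field 𝔫
  have hpF : CharP (integralClosure ℤ ℂ ⧸ 𝔫) p := by
    refine (CharP.charP_iff_prime_eq_zero Fact.out).mpr ?_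
    rw [← map_natCast (Ideal.Quotient.mk 𝔫), Ideal.Quotient.eq_zero_iff_mem]
    exact hp𝔫
  let : Algebra (ZMod p) (integralClosure ℤ ℂ ⧸ 𝔫) := ZMod.algebra _ p
  have : Algebra.IsIntegral (ZMod p) (integralClosure ℤ ℂ ⧸ 𝔫) :=
    ⟨fun x => (Algebra.IsIntegral.isIntegral (R := ℤ) x).tower_top⟩
  let j : (integralClosure ℤ ℂ ⧸ 𝔫) →ₐ[ZMod p] F := IsAlgClosed.lift
  refine ⟨j.toRingHom.comp (Ideal.Quotient.mk 𝔫), ?_⟩
  ext x
  rw [RingHom.mem_ker, RingHom.comp_apply, map_eq_zero_iff _ (RingHom.injective j.toRingHom),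
    Ideal.Quotient.eq_zero_iff_mem]

/-- In an ideal over `p` a congruence to an integer only depends on its class modulo `p`. -/
theorem sub_intCast_mem {R : Type*} [CommRing R] {p : ℕ} {𝔪 : Ideal R} (hp𝔪 : (p : R) ∈ 𝔪)
    {x y : ℤ} (h : (x : ZMod p) = y) {c : R} (hc : c - (y : R) ∈ 𝔪) : c - (x : R) ∈ 𝔪 := by
  obtain ⟨n, hn⟩ : (p : ℤ) ∣ x - y := by
    rw [← ZMod.intCast_zmod_eq_zero_iff_dvd, Int.cast_sub, h, sub_self]
  rw [eq_add_of_sub_eq' hn, Int.cast_add, ← sub_sub, Int.cast_mul, Int.cast_natCast]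
  exact 𝔪.sub_mem hc (𝔪.mul_mem_right _ hp𝔪)

/-- A finite module over a commutative ring, with annihilator inside a prime, has a nonzero
element killed by that prime. -/
theorem exists_killed_by_prime {R V : Type*} [CommRing R] [AddCommGroup V] [Module R V] [Finite V]
    (n : Ideal R) [hn : n.IsPrime] (hann : ∀ t : R, (∀ v : V, t • v = 0) → t ∈ n) :
    ∃ v : V, v ≠ 0 ∧ ∀ t ∈ n, t • v = 0 := by
  classical
  have := Fintype.ofFinite V
  let A : V → Ideal R := fun v => LinearMap.ker (LinearMap.toSpanSingleton R V v)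
  obtain ⟨v₀, hv₀⟩ : ∃ v, A v ≤ n := by
    obtain ⟨v, -, h⟩ := (hn.inf_le' (s := Finset.univ) (f := A)).1 fun t ht => hann t fun v =>
      (Submodule.mem_finsetInf.1 ht v (Finset.mem_univ v) :)
    exact ⟨v, h⟩
  obtain ⟨v, hv, hmax⟩ := Set.Finite.exists_maximalFor A {v | A v ≤ n} (Set.toFinite _) ⟨v₀, hv₀⟩
  refine ⟨v, fun h => hn.ne_top (top_le_iff.1 (le_trans (fun x _ => by simp [A, h]) hv)),
    fun t ht => ?_⟩
  -- some element outside `n` kills `t • v`, else `t` would act invertibly on `R • v`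
  obtain ⟨s, hs, hsn⟩ : ∃ s ∈ A (t • v), s ∉ n := by
    by_contra! hle
    have hinj : ∀ u, u • t • v = 0 → u • v = 0 := fun u hu =>
      show u ∈ A v from hmax (j := t • v) hle (fun x (hx : x • v = 0) => show x • t • v = 0 by
        rw [smul_comm, hx, smul_zero]) hu
    let f : (R ∙ v) →ₗ[R] (R ∙ v) := LinearMap.lsmul R _ t
    have hf : Function.Surjective f := Finite.injective_iff_surjective.1 <|
      (injective_iff_map_eq_zero f).2 fun ⟨x, hx⟩ h => by
        obtain ⟨u, rfl⟩ := Submodule.mem_span_singleton.1 hx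
        exact Subtype.ext (hinj u ((smul_comm t u v).symm.trans (congrArg Subtype.val h) ▸ rfl))
    obtain ⟨⟨x, hx⟩, h⟩ := hf ⟨v, Submodule.mem_span_singleton_self v⟩
    obtain ⟨u, rfl⟩ := Submodule.mem_span_singleton.1 hx
    have h1 : 1 - t * u ∈ n := hv (show (1 - t * u) • v = 0 by
      rw [sub_smul, one_smul, mul_smul, show t • u • v = v from congrArg Subtype.val h, sub_self])
    exact hn.ne_top (n.eq_top_iff_one.2 (by simpa using n.add_mem h1 (n.mul_mem_right u ht)))
  have hsv : A (s • v) ≤ n := fun x (hx : x • s • v = 0) =>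
    (hn.mem_or_mem (hv (show (x * s) • v = 0 by rw [mul_smul, hx]))).resolve_right hsn
  exact hmax hsv (fun x (hx : x • v = 0) => show x • s • v = 0 by rw [smul_comm, hx, smul_zero])
    (show t • s • v = 0 by rw [smul_comm]; exact hs)

variable {N : ℕ} [NeZero N] {p : ℕ} [Fact p.Prime]

/-- A vector of the lattice modulo `p` killed by an ideal of congruence. -/
theorem exists_kernel_vector (θ : FullHecke N →+* integralClosure ℤ ℂ)
    (m : Ideal (integralClosure ℤ ℂ)) [hm : m.IsPrime] (hpm : (p : integralClosure ℤ ℂ) ∈ m) :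
    ∃ w : Fin (2 * Gamma0.genus N) → ZMod (p ^ 1), w ≠ 0 ∧ ∀ t : FullHecke N,
      θ t ∈ m → matIn (latticeMat N) (ZMod (p ^ 1)) t *ᵥ w = 0 := by
  have hp : p.Prime := Fact.out
  set d := 2 * Gamma0.genus N
  let h := latticeMat N
  have hinj : Function.Injective h := latticeMat_injective
  let V := Fin d → ZMod (p ^ 1)
  let act : FullHecke N →+* Module.End (ZMod (p ^ 1)) V :=
    (Matrix.toLinAlgEquiv' (R := ZMod (p ^ 1)) (n := Fin d)).toAlgHom.toRingHom.comp
      (matIn h (ZMod (p ^ 1)))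
  let _ : Module (FullHecke N) V := Module.compHom V act
  have hsmul : ∀ (t : FullHecke N) (v : V), t • v = matIn h (ZMod (p ^ 1)) t *ᵥ v := fun t v =>
    Matrix.toLinAlgEquiv'_apply _ _
  let n : Ideal (FullHecke N) := Ideal.comap θ m
  have hann : ∀ t : FullHecke N, (∀ v : V, t • v = 0) → t ∈ n := by
    intro t ht
    have hA : ∀ i j, (p : ℤ) ∣ h t i j := by
      intro i j
      have hM : matIn h (ZMod (p ^ 1)) t = 0 :=
        Matrix.ext_iff_mulVec.mpr fun v => by rw [← hsmul, ht v, Matrix.zero_mulVec]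
      have h0 := congrFun (congrFun hM i) j
      simp only [matIn_apply, Matrix.map_apply, Int.coe_castRingHom, Matrix.zero_apply] at h0
      rw [ZMod.intCast_zmod_eq_zero_iff_dvd, pow_one] at h0
      exact h0
    choose B hB using hA
    set Bm : Matrix (Fin d) (Fin d) ℤ := Matrix.of B with hBm
    have hAB : h t = (p : ℤ) • Bm := by
      ext i j
      rw [Matrix.smul_apply, smul_eq_mul]
      exact hB i j
    -- the value is a root of the characteristic polynomial of the matrix
    have hroot : Polynomial.aeval t (h t).charpoly = 0 := by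
      apply hinj
      rw [map_zero]
      have := Polynomial.hom_eval₂ (h t).charpoly (algebraMap ℤ (FullHecke N)) h t
      rw [Polynomial.aeval_def, this,
        Subsingleton.elim (h.comp _) (algebraMap ℤ (Matrix (Fin d) (Fin d) ℤ))]
      exact Matrix.aeval_self_charpoly (h t)
    have hrootC : ((h t).map (Int.castRingHom ℂ)).charpoly.eval ((θ t : ℂ)) = 0 := by
      rw [Matrix.charpoly_map, Polynomial.eval_map]
      have := congrArg (fun x => ((θ x : integralClosure ℤ ℂ) : ℂ)) hroot
      simp only [map_zero, ZeroMemClass.coe_zero] at this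
      rw [← this]
      have e := Polynomial.hom_eval₂ (h t).charpoly (algebraMap ℤ (FullHecke N))
        ((Subalgebra.val (integralClosure ℤ ℂ)).toRingHom.comp θ) t
      rw [Polynomial.aeval_def]
      refine Eq.trans ?_ e.symm
      congr 1
      exact Subsingleton.elim _ _
    set β : ℂ := (θ t : ℂ) / p with hβ
    have hp0 : (p : ℂ) ≠ 0 := Nat.cast_ne_zero.mpr hp.ne_zero
    have hβint : IsIntegral ℤ β := by
      refine ⟨Bm.charpoly, Bm.charpoly_monic, ?_⟩
      rw [Matrix.eval_charpoly] at hrootC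
      have e : Matrix.scalar (Fin d) (θ t : ℂ) - (h t).map (Int.castRingHom ℂ) =
          (p : ℂ) • (Matrix.scalar (Fin d) β - Bm.map (Int.castRingHom ℂ)) := by
        rw [hAB, smul_sub]
        ext i j
        simp only [Matrix.sub_apply, Matrix.smul_apply, Matrix.map_apply, Int.coe_castRingHom,
          smul_eq_mul, Int.cast_mul, Int.cast_natCast]
        congr 1
        rcases eq_or_ne i j with rfl | hij
        · simp [hβ, mul_div_cancel₀ _ hp0]
        · simp [hij]
      rw [e, Matrix.det_smul, mul_eq_zero] at hrootC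
      have h2 := hrootC.resolve_left (pow_ne_zero _ hp0)
      rw [← Matrix.eval_charpoly, Matrix.charpoly_map, Polynomial.eval_map] at h2
      exact h2
    show θ t ∈ m
    rw [show θ t = (p : integralClosure ℤ ℂ) * ⟨β, hβint⟩ from Subtype.ext (by
      show (θ t : ℂ) = (p : ℂ) * β
      rw [hβ, mul_div_cancel₀ _ hp0])]
    exact m.mul_mem_right _ hpm
  obtain ⟨w, hw0, hw⟩ := exists_killed_by_prime n hann
  exact ⟨w, hw0, fun t ht => (hsmul t w).symm.trans (hw t ht)⟩

/-- A vector killed by the ideal of congruence gives an eigen class. -/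
theorem heckeOperatorBar_symm {g : CuspForm (CongruenceSubgroup.Gamma0 N) 2}
    (θ : FullHecke N →+* integralClosure ℤ ℂ)
    (hθ : ∀ l (hl : l.Prime), (θ (HeckeDuality.heckeOp N 2 l hl) : ℂ) = ModularFormClass.qCoeff g l)
    (m : Ideal (integralClosure ℤ ℂ)) (G : ℕ → Prop) (a : ℕ → ℕ)
    (hcong : ∀ l, l.Prime → G l → ∃ c : integralClosure ℤ ℂ,
      (c : ℂ) = ModularFormClass.qCoeff g l ∧ c - ((a l : ℤ) : integralClosure ℤ ℂ) ∈ m)
    {w : Fin (2 * Gamma0.genus N) → ZMod (p ^ 1)}
    (hw : ∀ t : FullHecke N, θ t ∈ m → matIn (latticeMat N) (ZMod (p ^ 1)) t *ᵥ w = 0)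
    (l : ℕ) (hl : l.Prime) (hGl : G l) :
    heckeOperatorBar N ⟨l, hl⟩ ((((torsionIso N p (conjProperty N)).psi 1).symm w : JTors N p 1) :
      JZero N) = a l • ((((torsionIso N p (conjProperty N)).psi 1).symm w : JTors N p 1) : JZero N) := by
  obtain ⟨c, hc, hcm⟩ := hcong l hl hGl
  have h0 := hw (HeckeDuality.heckeOp N 2 l hl - (a l : FullHecke N)) (by
    rw [map_sub, map_natCast, show θ (HeckeDuality.heckeOp N 2 l hl) = c from
      Subtype.ext ((hθ l hl).trans hc.symm)]
    simpa using hcm)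
  rw [map_sub, map_natCast, Matrix.sub_mulVec, sub_eq_zero, Matrix.natCast_mulVec] at h0
  set z := ((torsionIso N p (conjProperty N)).psi 1).symm w with hz
  have e : heckeTors 1 ⟨l, hl⟩ z = a l • z := by
    apply ((torsionIso N p (conjProperty N)).psi 1).injective
    rw [map_nsmul, ← TorsionIso.mat_mulVec, TorsionIso.mat_heckeTors, hz,
      AddEquiv.apply_symm_apply]
    simpa only [matIn_apply, latticeMat_heckeOp, Nat.cast_smul_eq_nsmul] using h0
  exact congrArg Subtype.val e

/-- A congruent eigenform gives an eigen class of order `p`. -/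
theorem exists_eigenclass {g : CuspForm (CongruenceSubgroup.Gamma0 N) 2}
    (hg : g.IsNormalizedEigenform) (m : Ideal (integralClosure ℤ ℂ)) [m.IsPrime]
    (hpm : (p : integralClosure ℤ ℂ) ∈ m) (G : ℕ → Prop) (a : ℕ → ℕ)
    (hcong : ∀ l, l.Prime → G l → ∃ c : integralClosure ℤ ℂ,
      (c : ℂ) = ModularFormClass.qCoeff g l ∧ c - ((a l : ℤ) : integralClosure ℤ ℂ) ∈ m) :
    ∃ x : JZero N, x ≠ 0 ∧ p • x = 0 ∧
      ∀ l (hl : l.Prime), G l → heckeOperatorBar N ⟨l, hl⟩ x = a l • x := by
  obtain ⟨θ, hθ⟩ := GaloisReps.exists_eigenform_character hg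
  obtain ⟨w, hw0, hw⟩ := exists_kernel_vector θ m hpm
  set z := ((torsionIso N p (conjProperty N)).psi 1).symm w with hz
  refine ⟨(z : JZero N), fun h0 => hw0 ?_, by simpa using Pic0.mem_torsion.mp z.2,
    heckeOperatorBar_symm θ hθ m G a hcong hw⟩
  have : z = 0 := Subtype.ext h0
  rw [hz, AddEquiv.map_eq_zero_iff] at this
  exact this

/-- The points of order `p` are finite in number. -/
theorem finite_pTors (N p : ℕ) [NeZero N] [Fact p.Prime] : Finite {x : JZero N // p • x = 0} := by
  have : NeZero (p ^ 1) := ⟨pow_ne_zero 1 (Fact.out : p.Prime).ne_zero⟩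
  have : Finite (JTors N p 1) :=
    Finite.of_equiv _ ((torsionIso N p (conjProperty N)).psi 1).symm.toEquiv
  exact Finite.of_injective
    (fun x => (⟨x.1, Pic0.mem_torsion.mpr (by rw [natCast_zsmul, pow_one]; exact x.2)⟩ :
      JTors N p 1))
    fun x y h => Subtype.ext (congrArg (fun z : JTors N p 1 => (z : JZero N)) h)

end Fermat.Agent.RT.AtP

end
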