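import Fermat.Agent.RT.AtP.Ring

/-!
# Functions congruent to one

For `f` in `intFix` with divisor divisible by `p` and `f ≡ 1 (mod π ^ i)` the functions `φ` with
`φ ^ p f` in a space of bounded poles are congruent to functions of that space to an order
depending on `i`; hence the layer `(f - 1) / π ^ i` is constant when `p ∤ i`, and is regular up to
`p`-th powers when `p ∣ i`.
-/

set_option autoImplicit false
set_option linter.unusedSectionVars false

noncomputable section

namespace Fermat.Agent.RT.AtP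

open ModularCurve AlgebraicCurve Fermat.Agent.Semistable Fermat.Agent.Arith
open Fermat.Agent.RT.Mazur Fermat.Agent.RT.MazurP

/-- The first two and the last term of a binomial expansion with prime exponent. -/
theorem exists_add_pow_prime {R : Type*} [CommRing R] {p : ℕ} (hp : p.Prime) (x y : R) :
    ∃ r : R, (x + y) ^ p = x ^ p + y ^ p + (p : R) * (x ^ (p - 1) * y) + (p : R) * y ^ 2 * r := by
  obtain ⟨r, hr⟩ : (p : R) * y ^ 2 ∣
      ∑ k ∈ Finset.Ico 2 p, y ^ k * x ^ (p - k) * (p.choose k : R) := by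
    refine Finset.dvd_sum fun k hk => ?_
    rw [Finset.mem_Ico] at hk
    obtain ⟨c, hc⟩ := Nat.Prime.dvd_choose_self hp (by omega : k ≠ 0) hk.2
    rw [hc, Nat.cast_mul, mul_comm (y ^ k * x ^ (p - k))]
    exact mul_dvd_mul (dvd_mul_right _ _) ((pow_dvd_pow y hk.1).trans (dvd_mul_right _ _))
  refine ⟨r, ?_⟩
  rw [← hr, add_comm x y, add_pow, Finset.sum_range_succ, Nat.choose_self, Nat.sub_self,
    pow_zero, Nat.cast_one, mul_one, mul_one, Finset.range_eq_Ico,
    Finset.sum_eq_sum_Ico_succ_bot hp.pos, Finset.sum_eq_sum_Ico_succ_bot hp.one_lt]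
  simp only [Nat.choose_zero_right, Nat.choose_one_right, Nat.cast_one, Nat.sub_zero, pow_zero,
    pow_one, one_mul, mul_one, Nat.reduceAdd]
  ring

theorem pred_mul_add {p : ℕ} (hp : 0 < p) (k : ℕ) : p * k = (p - 1) * k + k := by
  rw [← Nat.succ_mul]
  congr 1
  omega

variable {A : ValuationSubring QBar} {p M : ℕ} [Fact p.Prime] [NeZero M]
variable {C : CoefField A p} {hpM : ¬ p ∣ M}

/-- Divisibility of differences of powers. -/
theorem exists_pow_sub (x w : intFix C hpM) (j : ℕ) :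
    ∃ (ε r : intFix C hpM) (c : Res A), c ≠ 0 ∧
      red C hpM ε = (fun _ => algebraMap (Res A) _ c) ∧
      (x + piI C hpM ^ j * w) ^ p - x ^ p = piI C hpM ^ (p * j) * w ^ p +
        piI C hpM ^ (C.e + j) * (ε * (x ^ (p - 1) * w)) + piI C hpM ^ (C.e + 2 * j) * r := by
  obtain ⟨ε, c, hc, hpε, hε⟩ := exists_natCast_p C hpM
  obtain ⟨r, hr⟩ := exists_add_pow_prime (Fact.out : p.Prime) x (piI C hpM ^ j * w)
  refine ⟨ε, ε * w ^ 2 * r, c, hc, hε, ?_⟩
  rw [hr, hpε, mul_pow, ← pow_mul, mul_comm j p, mul_pow, ← pow_mul, mul_comm j 2]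
  rw [pow_add, pow_add]
  ring

/-- A function with zero reductions divisible by `π ^ n` times a given one. -/
theorem mem_HN_of_piI_pow_mul {m n : ℕ} {x y : intFix C hpM} (h : x = piI C hpM ^ n * y)
    (hx : (x : FB (p * M)) ∈ HN M p m) : (y : FB (p * M)) ∈ HN M p m := by
  have h0 : algebraMap QBar (FB (p * M)) (C.π ^ n) ≠ 0 :=
    (_root_.map_ne_zero _).mpr (pow_ne_zero _ C.π_ne_zero)
  have e : (y : FB (p * M)) = algebraMap QBar (FB (p * M)) (C.π ^ n)⁻¹ * (x : FB (p * M)) := by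
    rw [h, Subring.coe_mul, Subring.coe_pow, coe_piI, map_inv₀, ← map_pow, inv_mul_cancel_left₀ h0]
  rw [e, ← Algebra.smul_def]
  exact Submodule.smul_mem _ _ hx

variable (p) in
/-- The divisor is divisible by `p`. -/
def DivP (f : FB (p * M)) : Prop := ∀ v : Place QBar (FB (p * M)), (p : ℤ) ∣ v.ord f

/-- The Kummer data of a function with both reductions one. -/
def flatKum (f : intFix C hpM) (hf : red C hpM f = 1) (hd : DivP p (f : FB (p * M))) :
    Kum hpM C p where
  l_pos := (Fact.out : p.Prime).pos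
  f := f
  f_ne h := one_ne_zero (α := LaurentSeries (Res A)) (by
    have := congrFun hf 0
    rw [show f = 0 from Subtype.ext h, map_zero] at this
    exact this.symm)
  dvd := hd
  fix := f.2.2
  v := 0
  fb := 1
  fb_ne _ := one_ne_zero
  spec s := by
    have e : algebraMap QBar LSer (C.π ^ (-(0 : Fin 2 → ℤ) s)) * iota2 M p hpM s f =
        iota2 M p hpM s f := by
      rw [Pi.zero_apply, neg_zero, zpow_zero, map_one, one_mul]
    exact ⟨by rw [e]; exact locS_of_intFix f s,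
      (redL_congr _ (locS_of_intFix f s) e).trans (congrFun hf s)⟩

variable [CharP (Res A) p] [FF.IsFunctionField (Res A) (KM A M)]
variable (hA : A.LiesOverPrime p) (hM : (M : Res A) ≠ 0) (V : VUnit A hpM) (hV : V.Simple)
include hA hM hV

/-- Every reduction of a bounded function is the reduction of a section of `f`. -/
theorem exists_section_lift (f : intFix C hpM) (hf : red C hpM f = 1)
    (hd : DivP p (f : FB (p * M))) :
    ∃ m₀ : ℕ, ∀ m, m₀ ≤ m → ∀ r ∈ sp C hpM m, ∃ φ : intFix C hpM,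
      (φ : FB (p * M)) ^ p * f ∈ HN M p (p * m) ∧ red C hpM φ = r := by
  set K := flatKum f hf hd
  obtain ⟨m₀, hm₀⟩ := K.exists_Im_congr V hA hM hV (Kum.one C hpM) rfl rfl (k := 0) (by
    rw [show K.δ = 0 from rfl]; simp)
  refine ⟨m₀, fun m hm r hr => ?_⟩
  have hr' : r ∈ (Kum.one C hpM).Im 0 m := hr
  rw [← hm₀ m hm] at hr'
  obtain ⟨φ, hφ, hφf, h, hred⟩ := (K.Im_spec hA 0 m).2.2 r hr'
  have hφ' : φ ^ p * K.f ∈ HN M p (p * m) := K.mem_V.mp hφ
  have hm' : φ ∈ loc2 A (iota2 M p hpM) :=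
    (mem_loc2 _).mpr fun s => by rw [← tw_zero C]; exact h s
  let x : intFix C hpM := ⟨φ, hm', hφf⟩
  exact ⟨x, hφ', funext fun s =>
    (red_eq_of_val (x := x) (h s) (tw_zero C hpM φ s).symm).trans (hred s)⟩

/-- A pair whose `p`-th power is a reduction is one. -/
theorem exists_root_mem_sp :
    ∃ m₀ : ℕ, ∀ m, m₀ ≤ m → ∀ z : intFix C hpM,
      red C hpM z ^ p ∈ sp C hpM (p * m) → red C hpM z ∈ sp C hpM m := by
  classical
  set T := Kum.one C hpM
  have hk : 0 ≤ (p : ℤ) * 0 + T.δ := by rw [show T.δ = 0 from rfl]; simp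
  obtain ⟨m₀, hm₀⟩ := T.exists_Im_eq_twistSp V hA hM hV hk
  refine ⟨m₀, fun m hm z hz => ?_⟩
  rw [sp, hm₀ m hm, Kum.mem_twistSp]
  have key : ∀ s, red C hpM z s ∈ LS ((sideDeg p s * m) • FF.poles (Res A) (jK A M)) := by
    intro s
    obtain ⟨a, ha⟩ := exists_red_KM hA hM z s
    have h := sp_bound hA hM V hz s
    rw [Pi.pow_apply, ha, show (a : LaurentSeries (Res A)) ^ p =
      ((a ^ p : KM A M) : LaurentSeries (Res A)) by push_cast; rfl, mem_LS,
      FF.mem_riemannRochSpace'] at h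
    rw [ha, mem_LS, FF.mem_riemannRochSpace']
    intro P
    rcases eq_or_ne a 0 with h0 | h0
    · rw [h0]; exact zero_mem _
    refine FF.mem_ordGe_of_le P ?_
    have h1 := FF.le_ord_of_mem_ordGe P (pow_ne_zero _ h0) (h P)
    rw [FF.ord_pow P, Finsupp.smul_apply, nsmul_eq_mul] at h1
    rw [Finsupp.smul_apply, nsmul_eq_mul]
    push_cast at h1 ⊢
    refine le_of_mul_le_mul_left ?_ (by exact_mod_cast (Fact.out : p.Prime).pos : (0 : ℤ) < p)
    linarith
  refine ⟨?_, ?_, ?_⟩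
  · have e : T.EA V 0 m = (sideDeg p 0 * m) • FF.poles (Res A) (jK A M) := Finsupp.ext fun P => by
      rw [Kum.EA, Finsupp.sub_apply, Finsupp.onFinset_apply, (lA_one_zero V P).1, sub_zero,
        show sideDeg p 0 * m = m from one_mul m]
    rw [e]; exact key 0
  · have e : T.EB V 0 m = (sideDeg p 1 * m) • FF.poles (Res A) (jK A M) := Finsupp.ext fun P => by
      rw [Kum.EB, Finsupp.sub_apply, Finsupp.onFinset_apply, (lA_one_zero V P).2, sub_zero]
      rfl
    rw [e]; exact key 1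
  · have e : (p : ℤ) * 0 + T.δ = 0 := by rw [mul_zero, zero_add]; rfl
    rw [e]
    have e2 : (fun s => red C hpM z s ^ p * (T.fb s : LaurentSeries (Res A))) =
        red C hpM z ^ p := funext fun s => by
      rw [show (T.fb s : LaurentSeries (Res A)) = 1 from rfl, mul_one]
      rfl
    rw [e2]
    exact hz

/-- Sections of a function congruent to one are congruent to bounded functions. -/
theorem exists_match {f : intFix C hpM} {i : ℕ} (hi : piI C hpM ^ i ∣ f - 1) :
    ∃ m₀ : ℕ, ∀ m, m₀ ≤ m → ∀ j : ℕ,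
      (∀ k < j, p * k < i ∧ p * k < C.e + k) →
      ∀ φ : intFix C hpM, (φ : FB (p * M)) ^ p * f ∈ HN M p (p * m) →
        ∃ ψ : intFix C hpM, (ψ : FB (p * M)) ∈ HN M p m ∧ piI C hpM ^ j ∣ φ - ψ := by
  obtain ⟨m₀, hroot⟩ := exists_root_mem_sp (C := C) hA hM V hV
  refine ⟨m₀, fun m hm j => ?_⟩
  induction j with
  | zero => exact fun _ φ _ => ⟨0, zero_mem _, by rw [pow_zero]; exact one_dvd _⟩
  | succ j ih =>
    intro hj φ hφ
    obtain ⟨hji, hje⟩ := hj j (Nat.lt_succ_self j)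
    obtain ⟨ψ, hψ, w, hw⟩ := ih (fun k hk => hj k (hk.trans (Nat.lt_succ_self j))) φ hφ
    rw [sub_eq_iff_eq_add'] at hw
    obtain ⟨y, hy⟩ := hi
    rw [sub_eq_iff_eq_add'] at hy
    obtain ⟨ε, r, c, -, -, hpow⟩ := exists_pow_sub ψ w j
    rw [← hw] at hpow
    obtain ⟨a, ha⟩ : ∃ a, i = p * j + 1 + a := ⟨i - (p * j + 1), by omega⟩
    obtain ⟨b, hb⟩ : ∃ b, C.e + j = p * j + 1 + b := ⟨C.e + j - (p * j + 1), by omega⟩
    set q := w ^ p + piI C hpM * (piI C hpM ^ b * (ε * (ψ ^ (p - 1) * w)) +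
      piI C hpM ^ (b + j) * r + piI C hpM ^ a * (φ ^ p * y)) with hq
    have key : φ ^ p * f - ψ ^ p = piI C hpM ^ (p * j) * q := by
      have e : φ ^ p * f - ψ ^ p = (φ ^ p - ψ ^ p) + φ ^ p * (piI C hpM ^ i * y) := by
        rw [hy]; ring
      rw [e, hpow, hq, show C.e + 2 * j = p * j + 1 + (b + j) by omega, ha, hb]
      simp only [pow_add, pow_one]
      ring
    have hx : ((φ ^ p * f - ψ ^ p : intFix C hpM) : FB (p * M)) ∈ HN M p (p * m) :=
      sub_mem hφ (pow_mem_polesSpace hψ p)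
    have hqm := red_mem_sp (mem_HN_of_piI_pow_mul key hx)
    rw [hq, map_add, map_mul, red_piI, zero_mul, add_zero, map_pow] at hqm
    obtain ⟨ψ₁, hψ₁, hψ₁r⟩ := exists_sp_lift hA (hroot m hm w hqm)
    obtain ⟨u, hu⟩ := piI_dvd hA (x := w - ψ₁) (by rw [map_sub, hψ₁r, sub_self])
    refine ⟨ψ + piI C hpM ^ j * ψ₁, ?_, u, ?_⟩
    · rw [Subring.coe_add, Subring.coe_mul, Subring.coe_pow, coe_piI, ← map_pow,
        ← Algebra.smul_def]
      exact add_mem hψ (Submodule.smul_mem _ _ hψ₁)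
    · rw [hw, pow_succ, mul_assoc, ← hu]
      ring

/-- A pair of functions bounded after multiplication by the powers of `1` and of `j` is
regular. -/
theorem ord_nonneg_of_bounds {m n : ℕ} {s : Fin 2} {a : KM A M}
    (h1 : (a : LaurentSeries (Res A)) ∈ LS ((sideDeg p s * n) • FF.poles (Res A) (jK A M)))
    (h2 : ((a * (jK A M ^ sideDeg p s) ^ m : KM A M) : LaurentSeries (Res A)) ∈
      LS ((sideDeg p s * m) • FF.poles (Res A) (jK A M)))
    (P : Place (Res A) (KM A M)) : 0 ≤ P.ord a := by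
  rcases eq_or_ne a 0 with h0 | h0
  · rw [h0, P.ord_zero]
  rw [mem_LS, FF.mem_riemannRochSpace'] at h1 h2
  by_cases hj : 0 ≤ P.ord (jK A M)
  · have := FF.le_ord_of_mem_ordGe P h0 (h1 P)
    simpa [FF.poles_apply, max_eq_left (show -P.ord (jK A M) ≤ 0 by omega)] using this
  · have hjne : jK A M ≠ 0 := fun h => hj (by rw [h, P.ord_zero])
    have h3 := FF.le_ord_of_mem_ordGe P (mul_ne_zero h0 (pow_ne_zero _ (pow_ne_zero _ hjne))) (h2 P)
    rw [P.ord_mul h0 (pow_ne_zero _ (pow_ne_zero _ hjne)), FF.ord_pow P, FF.ord_pow P,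
      Finsupp.smul_apply, FF.poles_apply, max_eq_right (by omega), nsmul_eq_mul] at h3
    push_cast at h3
    linarith

/-- The layer of a function congruent to one: constant if `p ∤ i`. -/
theorem layer_const {f : intFix C hpM} (hf : red C hpM f = 1) (hd : DivP p (f : FB (p * M)))
    {i : ℕ} (_hi0 : 0 < i) (hpi : ¬ p ∣ i) (hie : (p - 1) * i < p * C.e) {y : intFix C hpM}
    (hy : f - 1 = piI C hpM ^ i * y) :
    ∃ c : Res A, red C hpM y = fun _ => algebraMap (Res A) _ c := by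
  have hp : p.Prime := Fact.out
  have := residueField_isAlgClosed A
  obtain ⟨m₁, hlift⟩ := exists_section_lift hA hM V hV f hf hd
  obtain ⟨m₂, hmatch⟩ := exists_match hA hM V hV (f := f) (i := i) ⟨y, hy⟩
  set m := m₁ + m₂ + 1
  set j := i / p + 1 with hj
  have hmul : i < p * j := Nat.lt_mul_div_succ i hp.pos
  have hk : ∀ k < j, p * k < i ∧ p * k < C.e + k := by
    intro k hk
    have h1 : p * k ≤ i := le_trans (Nat.mul_le_mul_left p (Nat.lt_succ_iff.mp hk))
      (Nat.mul_div_le i p)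
    refine ⟨lt_of_le_of_ne h1 fun h => hpi ⟨k, h.symm⟩, ?_⟩
    have h2 : (p - 1) * (p * k) < p * C.e := lt_of_le_of_lt (Nat.mul_le_mul_left _ h1) hie
    rw [← mul_assoc, mul_comm (p - 1) p, mul_assoc] at h2
    have h3 := Nat.lt_of_mul_lt_mul_left h2
    have h4 := pred_mul_add hp.pos k
    omega
  have hej : i < C.e + j := by
    by_contra hle
    have h4 := pred_mul_add hp.pos i
    have h6 := Nat.mul_le_mul_left p (not_lt.mp hle)
    rw [mul_add] at h6
    omega
  have key : ∀ r ∈ sp C hpM m, r ^ p * red C hpM y ∈ sp C hpM (p * m) := by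
    intro r hr
    obtain ⟨φ, hφ, rfl⟩ := hlift m (by omega) r hr
    obtain ⟨ψ, hψ, w, hw⟩ := hmatch m (by omega) j hk φ hφ
    rw [sub_eq_iff_eq_add'] at hw
    obtain ⟨ε, r, c, -, -, hpow⟩ := exists_pow_sub ψ w j
    rw [← hw] at hpow
    obtain ⟨a, ha⟩ : ∃ a, p * j = i + 1 + a := ⟨p * j - (i + 1), by omega⟩
    obtain ⟨b, hb⟩ : ∃ b, C.e + j = i + 1 + b := ⟨C.e + j - (i + 1), by omega⟩
    have e : φ ^ p * f - ψ ^ p = piI C hpM ^ i * (φ ^ p * y + piI C hpM *
        (piI C hpM ^ a * w ^ p + piI C hpM ^ b * (ε * (ψ ^ (p - 1) * w)) +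
          piI C hpM ^ (b + j) * r)) := by
      have e0 : φ ^ p * f - ψ ^ p = (φ ^ p - ψ ^ p) + φ ^ p * (f - 1) := by ring
      rw [e0, hpow, hy, show C.e + 2 * j = i + 1 + (b + j) by omega, ha, hb]
      simp only [pow_add, pow_one]
      ring
    have h := red_mem_sp (mem_HN_of_piI_pow_mul e (sub_mem hφ (pow_mem_polesSpace hψ p)))
    rwa [map_add, map_mul _ (piI C hpM), red_piI, zero_mul, add_zero, map_mul, map_pow] at h
  choose a ha using fun s => exists_red_KM hA hM y s
  have hreg : ∀ (s : Fin 2) (P : Place (Res A) (KM A M)), 0 ≤ P.ord (a s) := by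
    intro s P
    refine ord_nonneg_of_bounds hA hM V hV (m := p * m) (n := p * m) (s := s) (a := a s) ?_ ?_ P
    · have h := key 1 (one_mem_sp m)
      rw [one_pow, one_mul] at h
      rw [← ha]
      exact sp_bound hA hM V h s
    · have h := key _ (red_mem_sp (jI_pow_mem (C := C) (hpM := hpM) m))
      have h2 := sp_bound hA hM V h s
      rw [Pi.mul_apply, Pi.pow_apply, map_pow, Pi.pow_apply, red_jI, ha, ← pow_mul] at h2
      rw [mul_comm m p] at h2
      convert h2 using 1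
      push_cast
      ring
  choose c hc using fun s => FF.eq_algebraMap_of_ord_nonneg (hreg s)
  have hy' : red C hpM y = fun s => algebraMap (Res A) _ (c s) :=
    funext fun s => by rw [ha, hc]; rfl
  have h01 : c 0 = c 1 := by
    refine sp_const (C := C) (hpM := hpM) hA hM V hV (m := p * m) ?_
    rw [← hy']
    simpa using key 1 (one_mem_sp m)
  refine ⟨c 0, hy'.trans (funext fun s => ?_)⟩
  rcases (by fin_cases s <;> simp : s = 0 ∨ s = 1) with rfl | rfl
  · rfl
  · rw [h01]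

/-- The layer of a function congruent to one: regular up to `p`-th powers if `p ∣ i`. -/
theorem layer_regular {f : intFix C hpM} (hf : red C hpM f = 1) (hd : DivP p (f : FB (p * M)))
    {k : ℕ} (_hk0 : 0 < k) (hke : (p - 1) * k < C.e) {y : intFix C hpM}
    (hy : f - 1 = piI C hpM ^ (p * k) * y) (s : Fin 2) {a : KM A M}
    (ha : red C hpM y s = (a : LaurentSeries (Res A))) (P : Place (Res A) (KM A M)) :
    ∃ v : KM A M, a + v ^ p ∈ FF.ordGe P 0 := by
  have hp : p.Prime := Fact.out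
  obtain ⟨m₁, hlift⟩ := exists_section_lift hA hM V hV f hf hd
  obtain ⟨m₂, hmatch⟩ := exists_match hA hM V hV (f := f) (i := p * k) ⟨y, hy⟩
  set m := m₁ + m₂ + 1
  have hk : ∀ l < k, p * l < p * k ∧ p * l < C.e + l := by
    intro l hl
    refine ⟨Nat.mul_lt_mul_of_pos_left hl hp.pos, ?_⟩
    have h4 := pred_mul_add hp.pos l
    have := Nat.mul_le_mul_left (p - 1) hl.le
    omega
  have key : ∀ r ∈ sp C hpM m, ∃ v : KM A M, ∀ q : KM A M,
      r s = (q : LaurentSeries (Res A)) →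
        ((q ^ p * a + v ^ p : KM A M) : LaurentSeries (Res A)) ∈
          LS ((sideDeg p s * (p * m)) • FF.poles (Res A) (jK A M)) := by
    intro r hr
    obtain ⟨φ, hφ, rfl⟩ := hlift m (by omega) r hr
    obtain ⟨ψ, hψ, w, hw⟩ := hmatch m (by omega) k hk φ hφ
    rw [sub_eq_iff_eq_add'] at hw
    obtain ⟨ε, r, c, -, -, hpow⟩ := exists_pow_sub ψ w k
    rw [← hw] at hpow
    obtain ⟨b, hb⟩ : ∃ b, C.e + k = p * k + 1 + b := ⟨C.e + k - (p * k + 1), by
      have h4 := pred_mul_add hp.pos k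
      omega⟩
    have e : φ ^ p * f - ψ ^ p = piI C hpM ^ (p * k) * ((φ ^ p * y + w ^ p) + piI C hpM *
        (piI C hpM ^ b * (ε * (ψ ^ (p - 1) * w)) + piI C hpM ^ (b + k) * r)) := by
      have e0 : φ ^ p * f - ψ ^ p = (φ ^ p - ψ ^ p) + φ ^ p * (f - 1) := by ring
      rw [e0, hpow, hy, show C.e + 2 * k = p * k + 1 + (b + k) by omega, hb]
      simp only [pow_add, pow_one]
      ring
    have h := red_mem_sp (mem_HN_of_piI_pow_mul e (sub_mem hφ (pow_mem_polesSpace hψ p)))
    rw [map_add, map_mul _ (piI C hpM), red_piI, zero_mul, add_zero, map_add, map_mul, map_pow,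
      map_pow] at h
    obtain ⟨v, hv⟩ := exists_red_KM hA hM w s
    refine ⟨v, fun q hq => ?_⟩
    have h2 := sp_bound hA hM V h s
    rw [Pi.add_apply, Pi.mul_apply, Pi.pow_apply, Pi.pow_apply, hq, hv, ha] at h2
    exact h2
  by_cases hj : 0 ≤ P.ord (jK A M)
  · obtain ⟨v, hv⟩ := key 1 (one_mem_sp m)
    refine ⟨v, ?_⟩
    have h := FF.mem_riemannRochSpace'.mp (mem_LS.mp (hv 1 rfl)) P
    simpa [FF.poles_apply, max_eq_left (show -P.ord (jK A M) ≤ 0 by omega)] using h
  · obtain ⟨v, hv⟩ := key _ (red_mem_sp (jI_pow_mem (C := C) (hpM := hpM) m))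
    set J : KM A M := (jK A M ^ sideDeg p s) ^ m with hJ
    have hjne : jK A M ≠ 0 := fun h => hj (by rw [h, P.ord_zero])
    have hJ0 : J ≠ 0 := pow_ne_zero _ (pow_ne_zero _ hjne)
    have h := FF.mem_riemannRochSpace'.mp (mem_LS.mp (hv J (by
      rw [map_pow, Pi.pow_apply, red_jI, hJ]; push_cast; ring))) P
    refine ⟨v / J, ?_⟩
    have h2 := FF.mul_mem_ordGe P h
      (FF.mem_ordGe_of_le P (le_refl (P.ord ((J ^ p)⁻¹))))
    have e : (J ^ p * a + v ^ p) * (J ^ p)⁻¹ = a + (v / J) ^ p := by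
      rw [div_pow]
      field_simp
    rw [e] at h2
    refine FF.ordGe_anti P ?_ h2
    rw [P.ord_inv, FF.ord_pow P, hJ, FF.ord_pow P, FF.ord_pow P, Finsupp.smul_apply,
      FF.poles_apply, max_eq_right (by omega), nsmul_eq_mul]
    push_cast
    linarith

end Fermat.Agent.RT.AtP

end
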