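import Fermat.Agent.RT.AtP.Deepen
import Fermat.Agent.RT.MazurP.HeckeSeries
import Fermat.Agent.RT.MazurP.Eigen

/-!
# Eigen functions

A function whose Hecke norms are powers of it up to `p`-th powers has eigen logarithmic
derivatives; reduced after dividing by a power of the uniformiser they give eigen series.
-/

set_option autoImplicit false
set_option linter.unusedSectionVars false

noncomputable section

namespace Fermat.Agent.RT.AtP

open ModularCurve AlgebraicCurve Fermat.Agent.Semistable Fermat.Agent.Arith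
open Fermat.Agent.RT.Mazur Fermat.Agent.RT.MazurP
open scoped IntermediateField

variable {A : ValuationSubring QBar} {p M : ℕ} [Fact p.Prime] [NeZero M]

theorem dlog_const_mul {K : Type*} [Field K] {c : K} (hc : c ≠ 0) {x : LaurentSeries K}
    (hx : x ≠ 0) : dlog (algebraMap K (LaurentSeries K) c * x) = dlog x := by
  rw [dlog_mul ((_root_.map_ne_zero _).mpr hc) hx, MazurP.algebraMap_eq_C, dlog_C, zero_add]

theorem twist_algebraMap {K : Type*} [Field K] (u : Kˣ) (c : K) :
    ModFun.twist u (algebraMap K (LaurentSeries K) c) = algebraMap K (LaurentSeries K) c := by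
  rw [MazurP.algebraMap_eq_C]
  ext k
  rw [ModFun.coeff_twist]
  rcases eq_or_ne k 0 with rfl | hk
  · simp
  · simp [hk]

/-- A scaled logarithmic derivative of the image of a series, reduced. -/
theorem coeff_rel_red {l : ℕ} [NeZero l] (hA : A.LiesOverPrime p) (hlp : ¬ p ∣ l)
    [CharP (Res A) p] {x y : LSer} (hx0 : x ≠ 0)
    (hkey : ∀ ζ : QBarˣ, IsPrimitiveRoot ζ l → qExpand QBar l y = heckeProd l ζ x)
    (s : QBar) (a : ℕ) (hDx : algebraMap QBar LSer s * dlog x ∈ locS A)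
    (hDy : algebraMap QBar LSer s * dlog y ∈ locS A)
    (heq : redL A ⟨_, hDy⟩ = (a : LaurentSeries (Res A)) * redL A ⟨_, hDx⟩) (n : ℤ) :
    (redL A ⟨_, hDx⟩).coeff ((l : ℤ) * n) +
        (if (l : ℤ) ∣ n then (l : Res A) * (redL A ⟨_, hDx⟩).coeff (n / l) else 0) =
      (a : Res A) * (redL A ⟨_, hDx⟩).coeff n := by
  have hp : p.Prime := Fact.out
  obtain ⟨ζ, hζ⟩ := exists_primitive (l := l)
  set Dx : LSer := algebraMap QBar LSer s * dlog x with hDxdef
  set Dy : LSer := algebraMap QBar LSer s * dlog y with hDydef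
  have hne : ∀ i : Fin l, ModFun.twist (ζ ^ (i : ℕ)) x ≠ 0 := fun i => (map_ne_zero _).mpr hx0
  have hqs : qExpand QBar l (algebraMap QBar LSer s) = algebraMap QBar LSer s := by
    rw [MazurP.algebraMap_eq_C, qExpand_C]
  -- the identity of series
  have hid : (l : LSer) * qExpand QBar l Dy =
      (l : LSer) * ((l : LSer) * qExpand QBar l (qExpand QBar l Dx)) +
        ∑ i : Fin l, ModFun.twist (ζ ^ (i : ℕ)) Dx := by
    have e := congrArg dlog (hkey ζ hζ)
    rw [heckeProd_apply, dlog_qExpand, dlog_mul ((map_ne_zero _).mpr ((map_ne_zero _).mpr hx0))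
      (Finset.prod_ne_zero_iff.mpr fun i _ => hne i), dlog_prod _ _ fun i _ => hne i,
      dlog_qExpand, dlog_qExpand] at e
    simp only [dlog_twist, map_natCast, map_mul] at e
    simp only [hDxdef, hDydef, map_mul, hqs, twist_algebraMap]
    rw [← Finset.mul_sum]
    linear_combination algebraMap QBar LSer s * e
  have hi : ∀ i : ℕ, (ζ ^ i) ^ l = 1 := fun i => by
    rw [← pow_mul, mul_comm, pow_mul, hζ.pow_eq_one, one_pow]
  choose h e using fun i : Fin l => twist_mem_locS (A := A) (hi (i : ℕ)) hDx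
  have hq := qExpand_mem_locS l hDy
  have hqq := qExpand_mem_locS l (qExpand_mem_locS l hDx)
  have hred : (l : LaurentSeries (Res A)) * qExpand (Res A) l (redL A ⟨_, hDy⟩) =
      (l : LaurentSeries (Res A)) * ((l : LaurentSeries (Res A)) *
        qExpand (Res A) l (qExpand (Res A) l (redL A ⟨_, hDx⟩))) +
        ∑ i : Fin l, ModFun.twist (resRoot A ζ hζ.pow_eq_one ^ (i : ℕ)) (redL A ⟨_, hDx⟩) := by
    have h1 : (l : locS A) * ⟨_, hq⟩ =
        (l : locS A) * ((l : locS A) * ⟨_, hqq⟩) + ∑ i : Fin l, ⟨_, h i⟩ :=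
      Subtype.ext (by push_cast; exact hid)
    have h2 := congrArg (redL A) h1
    simp only [map_add, map_mul, map_sum, map_natCast, e, redL_qExpand l hDy,
      redL_qExpand l (qExpand_mem_locS l hDx), redL_qExpand l hDx] at h2
    rw [h2]
    congr 1
  set η := redL A ⟨_, hDx⟩
  have hlK : (l : Res A) ≠ 0 := fun h0 => hlp ((CharP.cast_eq_zero_iff (Res A) p l).mp h0)
  have hξ := resRoot_primitive hA hp hlp hζ
  have e' := congrArg (fun y : LaurentSeries (Res A) => y.coeff ((l : ℤ) * n)) hred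
  rw [heq, map_mul, map_natCast] at e'
  have hC : ∀ m : ℕ, (m : LaurentSeries (Res A)) = HahnSeries.C (m : Res A) :=
    fun m => (map_natCast _ m).symm
  simp only [hC, coeff_C_mul, HahnSeries.coeff_add, HahnSeries.coeff_sum, qExpand_coeff_mul,
    ModFun.coeff_twist, ← Finset.sum_mul, sum_zpow_primitiveRoot hξ ((l : ℤ) * n), dvd_mul_right,
    if_true] at e'
  refine mul_left_cancel₀ hlK ?_
  rw [e']
  by_cases hn : (l : ℤ) ∣ n
  · obtain ⟨m, rfl⟩ := hn
    rw [if_pos (dvd_mul_right _ _), qExpand_coeff_mul,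
      Int.mul_ediv_cancel_left _ (Int.natCast_ne_zero.mpr (NeZero.ne l))]
    ring
  · rw [if_neg hn, qExpand_coeff_of_not_dvd l _ hn]
    ring

variable {hpM : ¬ p ∣ M} {C : CoefField A p}

/-- A fixed function whose Hecke norms are powers of it up to `p`-th powers and constants. -/
structure EigK (C : CoefField A p) (G : ℕ → Prop) (a : ℕ → ℕ) (f : FB (p * M)) : Prop where
  ne : f ≠ 0
  divP : DivP p f
  fix : ∀ τ ∈ C.H, galF (p * M) τ f = f
  good : ∀ l, l.Prime → G l → ¬ l ∣ p * M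
  eigen : ∀ (l : ℕ) [NeZero l], l.Prime → G l → PEq C (f ^ a l) (heckeNorm (p * M) l f)

theorem PEq.ne_zero {f g : FB (p * M)} (h : PEq C f g) (hf : f ≠ 0) : g ≠ 0 := by
  obtain ⟨c, k, hc, hk, -, -, rfl⟩ := h
  exact mul_ne_zero (mul_ne_zero ((_root_.map_ne_zero _).mpr hc) (pow_ne_zero _ hk)) hf

theorem PEq.fix {f g : FB (p * M)} (h : PEq C f g) (hf : ∀ τ ∈ C.H, galF (p * M) τ f = f) :
    ∀ τ ∈ C.H, galF (p * M) τ g = g := by
  obtain ⟨c, k, -, -, hc, hk, rfl⟩ := h
  intro τ hτ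
  rw [map_mul, map_mul, map_pow, hk τ hτ, hf τ hτ, arithmeticRingAut_algebraMap, hc τ hτ]

theorem EigK.of_peq {G : ℕ → Prop} {a : ℕ → ℕ} {f g : FB (p * M)} (E : EigK C G a f)
    (h : PEq C f g) : EigK C G a g where
  ne := h.ne_zero E.ne
  divP := h.divP E.divP
  fix := h.fix E.fix
  good := E.good
  eigen l _ hl hG := by
    obtain ⟨c, k, hc, hk, hcf, hkf, e⟩ := h
    obtain ⟨c', k', hc', hk', hcf', hkf', e'⟩ := E.eigen l hl hG
    have hN : ¬ l ∣ p * M := E.good l hl hG
    set P : FB (p * M) := algebraMap QBar _ c with hP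
    have hP0 : P ≠ 0 := (_root_.map_ne_zero _).mpr hc
    refine ⟨c ^ (l + 1) * c' * (c ^ a l)⁻¹,
      heckeNorm (p * M) l k * k' * (k ^ a l)⁻¹, mul_ne_zero (mul_ne_zero (pow_ne_zero _ hc) hc')
        (inv_ne_zero (pow_ne_zero _ hc)),
      mul_ne_zero (mul_ne_zero (heckeNorm_ne_zero hk) hk') (inv_ne_zero (pow_ne_zero _ hk)),
      fun τ hτ => by rw [map_mul, map_mul, map_inv₀, map_pow, map_pow, hcf τ hτ, hcf' τ hτ],
      fun τ hτ => by
        rw [map_mul, map_mul, map_inv₀, map_pow, ← heckeNorm_galF hl hN, hkf τ hτ, hkf' τ hτ],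
      ?_⟩
    rw [e, map_mul, map_mul, map_pow (heckeNorm (p * M) l), heckeNorm_algebraMap hl hN, e']
    simp only [map_mul, map_pow, map_inv₀, mul_pow, inv_pow, ← hP]
    field_simp
    ring

variable [CharP (Res A) p] [FF.IsFunctionField (Res A) (KM A M)] [IsAlgClosed (Res A)]
  [FiniteDimensional (Res A)⟮jK A M⟯ (KM A M)] [Algebra.IsSeparable (Res A)⟮jK A M⟯ (KM A M)]
variable (hA : A.LiesOverPrime p) (hM : (M : Res A) ≠ 0) (hnu : NoEll M)
include hA hM hnu

/-- A nonzero regular eigen differential gives a congruent form. -/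
theorem hasForm_of_eta {G : ℕ → Prop} {a : ℕ → ℕ} (hG : ∀ l, l.Prime → G l → ¬ l ∣ p * M)
    {η : LaurentSeries (Res A)} (hη : η ∈ regForms A M) (hη0 : η ≠ 0)
    (heig : ∀ l : ℕ, l.Prime → G l → ∀ n : ℤ,
      η.coeff ((l : ℤ) * n) + (if (l : ℤ) ∣ n then (l : Res A) * η.coeff (n / l) else 0) =
        (a l : Res A) * η.coeff n) : HasCong M p G a := by
  rw [regForms_eq_redLattice (A := A) (M := M) p hA hM hnu] at hη
  refine exists_eigenform_of_redLattice p hη hη0 G
    (fun l hl hGl h => hG l hl hGl (dvd_mul_of_dvd_right h p)) (fun l => (a l : ℤ))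
    fun l hl hGl n => ?_
  rw [heig l hl hGl n]
  norm_cast

/-- Eigen scaled logarithmic derivatives: `π ^ (-i) θ log f` with `i < e`, or `i ≤ e` and `f`
congruent to one. -/
theorem hasForm_of_dlog {G : ℕ → Prop} {a : ℕ → ℕ} {f : FB (p * M)} (E : EigK C G a f)
    (s : Fin 2) (i : ℕ)
    (hi : i < C.e ∨ i ≤ C.e ∧ ∃ h : iota2 M p hpM s f ∈ locS A, redL A ⟨_, h⟩ = 1)
    {g : KM A M} (hD : algebraMap QBar LSer (C.π ^ i)⁻¹ * dlog (iota2 M p hpM s f) ∈ locS A)
    (hDr : redL A ⟨_, hD⟩ = mulTheta A M g)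
    (hg : g ∈ riemannRochSpace (regDiv A M)) (hg0 : g ≠ 0) :
    HasCong M p G a := by
  have hp : p.Prime := Fact.out
  refine hasForm_of_eta hA hM hnu E.good (η := mulTheta A M g) ⟨g, hg, rfl⟩ ?_ ?_
  · rw [mulTheta_apply]
    exact mul_ne_zero (fun h => hg0 (Subtype.ext h)) red_theta_jqModC_ne_zero
  intro l hl hGl n
  have : NeZero l := ⟨hl.ne_zero⟩
  have hN : ¬ l ∣ p * M := E.good l hl hGl
  have hlp : ¬ p ∣ l := fun h => hN
    (((Nat.prime_dvd_prime_iff_eq hp hl).mp h) ▸ dvd_mul_right p M)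
  obtain ⟨c, k, hc, hk, hcf, hkf, e⟩ := E.eigen l hl hGl
  set x := iota2 M p hpM s f with hxdef
  set y := iota2 M p hpM s (heckeNorm (p * M) l f) with hydef
  set H := iota2 M p hpM s k with hHdef
  have hx0 : x ≠ 0 := (_root_.map_ne_zero _).mpr E.ne
  have hH0 : H ≠ 0 := (_root_.map_ne_zero _).mpr hk
  have hHfix : C.Fix H := fun τ hτ => by rw [hHdef, ← iota2_galF, hkf τ hτ]
  obtain ⟨γ, hγ, hγne⟩ := C.exists_zpow_isGUnit hA hp (iota2_fracS M p hpM s k) hH0 hHfix
  set H' := algebraMap QBar LSer (C.π ^ (-γ)) * H with hH'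
  have ey : y = algebraMap QBar LSer c * (H ^ p * x ^ a l) := by
    rw [hydef, e, map_mul, map_mul, map_pow, map_pow, AlgHom.commutes, mul_assoc]
  have hπγ : C.π ^ (-γ) ≠ 0 := zpow_ne_zero _ C.π_ne_zero
  have hdl : dlog y = (a l : LSer) * dlog x + (p : LSer) * dlog H' := by
    rw [ey, dlog_const_mul hc (mul_ne_zero (pow_ne_zero _ hH0) (pow_ne_zero _ hx0)),
      dlog_mul (pow_ne_zero _ hH0) (pow_ne_zero _ hx0), dlog_pow, dlog_pow, hH',
      dlog_const_mul hπγ hH0, add_comm]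
  obtain ⟨hθ, hθr⟩ := theta_mem_locS hγ
  obtain ⟨hinv, hinvr⟩ := inv_mem_locS hγ hγne
  have hdH : dlog H' ∈ locS A := by rw [dlog, div_eq_mul_inv]; exact mul_mem hθ hinv
  -- the correction has zero reduction
  obtain ⟨ε, hεA, hε⟩ : ∃ ε : QBar, ε ∈ A ∧ (p : QBar) * (C.π ^ i)⁻¹ = ε := by
    refine ⟨_, ?_, rfl⟩
    rw [← A.valuation_le_one_iff, map_mul, map_inv₀, map_pow, C.val_p,
      mul_inv_le_iff₀ (pow_pos ((Valuation.pos_iff _).mpr C.π_ne_zero) _), one_mul]
    refine pow_le_pow_right_of_le_one' ((A.valuation_le_one_iff _).mpr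
      (mem_of_mem_nonunits C.π_nonunit)) ?_
    rcases hi with h | ⟨h, -⟩ <;> omega
  have hcorr : algebraMap QBar LSer ε * dlog H' ∈ locS A :=
    mul_mem (algebraMap_mem_locS hεA) hdH
  have hcorr0 : redL A ⟨_, hcorr⟩ = 0 := by
    obtain ⟨h', e'⟩ := redL_const_mul hεA hdH
    rw [show (⟨_, hcorr⟩ : locS A) = ⟨_, h'⟩ from rfl, e']
    rcases hi with h | ⟨-, hfl, hflr⟩
    · have : ε ∈ A.nonunits := by
        rw [ValuationSubring.mem_nonunits_iff, ← hε, map_mul, map_inv₀, map_pow, C.val_p]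
        have hπ1 : A.valuation C.π < 1 := (ValuationSubring.mem_nonunits_iff A).mp C.π_nonunit
        have hπ0 : 0 < A.valuation C.π := (Valuation.pos_iff _).mpr C.π_ne_zero
        rw [mul_inv_lt_iff₀ (pow_pos hπ0 _), one_mul]
        exact pow_lt_pow_right_of_lt_one₀ hπ0 hπ1 h
      rw [(residue_eq_zero_iff _).mpr this, map_zero, zero_mul]
    · -- `H'` has constant reduction
      suffices hθ0 : theta (Res A) (redL A ⟨_, hγ⟩) = 0 by
        rw [redL_congr hdH (mul_mem hθ hinv) (by rw [dlog, div_eq_mul_inv]), redL_mul' hθ hinv,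
          hθr, hθ0, zero_mul, mul_zero]
      obtain ⟨ζ, hζ⟩ := exists_primitive (l := l)
      have hkey := qExpand_iota2_heckeNorm p M l hpM hl hN s hζ f
      obtain ⟨hm, hmr⟩ := heckeProd_mem_locS hζ.pow_eq_one hfl
      obtain ⟨hy, hyr⟩ := locS_of_qExpand hA hp
        (iota2_fracS M p hpM s (heckeNorm (p * M) l f)) (by rw [hkey]; exact hm)
      have hy1 : redL A ⟨_, hy⟩ = 1 := qExpand_injective l (by
        rw [hyr, redL_congr _ hm hkey, hmr, hflr, map_one, map_one])
      set κ := c * (C.π ^ γ) ^ p with hκ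
      have hπγ' : C.π ^ γ ≠ 0 := zpow_ne_zero _ C.π_ne_zero
      have eκ : y = algebraMap QBar LSer κ * (H' ^ p * x ^ a l) := by
        rw [ey, hH', hκ, map_mul, map_pow, zpow_neg, map_inv₀]
        have : algebraMap QBar LSer (C.π ^ γ) ≠ 0 := (_root_.map_ne_zero _).mpr hπγ'
        field_simp
        rw [div_pow]
        field_simp
      have hpow : ∃ r : Res A, redL A ⟨_, hγ⟩ ^ p = algebraMap (Res A) _ r := by
        have hprod := mul_mem (pow_mem hγ p) (pow_mem hfl (a l))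
        rcases A.mem_or_inv_mem κ with hκA | hκA
        · refine ⟨(IsLocalRing.residue A ⟨κ, hκA⟩)⁻¹, ?_⟩
          obtain ⟨hm', em'⟩ := redL_const_mul hκA hprod
          have h1 : redL A ⟨_, hy⟩ = algebraMap (Res A) _ (IsLocalRing.residue A ⟨κ, hκA⟩) *
              redL A ⟨_, hγ⟩ ^ p := by
            rw [redL_congr hy hm' eκ, em', redL_mul' (pow_mem hγ p) (pow_mem hfl (a l)),
              redL_pow' hγ, redL_pow' hfl, hflr, one_pow, mul_one]
          rw [hy1] at h1
          rw [map_inv₀]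
          exact (inv_eq_of_mul_eq_one_right h1.symm).symm
        · refine ⟨IsLocalRing.residue A ⟨κ⁻¹, hκA⟩, ?_⟩
          obtain ⟨hm', em'⟩ := redL_const_mul hκA hy
          have hκ0 : κ ≠ 0 := mul_ne_zero hc (pow_ne_zero _ hπγ')
          have h2 : H' ^ p * x ^ a l = algebraMap QBar LSer κ⁻¹ * y := by
            rw [eκ, ← mul_assoc, ← map_mul, inv_mul_cancel₀ hκ0, map_one, one_mul]
          have h1 := redL_congr hprod hm' h2
          rw [redL_mul' (pow_mem hγ p) (pow_mem hfl (a l)), redL_pow' hγ, redL_pow' hfl, hflr,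
            one_pow, mul_one, em', hy1, mul_one] at h1
          exact h1
      obtain ⟨r, hr⟩ := hpow
      obtain ⟨r', rfl⟩ := IsAlgClosed.exists_pow_nat_eq r hp.pos
      have := charP_laurent A p
      rw [map_pow] at hr
      have hcst : redL A ⟨_, hγ⟩ = algebraMap (Res A) _ r' := frobenius_inj _ p hr
      rw [hcst, MazurP.algebraMap_eq_C, theta_C]
  have hπi : algebraMap QBar LSer (C.π ^ i)⁻¹ * dlog y ∈ locS A ∧
      algebraMap QBar LSer (C.π ^ i)⁻¹ * dlog y =
        (a l : LSer) * (algebraMap QBar LSer (C.π ^ i)⁻¹ * dlog x) +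
          algebraMap QBar LSer ε * dlog H' := by
    have he : algebraMap QBar LSer (C.π ^ i)⁻¹ * dlog y =
        (a l : LSer) * (algebraMap QBar LSer (C.π ^ i)⁻¹ * dlog x) +
          algebraMap QBar LSer ε * dlog H' := by
      rw [hdl, ← hε, map_mul, map_natCast]
      ring
    exact ⟨by rw [he]; exact add_mem (mul_mem (natCast_mem _ _) hD) hcorr, he⟩
  have hkey' : ∀ ζ : QBarˣ, IsPrimitiveRoot ζ l → qExpand QBar l y = heckeProd l ζ x :=
    fun ζ hζ => qExpand_iota2_heckeNorm p M l hpM hl hN s hζ f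
  have h := coeff_rel_red hA hlp hx0 hkey' _ (a l) hD hπi.1 (by
    rw [redL_congr hπi.1 (add_mem (mul_mem (natCast_mem _ _) hD) hcorr) hπi.2]
    refine (map_add (redL A) (⟨_, mul_mem (natCast_mem _ _) hD⟩ : locS A) ⟨_, hcorr⟩).trans ?_
    rw [hcorr0, add_zero, redL_mul' (natCast_mem _ _) hD]
    congr 1
    exact map_natCast (redL A) (a l)) n
  rw [hDr] at h
  exact h

end Fermat.Agent.RT.AtP

end
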