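import Fermat.Agent.RT.AtP.Hecke
import Fermat.Agent.RT.Mazur.Rational

/-!
# Kummer functions of eigen classes

A `p`-torsion class fixed by the group of a coefficient field has a Kummer function with fixed
coefficients; if the class is an eigen class the function is an eigen function.
-/

set_option autoImplicit false
set_option linter.unusedSectionVars false

noncomputable section

namespace Fermat.Agent.RT.AtP

open ModularCurve AlgebraicCurve Fermat.Agent.Semistable Fermat.Agent.Arith
open Fermat.Agent.RT.Mazur Fermat.Agent.RT.MazurP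

variable {N : ℕ} [NeZero N] {m : ℕ} [NeZero m]

/-- The function of an element of the Kummer group. -/
abbrev fn (f : JacTorsion.divGrp QBar (FB N) m) : FB N := ((f : (FB N)ˣ) : FB N)

/-- The class of an element of the Kummer group. -/
abbrev cls (f : JacTorsion.divGrp QBar (FB N) m) : JZero N :=
  (JacTorsion.toTorsion (Additive.ofMul f) : JZero N)

theorem galF_eq_smul (σ : GQ) (x : FB N) :
    galF N σ x = arithmeticGalois (modularFunctionFieldFull N) σ • x :=
  Subtype.ext ((coe_arithmeticRingAut σ x).trans (coe_arithmeticGalois_smul _ _ _).symm)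

theorem leadingCoeff_galF (σ : GQ) (x : FB N) :
    ((galF N σ x : FB N) : LSer).leadingCoeff = σ (x : LSer).leadingCoeff := by
  rw [coe_arithmeticRingAut]
  exact JacTorsion.coeffMap_leadingCoeff (σ : QBar →+* QBar) _

theorem leadingCoeff_algebraMap_mul (c : QBar) (x : FB N) :
    ((algebraMap QBar (FB N) c * x : FB N) : LSer).leadingCoeff = c * (x : LSer).leadingCoeff := by
  show (algebraMap QBar LSer c * (x : LSer)).leadingCoeff = _
  rw [HahnSeries.leadingCoeff_mul, algebraMap_laurentSeries_eq_single,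
    HahnSeries.leadingCoeff_of_single]

theorem leadingCoeff_pow (x : FB N) (n : ℕ) :
    ((x ^ n : FB N) : LSer).leadingCoeff = (x : LSer).leadingCoeff ^ n := by
  induction n with
  | zero => simp
  | succ n ih =>
    rw [pow_succ, pow_succ, ← ih]
    exact HahnSeries.leadingCoeff_mul _ _

theorem leadingCoeff_ne_zero {x : FB N} (hx : x ≠ 0) : (x : LSer).leadingCoeff ≠ 0 :=
  HahnSeries.leadingCoeff_ne_zero.mpr fun h => hx (Subtype.ext h)

/-- An `m`-th power with fixed coefficients is a fixed constant times the `m`-th power of a fixed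
function. -/
theorem exists_fixed_root (H : Subgroup GQ) {k : FB N} (hk : k ≠ 0)
    (h : ∀ τ ∈ H, galF N τ (k ^ m) = k ^ m) :
    ∃ (c : QBar) (q : FB N), c ≠ 0 ∧ q ≠ 0 ∧ (∀ τ ∈ H, τ c = c) ∧
      (∀ τ ∈ H, galF N τ q = q) ∧ k ^ m = algebraMap QBar _ c * q ^ m := by
  set b := (k : LSer).leadingCoeff with hb
  have hb0 : b ≠ 0 := leadingCoeff_ne_zero hk
  set q : FB N := algebraMap QBar _ b⁻¹ * k with hq
  have hq0 : q ≠ 0 := mul_ne_zero ((_root_.map_ne_zero _).mpr (inv_ne_zero hb0)) hk
  have hql : (q : LSer).leadingCoeff = 1 := by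
    rw [hq, leadingCoeff_algebraMap_mul, ← hb, inv_mul_cancel₀ hb0]
  have hkq : k ^ m = algebraMap QBar _ (b ^ m) * q ^ m := by
    rw [hq, mul_pow, ← mul_assoc, map_pow, ← mul_pow, ← map_mul, mul_inv_cancel₀ hb0, map_one,
      one_pow, one_mul]
  have hc : ∀ τ ∈ H, τ (b ^ m) = b ^ m := fun τ hτ => by
    have e := congrArg (fun z : FB N => (z : LSer).leadingCoeff) (h τ hτ)
    simp only [leadingCoeff_galF, leadingCoeff_pow, ← hb] at e
    exact e
  refine ⟨b ^ m, q, pow_ne_zero _ hb0, hq0, hc, fun τ hτ => ?_, hkq⟩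
  have hbne : algebraMap QBar (FB N) (b ^ m) ≠ 0 := fun h0 => pow_ne_zero m hb0
    ((algebraMap QBar (FB N)).injective (h0.trans (map_zero _).symm))
  have hτq : galF N τ q ^ m = q ^ m := by
    have e := h τ hτ
    rw [hkq, map_mul, arithmeticRingAut_algebraMap, hc τ hτ, map_pow (galF N τ)] at e
    exact mul_left_cancel₀ hbne e
  have : FF.IsFunctionField QBar (FB N) := ModFun.isFunctionField_bar N
  have hone : (galF N τ q / q) ^ m = 1 := by
    rw [div_pow, hτq, div_self (pow_ne_zero _ hq0)]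
  obtain ⟨z, hz⟩ := FF.eq_algebraMap_of_ord_nonneg (K := QBar) (F := FB N)
    (f := galF N τ q / q) fun v => by
      have h1 := congrArg v.ord hone
      rw [FF.ord_pow v, v.ord_one] at h1
      exact ((mul_eq_zero.mp h1).resolve_left (Nat.cast_ne_zero.mpr (NeZero.ne m))).symm.le
  have he : galF N τ q = algebraMap QBar (FB N) z * q := by
    rw [← hz, div_mul_cancel₀ _ hq0]
  have hl := congrArg (fun w : FB N => (w : LSer).leadingCoeff) he
  simp only [leadingCoeff_galF, leadingCoeff_algebraMap_mul, hql, map_one, mul_one] at hl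
  rw [he, ← hl, map_one, one_mul]

theorem cls_mul (f g : JacTorsion.divGrp QBar (FB N) m) : cls (f * g) = cls f + cls g := by
  show ((JacTorsion.toTorsion (Additive.ofMul f + Additive.ofMul g) : _) : JZero N) = _
  rw [map_add]
  rfl

/-- Functions with the same class differ by an `m`-th power. -/
theorem exists_eq_pow_mul {f g : JacTorsion.divGrp QBar (FB N) m} (h : cls f = cls g) :
    ∃ k : FB N, k ≠ 0 ∧ fn g = k ^ m * fn f := by
  have h0 : JacTorsion.toTorsion (Additive.ofMul (g / f)) = 0 := by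
    rw [ofMul_div, map_sub, sub_eq_zero]
    exact Subtype.ext h.symm
  obtain ⟨k, hk⟩ := (JacTorsion.toTorsion_eq_zero_iff _).mp h0
  refine ⟨(k : FB N), k.ne_zero, ?_⟩
  have hk' : ((k : FB N)) ^ m = fn g / fn f := by
    have := congrArg (fun u : (FB N)ˣ => (u : FB N)) hk
    simpa using this
  rw [hk', div_mul_cancel₀ _ (Units.ne_zero _)]

/-- A constant times an `m`-th power times a function has the same class. -/
theorem cls_eq_of_eq {f g : JacTorsion.divGrp QBar (FB N) m} {c : QBar} {k : FB N}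
    (h : fn g = algebraMap QBar _ c * k ^ m * fn f) : cls f = cls g := by
  have hg : fn g ≠ 0 := Units.ne_zero _
  rw [h] at hg
  have hk : k ≠ 0 := fun h0 => hg (by rw [h0, zero_pow (NeZero.ne m), mul_zero, zero_mul])
  have hc : c ≠ 0 := fun h0 => hg (by rw [h0, map_zero, zero_mul, zero_mul])
  obtain ⟨d, hd⟩ := IsAlgClosed.exists_pow_nat_eq c (Nat.pos_of_ne_zero (NeZero.ne m))
  have hd0 : d ≠ 0 := fun h0 => hc (by rw [← hd, h0, zero_pow (NeZero.ne m)])
  have h0 : JacTorsion.toTorsion (Additive.ofMul (g / f)) = 0 := by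
    refine (JacTorsion.toTorsion_eq_zero_iff _).mpr
      ⟨Units.mk0 (algebraMap QBar _ d * k) (mul_ne_zero ((_root_.map_ne_zero _).mpr hd0) hk),
        Units.ext ?_⟩
    show ((Units.mk0 (algebraMap QBar (FB N) d * k) _ ^ m : (FB N)ˣ) : FB N) = _
    rw [Units.val_pow_eq_pow_val, Units.val_mk0, mul_pow, ← map_pow, hd]
    show _ = fn (g / f)
    rw [show fn (g / f) = fn g / fn f from Units.val_div_eq_div_val _ _, h,
      mul_div_assoc, div_self (Units.ne_zero _), mul_one]
  rw [ofMul_div, map_sub, sub_eq_zero] at h0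
  exact (congrArg Subtype.val h0).symm

/-- The conjugate of a Kummer function belongs to the conjugate class. -/
theorem exists_galF (σ : GQ) (f : JacTorsion.divGrp QBar (FB N) m) :
    ∃ f' : JacTorsion.divGrp QBar (FB N) m, fn f' = galF N σ (fn f) ∧ cls f' = σ • cls f := by
  set g := arithmeticGalois (modularFunctionFieldFull N) σ with hg
  have hne : g • fn f ≠ 0 := (map_ne_zero (SemilinearAut.toRingAut g)).mpr (Units.ne_zero _)
  have hord : ∀ v : Place QBar (FB N), v.ord (g • fn f) = (g⁻¹ • v).ord (fn f) := fun v => by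
    have := SemilinearAut.ord_smul g (g⁻¹ • v) (fn f)
    rwa [smul_inv_smul] at this
  have hmem : Units.mk0 (g • fn f) hne ∈ JacTorsion.divGrp QBar (FB N) m := fun v => by
    rw [Units.val_mk0, hord]
    exact f.2 _
  refine ⟨⟨_, hmem⟩, (galF_eq_smul σ _).symm, ?_⟩
  show Pic0.mk (K := QBar) (F := FB N) _ = g • Pic0.mk _
  rw [SemilinearAut.pic0_smul_mk]
  refine congrArg Pic0.mk (Subtype.ext (JacTorsion.eq_of_smul_eq (m := m) ?_))
  show (m : ℤ) • JacTorsion.divQuot ⟨_, hmem⟩ = (m : ℤ) • (g • JacTorsion.divQuot f)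
  rw [smul_comm (m : ℤ) g, JacTorsion.smul_divQuot, JacTorsion.smul_divQuot]
  refine Finsupp.ext fun v => ?_
  rw [SemilinearAut.divisor_smul_apply, JacTorsion.div_apply, JacTorsion.div_apply]
  exact hord v

section Level

variable {A : ValuationSubring QBar} {p M : ℕ} [Fact p.Prime] [NeZero M]
  (C : CoefField A p) (G : ℕ → Prop) (a : ℕ → ℕ)

/-- The Kummer function of a fixed eigen class. -/
theorem exists_eigK (hG : ∀ l, l.Prime → G l → ¬ l ∣ p * M) {x : JZero (p * M)} (hx : p • x = 0)
    (hfix : ∀ τ ∈ C.H, τ • x = x)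
    (heig : ∀ l (hl : l.Prime), G l → heckeOperatorBar (p * M) ⟨l, hl⟩ x = a l • x) :
    ∃ f : JacTorsion.divGrp QBar (FB (p * M)) p, cls f = x ∧ EigK C G a (fn f) := by
  have hmem : x ∈ Pic0.torsion QBar (FB (p * M)) p :=
    Pic0.mem_torsion.mpr (by rw [natCast_zsmul]; exact hx)
  obtain ⟨f, hfx, -, hff⟩ := exists_fixed_kummer
    (S := arithmeticGalois (modularFunctionFieldFull (p * M)) '' (C.H : Set GQ))
    (P₀ := Mazur.Eisenstein.placeInf (p * M))
    (by rintro _ ⟨τ, -, rfl⟩; exact Mazur.Eisenstein.galois_smul_placeInf _ τ)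
    (fun y : FB (p * M) => (y : LSer).leadingCoeff)
    (fun c y => leadingCoeff_algebraMap_mul c y) (fun y hy => leadingCoeff_ne_zero hy)
    (by rintro _ ⟨τ, hτ, rfl⟩ y; exact JacTorsion.coeffMap_leadingCoeff (τ : QBar →+* QBar) _)
    (x := ⟨x, hmem⟩) (by rintro _ ⟨τ, hτ, rfl⟩; exact hfix τ hτ)
  have hfC : ∀ τ ∈ C.H, galF (p * M) τ (fn f) = fn f := fun τ hτ => by
    rw [galF_eq_smul]; exact hff _ ⟨τ, hτ, rfl⟩
  refine ⟨f, congrArg Subtype.val hfx, ?_⟩
  refine { ne := Units.ne_zero _, divP := f.2, fix := hfC, good := hG, eigen := ?_ }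
  intro l _ hl hGl
  obtain ⟨h, hh, he⟩ := exists_heckeNorm_eq l hl f (a l : ℤ) (by
    rw [show JacTorsion.toTorsion (Additive.ofMul f) = ⟨x, hmem⟩ from hfx, natCast_zsmul]
    exact heig l hl hGl)
  rw [zpow_natCast] at he
  obtain ⟨c, q, hc, hq, hcf, hqf, e⟩ := exists_fixed_root C.H (m := p) hh (fun τ hτ => by
    have h1 := congrArg (galF (p * M) τ) he
    rw [← heckeNorm_galF hl (hG l hl hGl), hfC τ hτ, he, map_mul, map_pow, hfC τ hτ] at h1
    exact (mul_left_cancel₀ (pow_ne_zero _ (Units.ne_zero _)) h1).symm)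
  refine ⟨c, q, hc, hq, hcf, hqf, ?_⟩
  show heckeNorm (p * M) l (fn f) = _
  rw [show heckeNorm (p * M) l (fn f) = fn f ^ a l * h ^ p from he, e]
  exact mul_comm _ _

end Level

end Fermat.Agent.RT.AtP

end
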