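import Fermat.Agent.RT.AtP.Eigen
import Fermat.Agent.RT.Mazur.Residual
import Fermat.Agent.Arith.Chebotarev.Main

/-!
# The Galois module of eigen classes of order `p`
-/

set_option autoImplicit false

noncomputable section

namespace Fermat.Agent.RT.AtP

open ModularCurve AlgebraicCurve Fermat.Agent.Arith Fermat.Agent.GaloisReps

variable (N p : ℕ) [NeZero N] [Fact p.Prime] (G : ℕ → Prop) (a : ℕ → ℕ)

/-- The classes killed by `p` on which the Hecke operators act by `a`. -/
def eigTors : AddSubgroup (JZero N) where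
  carrier := {x | p • x = 0 ∧ ∀ l (hl : l.Prime), G l → heckeOperatorBar N ⟨l, hl⟩ x = a l • x}
  zero_mem' := ⟨smul_zero _, fun l hl _ => by rw [map_zero, smul_zero]⟩
  add_mem' := fun {x y} hx hy => ⟨by rw [nsmul_add, hx.1, hy.1, add_zero], fun l hl hG => by
    rw [map_add, hx.2 l hl hG, hy.2 l hl hG, nsmul_add]⟩
  neg_mem' := fun {x} hx => ⟨by rw [neg_nsmul, hx.1, neg_zero], fun l hl hG => by
    rw [map_neg, hx.2 l hl hG, neg_nsmul]⟩

/-- The eigen classes as a vector space. -/
instance moduleEigTors : Module (ZMod p) (eigTors N p G a) :=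
  AddCommGroup.zmodModule fun x => Subtype.ext x.2.1

instance finiteEigTors : Finite (eigTors N p G a) :=
  haveI := finite_pTors N p
  Finite.of_injective (fun x => (⟨x.1, x.2.1⟩ : {x : JZero N // p • x = 0}))
    fun _ _ h => Subtype.ext (congrArg (fun z : {x : JZero N // p • x = 0} => z.1) h)

set_option linter.unusedSectionVars false in
theorem smul_mem_eigTors (σ : GQ) {x : JZero N} (hx : x ∈ eigTors N p G a) :
    σ • x ∈ eigTors N p G a := by
  have hn : ∀ (n : ℕ) (z : JZero N), σ • (n • z) = n • (σ • z) := fun n z =>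
    map_nsmul (DistribSMul.toAddMonoidHom (JZero N) σ) n z
  exact ⟨by rw [← hn, hx.1]; exact map_zero (DistribSMul.toAddMonoidHom (JZero N) σ), fun l hl hG => by
    rw [← galois_heckeOperatorBar N ⟨l, hl⟩ σ x, hx.2 l hl hG, hn]⟩

/-- Galois on the eigen classes. -/
def eigRep : GQ →* Module.End (ZMod p) (eigTors N p G a) where
  toFun σ := AddMonoidHom.toZModLinearMap p
    ({ toFun := fun x => ⟨σ • x.1, smul_mem_eigTors N p G a σ x.2⟩
       map_zero' := Subtype.ext (smul_zero σ)
       map_add' := fun x y => Subtype.ext (smul_add σ x.1 y.1) } :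
      eigTors N p G a →+ eigTors N p G a)
  map_one' := LinearMap.ext fun x => Subtype.ext (one_smul GQ x.1)
  map_mul' σ τ := LinearMap.ext fun x => Subtype.ext (mul_smul σ τ x.1)

variable {N p G a}

theorem coe_eigRep (σ : GQ) (x : eigTors N p G a) :
    ((eigRep N p G a σ x : eigTors N p G a) : JZero N) = σ • (x : JZero N) := rfl

theorem coe_natCast_smul (n : ℕ) (x : eigTors N p G a) :
    (((n : ZMod p) • x : eigTors N p G a) : JZero N) = n • (x : JZero N) := by
  rw [Nat.cast_smul_eq_nsmul]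
  rfl

/-- The eigen classes satisfy the quadratic relations of a representation with the same
Frobenius data. -/
theorem eigRep_quadratic (hES : CongruenceProperty N p) (hGN : ∀ l, l.Prime → G l → ¬ l ∣ N * p)
    (T : Finset ℕ) (hT : ∀ l, l.Prime → l ∉ T → G l)
    (r : GQ →* Matrix (Fin 2) (Fin 2) (ZMod p))
    (hfin : ∃ L : IntermediateField ℚ QBar, FiniteDimensional ℚ L ∧
      ∀ σ : GQ, (∀ z ∈ L, σ z = z) → r σ = 1)
    (hfrob : ∀ l, l.Prime → G l → ∀ A : ValuationSubring QBar, A.LiesOverPrime l →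
      ∀ σ : GQ, A.IsFrobeniusAt σ l → (r σ).trace = a l ∧ (r σ).det = l)
    (g : GQ) (v : eigTors N p G a) :
    eigRep N p G a g (eigRep N p G a g v) - (r g).trace • eigRep N p G a g v +
      (r g).det • v = 0 := by
  classical
  obtain ⟨L₀, hL₀, h₀⟩ := hfin
  have hV : ∀ x : eigTors N p G a, ∃ L : IntermediateField ℚ QBar, FiniteDimensional ℚ L ∧
      ∀ σ : GQ, (∀ z ∈ L, σ z = z) → σ • (x : JZero N) = x := fun x => by
    obtain ⟨L, hL, h⟩ := exists_fixing_torsion (N := N) (m := p)
      ⟨x.1, Pic0.mem_torsion.mpr (by rw [natCast_zsmul]; exact x.2.1)⟩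
    exact ⟨L, hL, h⟩
  choose L hL hfix using hV
  have := fun x => hL x
  have : Fintype (eigTors N p G a) := Fintype.ofFinite _
  let L' : IntermediateField ℚ QBar := L₀ ⊔ ⨆ x, L x
  have hfinL : FiniteDimensional ℚ L' := inferInstance
  obtain ⟨l, hl, hlT, A, hA, σ, hσ, he⟩ := Arith.Chebotarev.exists_frobenius_eq
    ((eigRep N p G a).prod r) L' (fun τ hτ => Prod.ext
      (LinearMap.ext fun x => Subtype.ext (hfix x τ fun z hz => hτ z
        ((le_sup_of_le_right (le_iSup L x) : L x ≤ L') hz)))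
      (h₀ τ fun z hz => hτ z ((le_sup_left : L₀ ≤ L') hz))) g T
  rw [← show eigRep N p G a σ = eigRep N p G a g from congrArg Prod.fst he,
    ← show r σ = r g from congrArg Prod.snd he]
  have hG := hT l hl hlT
  obtain ⟨htr, hdet⟩ := hfrob l hl hG A hA σ hσ
  rw [htr, hdet]
  refine Subtype.ext ?_
  have h := (hES l hl (hGN l hl hG) A hA 1
    ⟨v.1, Pic0.mem_torsion.mpr (by rw [natCast_zsmul, pow_one]; exact v.2.1)⟩).2 σ hσ
  have hσv := (smul_mem_eigTors N p G a σ v.2).2 l hl hG
  simp only at h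
  rw [hσv] at h
  rw [AddSubgroup.coe_add, AddSubgroupClass.coe_sub, coe_natCast_smul, coe_natCast_smul,
    coe_eigRep, coe_eigRep, ZeroMemClass.coe_zero]
  exact h

end Fermat.Agent.RT.AtP

end
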