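import Fermat.Agent.RT.AtP.Tame
import Fermat.Agent.RT.AtP.Kummer
import Fermat.Agent.RT.AtP.Module
import Fermat.Agent.RT.MazurP.LocalE
import Fermat.Agent.RT.MazurP.Units
import Fermat.Agent.RT.MazurP.Level

/-!
# Mazur's principle at `p` for the level `p M`

An eigen class of order `p` of level `p M` whose Galois module is that of an absolutely
irreducible representation which is ordinary and peu ramifiée at `p` gives a congruent form of
level `M`.
-/

set_option autoImplicit false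
set_option linter.unusedSectionVars false

noncomputable section

namespace Fermat.Agent.RT.AtP

open ModularCurve AlgebraicCurve Fermat.Agent.Semistable Fermat.Agent.Arith
open Fermat.Agent.RT.Mazur Fermat.Agent.RT.MazurP Fermat.Agent.EC.Rep
open scoped IntermediateField

variable {p : ℕ} [Fact p.Prime]

/-- The local hypothesis at `p`: the tame kernel acts trivially, or the field cut out is wild with
lower jump one. -/
def LocalHyp (A : ValuationSubring QBar) (r : GQ →* Matrix (Fin 2) (Fin 2) (ZMod p)) : Prop :=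
  (∀ τ ∈ tameKer A p, r τ = 1) ∨
    ∃ W : Wild A p, W.C₁.H = tameKer A p ∧ (∀ τ ∈ W.C.H, r τ = 1) ∧ r W.σ ≠ 1 ∧
      ∀ g ∈ tameKer A p, ∃ i : ℕ, (W.σ ^ i)⁻¹ * g ∈ W.C.H

theorem pow_smul_eq_self {α : Type*} [MulAction GQ α] {σ : GQ} {x : α} (h : σ • x = x) :
    ∀ i : ℕ, σ ^ i • x = x := by
  intro i
  induction i with
  | zero => rw [pow_zero, one_smul]
  | succ i ih => rw [pow_succ, mul_smul, h, ih]

theorem smul_eq_self_of_decomp {α : Type*} [MulAction GQ α] {σ g : GQ} {x : α} (h : σ • x = x)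
    (i : ℕ) (hg : ((σ ^ i)⁻¹ * g) • x = x) : g • x = x := by
  conv_lhs => rw [← mul_inv_cancel_left (σ ^ i) g]
  rw [mul_smul, hg, pow_smul_eq_self h i]

theorem not_scalar {B : Matrix (Fin 2) (Fin 2) (ZMod p)} {t d : ZMod p} (ht : B.trace = t)
    (hd : B.det = d) (hne : t ^ 2 ≠ 4 * d) (c : ZMod p) : B ≠ c • 1 := by
  rintro rfl
  refine hne ?_
  rw [← ht, ← hd, Matrix.det_smul, Matrix.trace_smul, Matrix.trace_one, Matrix.det_one,
    Fintype.card_fin, smul_eq_mul]
  push_cast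
  ring

variable {M : ℕ} [NeZero M] {A : ValuationSubring QBar}

/-- The form, from an eigen class. -/
theorem hasForm_of_eigenclass (hA : A.LiesOverPrime p) (hp2 : p ≠ 2) (hpM : ¬ p ∣ M) (hnu : NoEll M)
    (G : ℕ → Prop) (a : ℕ → ℕ) (hG : ∀ l, l.Prime → G l → ¬ l ∣ p * M)
    (T : Finset ℕ) (hT : ∀ l, l.Prime → l ∉ T → G l)
    (hES : GaloisReps.CongruenceProperty (p * M) p)
    {x₀ : JZero (p * M)} (hx₀ : x₀ ≠ 0) (hpx₀ : p • x₀ = 0)
    (hx₀e : ∀ l (hl : l.Prime), G l → heckeOperatorBar (p * M) ⟨l, hl⟩ x₀ = a l • x₀)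
    (r : GQ →* Matrix (Fin 2) (Fin 2) (ZMod p))
    (hfin : ∃ L : IntermediateField ℚ QBar, FiniteDimensional ℚ L ∧
      ∀ σ : GQ, (∀ z ∈ L, σ z = z) → r σ = 1)
    (hspan : Submodule.span (ZMod p) (Set.range r) = ⊤)
    (hfrob : ∀ l, l.Prime → G l → ∀ A' : ValuationSubring QBar, A'.LiesOverPrime l →
      ∀ σ : GQ, A'.IsFrobeniusAt σ l → (r σ).trace = a l ∧ (r σ).det = l)
    (hdet : ∀ σ : GQ, (r σ).det = (cyclotomicHom p σ : ZMod p))
    (hin : ∀ τ ∈ A.inertiaSubgroupIn ℚ, (r τ).trace = (r τ).det + 1)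
    (hloc : LocalHyp A r)
    (hne : ∃ l, l.Prime ∧ G l ∧ ¬ (p : ℤ) ∣ (a l : ℤ) - ((l : ℤ) + 1)) : HasCong M p G a := by
  have hp : p.Prime := Fact.out
  have : CharP (Res A) p := residueField_charP hA hp
  have := residueField_isAlgClosed A
  have hM : (M : Res A) ≠ 0 := fun h => hpM ((CharP.cast_eq_zero_iff (Res A) p M).mp h)
  have : FF.IsFunctionField (Res A) (KM A M) := isFunctionField_KM A hM
  have : FiniteDimensional (Res A)⟮jK A M⟯ (KM A M) :=
    RedTorsion.finiteDimensional_jF (F := KM A M) rfl hM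
  have : Algebra.IsSeparable (Res A)⟮jK A M⟯ (KM A M) :=
    RedTorsion.isSeparable_jF (F := KM A M) rfl hM
  have hgood : GoodM A M := Semistable.goodM hM
  obtain ⟨V⟩ := exists_vUnit (A := A) (p := p) hA hM hpM
  have hV : V.Simple := V.simple_of_goodM hA hM hgood 
    (genus_identity_of_nu hpM hnu (hnu.of_dvd (dvd_mul_left M p)))
  obtain ⟨l₀, hl₀, hGl₀, hne₀⟩ := hne
  -- the module
  have hGN : ∀ l, l.Prime → G l → ¬ l ∣ p * M * p := fun l hl hl' h =>
    (hl.dvd_mul.mp h).elim (hG l hl hl') fun h' => hG l hl hl' (h'.trans (dvd_mul_right p M))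
  set ψ := eigRep (p * M) p G a with hψ
  have hquad := eigRep_quadratic hES hGN T hT r hfin hfrob
  have htop : (⊤ : Submodule (ZMod p) (eigTors (p * M) p G a)) ≠ ⊥ := fun h => hx₀ (by
    have := (Submodule.mem_bot (ZMod p)).mp
      (h ▸ (Submodule.mem_top (x := (⟨x₀, hpx₀, hx₀e⟩ : eigTors (p * M) p G a))))
    exact congrArg Subtype.val this)
  obtain ⟨U, -, hU0, hUst, htriv, hnon⟩ := exists_submodule_kernel ψ r hspan ⊤
    (fun _ _ _ => trivial) htop fun g v _ => hquad g v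
  have heig : ∀ (x : eigTors (p * M) p G a) l (hl : l.Prime), G l →
      heckeOperatorBar (p * M) ⟨l, hl⟩ (x : JZero (p * M)) = a l • (x : JZero (p * M)) :=
    fun x => x.2.2
  rcases hloc with htame | ⟨W, hC₁, hC, hσ, hgen⟩
  · -- the tame case
    obtain ⟨τ₀, hτ₀, hord, -, hτgen⟩ := exists_tame_generator (A := A) (p := p) hA
    set γ : ZMod p := (cyclotomicHom p τ₀ : ZMod p) with hγ
    have hγ1 : γ ≠ 1 := fun h => by
      have := Nat.le_of_dvd Nat.one_pos (hord 1 (by rw [pow_one]; exact h))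
      have := (Fact.out : p.Prime).two_le
      omega
    have htr : (r τ₀).trace = γ + 1 := by rw [hin τ₀ hτ₀, hdet]
    obtain ⟨v, hv, hvne⟩ := hnon τ₀ (not_scalar htr (hdet τ₀) fun h => hγ1 (by
      refine sub_eq_zero.mp (sq_eq_zero_iff.mp ?_)
      linear_combination h)) γ
    obtain ⟨x, hx⟩ : ∃ x, x = ψ τ₀ v - γ • v := ⟨_, rfl⟩
    have hxU : x ∈ U := hx ▸ U.sub_mem (hUst τ₀ v hv) (U.smul_mem _ hv)
    have hx0 : x ≠ 0 := hx ▸ sub_ne_zero.mpr hvne
    have hτx : ψ τ₀ x = x := by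
      have h := hquad τ₀ v
      rw [htr, hdet, ← hγ] at h
      rw [hx, map_sub, map_smul]
      linear_combination (norm := module) h
    have hfix : ∀ τ ∈ A.inertiaSubgroupIn ℚ, τ • (x : JZero (p * M)) = x := by
      intro τ hτ
      obtain ⟨i, hi⟩ := hτgen τ hτ
      exact smul_eq_self_of_decomp (congrArg Subtype.val hτx) i
        (congrArg Subtype.val (htriv _ (htame _ hi) x hxU))
    obtain ⟨f, hfx, E⟩ := exists_eigK (unramField (p := p) hA) G a hG x.2.1 hfix (heig x)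
    rcases hasForm_or_root_tame hA hM V hV hgood hp2 hnu (unramField_e hA) E hl₀ hGl₀ hne₀ with
      h | ⟨g, z, ⟨c, k, hc, hk, -, -, hg⟩, hz, hgz⟩
    · exact h
    exfalso
    refine hx0 (Subtype.ext ?_)
    have hf : fn f = algebraMap QBar _ c⁻¹ * (z / k) ^ p *
        fn (1 : JacTorsion.divGrp QBar (FB (p * M)) p) := by
      have hone : fn (1 : JacTorsion.divGrp QBar (FB (p * M)) p) = 1 := rfl
      rw [hone, mul_one, div_pow, ← hgz, hg, mul_right_comm,
        mul_div_cancel_right₀ _ (pow_ne_zero p hk), ← mul_assoc, ← map_mul, inv_mul_cancel₀ hc,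
        map_one, one_mul]
    rw [← hfx, ← cls_eq_of_eq hf, cls, ofMul_one, map_zero]
    rfl
  · -- the wild case
    have hσI : W.σ ∈ tameKer A p := hC₁ ▸ W.σ_mem
    have hdσ : (r W.σ).det = 1 := by rw [hdet, (mem_tameKer.mp hσI).2, Units.val_one]
    have htr : (r W.σ).trace = 2 := by
      rw [hin _ (mem_tameKer.mp hσI).1, hdσ, one_add_one_eq_two]
    obtain ⟨v, hv, hvne⟩ := hnon W.σ (fun c hc => hσ (by
      have h2 : (2 : ZMod p) ≠ 0 := two_ne_zero_zmod hp2
      rw [hc, Matrix.trace_smul, Matrix.trace_one, Fintype.card_fin, smul_eq_mul] at htr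
      rw [hc, show c = 1 from mul_right_cancel₀ h2 (by push_cast at htr; rw [htr, one_mul]),
        one_smul])) 1
    rw [one_smul] at hvne
    obtain ⟨y, hy⟩ : ∃ y, y = ψ W.σ v - v := ⟨_, rfl⟩
    have hyU : y ∈ U := hy ▸ U.sub_mem (hUst _ v hv) hv
    have hy0 : y ≠ 0 := hy ▸ sub_ne_zero.mpr hvne
    have hσy : ψ W.σ y = y := by
      have h := hquad W.σ v
      rw [htr, hdσ] at h
      rw [hy, map_sub]
      linear_combination (norm := module) h
    have hyfix : ∀ τ ∈ W.C₁.H, τ • (y : JZero (p * M)) = y := by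
      intro τ hτ
      obtain ⟨i, hi⟩ := hgen τ (hC₁ ▸ hτ)
      exact smul_eq_self_of_decomp (congrArg Subtype.val hσy) i
        (congrArg Subtype.val (htriv _ (hC _ hi) y hyU))
    obtain ⟨f, hfv, E⟩ := exists_eigK W.C G a hG v.2.1
      (fun τ hτ => congrArg Subtype.val (htriv τ (hC τ hτ) v hv)) (heig v)
    obtain ⟨f₀, hfy, E₀⟩ := exists_eigK W.C₁ G a hG y.2.1 hyfix (heig y)
    obtain ⟨f', hf', hcls'⟩ := exists_galF W.σ f
    have hcl : cls (f * f₀) = cls f' := by
      rw [cls_mul, hfv, hfy, hcls', hfv, hy, AddSubgroupClass.coe_sub, add_sub_cancel]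
      exact (coe_eigRep W.σ v).symm
    obtain ⟨k, hk, hkeq⟩ := exists_eq_pow_mul hcl
    rw [show fn (f * f₀) = fn f * fn f₀ from rfl] at hkeq
    obtain ⟨κ, q, hκ, hq, -, hqf, hkq⟩ := exists_fixed_root W.C.H (m := p) hk fun τ hτ => by
      have h1 := sig_fix E.fix hτ
      rw [← hf', hkeq, map_mul, map_mul, E.fix τ hτ, E₀.fix τ (W.le hτ)] at h1
      exact mul_right_cancel₀ (mul_ne_zero E.ne E₀.ne) h1
    have hrel : galF (p * M) W.σ (fn f) = algebraMap QBar _ κ * fn f * fn f₀ * q ^ p := by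
      rw [← hf', hkeq, hkq]
      ring
    rcases hasForm_or_root_wild hA hM V hV hgood hnu E E₀ hκ hq hqf hrel hl₀ hGl₀ hne₀ with
      h | ⟨g, z, ⟨c, h, hc, hh, -, -, hg⟩, hz, hgz⟩
    · exact h
    exfalso
    refine hvne (Subtype.ext ?_)
    have hσh : galF (p * M) W.σ h ≠ 0 := (_root_.map_ne_zero _).mpr hh
    have hf : fn f' = algebraMap QBar _ (c / W.σ c) * (z * h / galF (p * M) W.σ h) ^ p * fn f := by
      have hc' : algebraMap QBar (FB (p * M)) (W.σ c) ≠ 0 :=
        (_root_.map_ne_zero _).mpr ((_root_.map_ne_zero W.σ).mpr hc)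
      rw [hg, map_mul, map_mul, map_pow, arithmeticRingAut_algebraMap, ← hf'] at hgz
      rw [map_div₀, div_pow, mul_pow]
      field_simp
      linear_combination hgz
    have hcv := cls_eq_of_eq hf
    rw [hcls', hfv] at hcv
    exact (coe_eigRep W.σ v).trans hcv.symm

end Fermat.Agent.RT.AtP

end
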