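import Fermat.Agent.RT.AtP.Deep
import Fermat.Agent.Arith.ValNormalize

/-!
# Functions deeply congruent to one are `p`-th powers

The approximate roots found by improving congruences give, by the Nullstellensatz, an exact root.
-/

set_option autoImplicit false
set_option linter.unusedSectionVars false

noncomputable section

namespace Fermat.Agent.RT.AtP

open ModularCurve AlgebraicCurve Fermat.Agent.Semistable Fermat.Agent.Arith
open Fermat.Agent.RT.Mazur Fermat.Agent.RT.MazurP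

variable {A : ValuationSubring QBar} {p M : ℕ} [Fact p.Prime] [NeZero M]
variable {C : CoefField A p} {hpM : ¬ p ∣ M}

theorem sum_mem_loc2 {ι : Type*} [Fintype ι] (w : ι → FB (p * M))
    (hw : ∀ i, w i ∈ loc2 A (iota2 M p hpM)) (a : ι → A) :
    ∑ i, (a i : QBar) • w i ∈ loc2 A (iota2 M p hpM) :=
  sum_mem fun i _ => by
    rw [Algebra.smul_def]
    exact mul_mem (algebraMap_mem_loc2 _ (a i).2) (hw i)

/-- Coordinates of an integral function with respect to functions with independent reductions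
are integral. -/
theorem coord_mem {ι : Type*} [Fintype ι] (w : ι → FB (p * M))
    (hw : ∀ i, w i ∈ loc2 A (iota2 M p hpM))
    (hind : LinearIndependent (Res A) fun i => red2 A (iota2 M p hpM) ⟨w i, hw i⟩)
    (c : ι → QBar) (hx : ∑ i, c i • w i ∈ loc2 A (iota2 M p hpM)) (i : ι) : c i ∈ A := by
  classical
  have : Nonempty ι := ⟨i⟩
  obtain ⟨i₀, -, hmax⟩ := Finset.exists_max_image Finset.univ (fun j => A.valuation (c j))
    Finset.univ_nonempty
  by_contra hi
  have hgt : 1 < A.valuation (c i₀) := lt_of_lt_of_le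
    (not_le.mp fun h => hi ((A.valuation_le_one_iff _).mp h)) (hmax i (Finset.mem_univ _))
  have hc0 : c i₀ ≠ 0 := fun h => by simp [h] at hgt
  have hd : ∀ j, c j / c i₀ ∈ A := fun j => by
    rw [← A.valuation_le_one_iff, map_div₀, div_le_one₀ (lt_trans zero_lt_one hgt)]
    exact hmax j (Finset.mem_univ _)
  have hnu : (c i₀)⁻¹ ∈ A.nonunits := by
    rw [ValuationSubring.mem_nonunits_iff, map_inv₀]
    exact inv_lt_one_of_one_lt₀ hgt
  set d : ι → A := fun j => ⟨c j / c i₀, hd j⟩ with hdd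
  have hmem := sum_mem_loc2 w hw d
  have e : ∑ j, ((d j : A) : QBar) • w j =
      algebraMap QBar (FB (p * M)) (c i₀)⁻¹ * ∑ j, c j • w j := by
    rw [Finset.mul_sum]
    refine Finset.sum_congr rfl fun j _ => ?_
    rw [Algebra.smul_def, Algebra.smul_def, ← mul_assoc, ← map_mul]
    congr 2
    show c j / c i₀ = _
    rw [div_eq_mul_inv, mul_comm]
  have hzero : red2 A (iota2 M p hpM) ⟨_, hmem⟩ = 0 := by
    rw [show (⟨_, hmem⟩ : loc2 A (iota2 M p hpM)) =
      ⟨_, algebraMap_mem_loc2 _ (mem_of_mem_nonunits hnu)⟩ * ⟨_, hx⟩ from Subtype.ext e, map_mul]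
    funext s
    rw [Pi.mul_apply, red2_const (iota2 M p hpM) (c := ⟨_, mem_of_mem_nonunits hnu⟩) s,
      (residue_eq_zero_iff _).mpr hnu, map_zero, zero_mul]
    rfl
  have hsum : ∑ j, IsLocalRing.residue A (d j) • red2 A (iota2 M p hpM) ⟨w j, hw j⟩ = 0 := by
    rw [← hzero]
    rw [show (⟨_, hmem⟩ : loc2 A (iota2 M p hpM)) =
      ∑ j, ⟨_, algebraMap_mem_loc2 (iota2 M p hpM) (d j).2⟩ * ⟨w j, hw j⟩ from Subtype.ext (by
        push_cast
        exact Finset.sum_congr rfl fun j _ => Algebra.smul_def _ _), map_sum]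
    refine Finset.sum_congr rfl fun j _ => ?_
    rw [map_mul]
    funext s
    rw [Pi.mul_apply, red2_const (iota2 M p hpM) (c := d j) s, Pi.smul_apply,
      ← HahnSeries.C_mul_eq_smul, algebraMap_laurentSeries_eq_single]
    rfl
  have h1 := Fintype.linearIndependent_iff.mp hind _ hsum i₀
  rw [show d i₀ = 1 from Subtype.ext (div_self hc0), map_one] at h1
  exact one_ne_zero h1

/-- Approximate roots with bounded poles give a root. -/
theorem exists_root_of_approx (hA : A.LiesOverPrime p) {m : ℕ} {T : intFix C hpM}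
    (hT : (T : FB (p * M)) ∈ HN M p (p * m))
    (happ : ∀ n : ℕ, ∃ ψ : intFix C hpM, (ψ : FB (p * M)) ∈ HN M p m ∧
      piI C hpM ^ n ∣ (T : intFix C hpM) - ψ ^ p) :
    ∃ x : FB (p * M), x ^ p = (T : FB (p * M)) := by
  classical
  have hp : p.Prime := Fact.out
  have hst : ∀ k, ∀ τ ∈ C.H, ∀ x ∈ HN M p k,
      arithmeticRingAut (modularFunctionFieldFull (p * M)) τ x ∈ HN M p k :=
    fun k τ _ x hx => mem_HN_of_galF hx
  have hcomm : ∀ τ ∈ C.H, ∀ s x, iota2 M p hpM s
      (arithmeticRingAut (modularFunctionFieldFull (p * M)) τ x) =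
      coeffMap (τ : QBar →+* QBar) (iota2 M p hpM s x) := fun τ _ s x => iota2_galF hpM τ s x
  obtain ⟨w, hwl, hwW, -, hwi⟩ := exists_fixed_redBasis hA hp C.le_inertia (iota2 M p hpM)
    (iota2_fracS M p hpM) hcomm (HN M p m) (hst m)
  obtain ⟨v, hvl, hvW, -, hvi⟩ := exists_fixed_redBasis hA hp C.le_inertia (iota2 M p hpM)
    (iota2_fracS M p hpM) hcomm (HN M p (p * m)) (hst (p * m))
  have hw2 : ∀ a, w a ∈ loc2 A (iota2 M p hpM) := fun a => (mem_loc2 _).mpr (hwl a)
  have hv2 : ∀ a, v a ∈ loc2 A (iota2 M p hpM) := fun a => (mem_loc2 _).mpr (hvl a)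
  have hwi2 : LinearIndependent (Res A) fun a => red2 A (iota2 M p hpM) ⟨w a, hw2 a⟩ := hwi
  have hvi2 : LinearIndependent (Res A) fun a => red2 A (iota2 M p hpM) ⟨v a, hv2 a⟩ := hvi
  have hspan : ∀ (k : ℕ) (u : Fin (Module.finrank QBar (HN M p k)) → FB (p * M))
      (hu : ∀ a, u a ∈ loc2 A (iota2 M p hpM)), (∀ a, u a ∈ HN M p k) →
      LinearIndependent (Res A) (fun a => red2 A (iota2 M p hpM) ⟨u a, hu a⟩) →
      ∀ x ∈ HN M p k, ∃ c : Fin (Module.finrank QBar (HN M p k)) → QBar, ∑ a, c a • u a = x := by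
    intro k u hu huW hui x hx
    have hind : LinearIndependent QBar u := by
      rw [Fintype.linearIndependent_iff]
      intro c hc a
      by_contra ha
      obtain ⟨i₀, hi0, -⟩ := Arith.exists_div_mem A (c := c) ⟨a, ha⟩
      -- scale so that a coordinate is `p⁻¹`
      have := coord_mem (hpM := hpM) u hu hui
        (fun j => ((p : QBar)⁻¹ * (c i₀)⁻¹) * c j) (by
          have e : ∑ j, (((p : QBar)⁻¹ * (c i₀)⁻¹) * c j) • u j = 0 := by
            simp only [mul_smul, ← Finset.smul_sum, hc, smul_zero]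
          rw [e]; exact zero_mem _) i₀
      rw [mul_assoc, inv_mul_cancel₀ hi0, mul_one, ← A.valuation_le_one_iff, map_inv₀] at this
      have hlt : A.valuation (p : QBar) < 1 := (ValuationSubring.mem_nonunits_iff A).mp hA
      have hpos : 0 < A.valuation (p : QBar) :=
        (Valuation.pos_iff _).mpr (Nat.cast_ne_zero.mpr hp.ne_zero)
      exact absurd this (not_le.mpr ((one_lt_inv₀ hpos).mpr hlt))
    have hsp : Submodule.span QBar (Set.range u) = HN M p k := by
      refine Submodule.eq_of_le_of_finrank_le (Submodule.span_le.mpr ?_) ?_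
      · rintro _ ⟨a, rfl⟩; exact huW a
      · rw [finrank_span_eq_card hind, Fintype.card_fin]
    exact (Submodule.mem_span_range_iff_exists_fun QBar).mp (hsp.symm ▸ hx)
  obtain ⟨t, ht⟩ := hspan _ v hv2 hvW hvi2 _ hT
  have hprod : ∀ f : Fin p → Fin (Module.finrank QBar (HN M p m)),
      ∏ i, w (f i) ∈ HN M p (p * m) := by
    intro f
    have : ∀ s : Finset (Fin p), ∏ i ∈ s, w (f i) ∈ HN M p (s.card * m) := fun s => by
      induction s using Finset.induction_on with
      | empty => simpa using one_mem_polesSpace _ _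
      | insert a s ha ih =>
        rw [Finset.prod_insert ha, Finset.card_insert_of_notMem ha, Nat.succ_mul, add_comm]
        exact mul_mem_polesSpace (hwW _) ih
    simpa using this Finset.univ
  choose μ hμ using fun f => hspan _ v hv2 hvW hvi2 _ (hprod f)
  let P : Fin (Module.finrank QBar (HN M p (p * m))) →
      MvPolynomial (Fin (Module.finrank QBar (HN M p m))) QBar := fun b =>
    MvPolynomial.C (t b) -
      ∑ f : Fin p → Fin (Module.finrank QBar (HN M p m)),
        MvPolynomial.C (μ f b) * ∏ i, MvPolynomial.X (f i)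
  have heval : ∀ c : Fin (Module.finrank QBar (HN M p m)) → QBar,
      ∑ b, MvPolynomial.eval c (P b) • v b = (T : FB (p * M)) - (∑ a, c a • w a) ^ p := by
    intro c
    have e1 : (∑ a, c a • w a) ^ p = ∑ f : Fin p → Fin (Module.finrank QBar (HN M p m)),
        (∏ i, c (f i)) • ∏ i, w (f i) := by
      rw [← Fin.prod_const p (∑ a, c a • w a), Finset.prod_univ_sum]
      simp only [Finset.prod_smul, Fintype.piFinset_univ]
    have e2 : ∀ b, MvPolynomial.eval c (P b) = t b - ∑ f : Fin p → Fin _,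
        μ f b * ∏ i, c (f i) := fun b => by
      simp [P]
    rw [e1]
    simp only [e2, sub_smul, Finset.sum_smul, Finset.sum_sub_distrib, ht]
    congr 1
    rw [Finset.sum_comm]
    refine Finset.sum_congr rfl fun f _ => ?_
    rw [← hμ f, Finset.smul_sum]
    refine Finset.sum_congr rfl fun b _ => ?_
    rw [smul_smul, mul_comm (μ f b)]
  by_cases hsol : ∃ c, ∀ b, MvPolynomial.eval c (P b) = 0
  · obtain ⟨c, hc⟩ := hsol
    refine ⟨∑ a, c a • w a, ?_⟩
    have := heval c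
    simp only [hc, zero_smul, Finset.sum_const_zero] at this
    exact (sub_eq_zero.mp this.symm).symm
  exfalso
  push Not at hsol
  have hI : (1 : MvPolynomial (Fin (Module.finrank QBar (HN M p m))) QBar) ∈
      Ideal.span (Set.range P) := by
    have hvan : (1 : MvPolynomial (Fin (Module.finrank QBar (HN M p m))) QBar) ∈
        MvPolynomial.vanishingIdeal QBar
          (MvPolynomial.zeroLocus QBar (Ideal.span (Set.range P))) := by
      rw [MvPolynomial.mem_vanishingIdeal_iff]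
      intro c hc
      obtain ⟨b, hb⟩ := hsol c
      exact absurd ((MvPolynomial.mem_zeroLocus_iff.mp hc) _ (Ideal.subset_span ⟨b, rfl⟩)) hb
    rw [MvPolynomial.vanishingIdeal_zeroLocus_eq_radical] at hvan
    obtain ⟨k, hk⟩ := hvan
    rwa [one_pow] at hk
  obtain ⟨Q, hQ⟩ := Submodule.mem_span_range_iff_exists_fun (MvPolynomial _ QBar) |>.mp hI
  choose d hd0 hdA using fun a : QBar => exists_natCast_mul_mem (A := A) a
  set D : ℕ := ∏ b, ∏ e ∈ (Q b).support, d ((Q b).coeff e) with hDdef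
  have hD0 : (D : QBar) ≠ 0 := Nat.cast_ne_zero.mpr
    (Finset.prod_ne_zero_iff.mpr fun b _ => Finset.prod_ne_zero_iff.mpr fun e _ => hd0 _)
  obtain ⟨n, hn⟩ := exists_pow_valuation_lt hA hp C.π_nonunit hD0
  obtain ⟨ψ, hψ, y, hy⟩ := happ n
  obtain ⟨c, hc⟩ := hspan _ w hw2 hwW hwi2 _ hψ
  have hcA : ∀ a, c a ∈ A := coord_mem w hw2 hwi2 c (hc ▸ ψ.2.1)
  have hπn : C.π ^ n ≠ 0 := pow_ne_zero _ C.π_ne_zero
  have hPn : ∀ b, MvPolynomial.eval c (P b) / C.π ^ n ∈ A := by
    refine coord_mem v hv2 hvi2 _ ?_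
    have e : ∑ b, (MvPolynomial.eval c (P b) / C.π ^ n) • v b = (y : FB (p * M)) := by
      have h1 : (T : FB (p * M)) - (ψ : FB (p * M)) ^ p =
          algebraMap QBar (FB (p * M)) (C.π ^ n) * (y : FB (p * M)) := by
        have := congrArg Subtype.val hy
        simpa using this
      simp only [div_eq_inv_mul, mul_smul, ← Finset.smul_sum, heval, hc, h1, ← Algebra.smul_def,
        inv_smul_smul₀ hπn]
    rw [e]
    exact y.2.1
  have hQA : ∀ b, (D : QBar) * MvPolynomial.eval c (Q b) ∈ A := by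
    intro b
    rw [MvPolynomial.eval_eq, Finset.mul_sum]
    refine sum_mem fun e he => ?_
    rw [← mul_assoc]
    refine mul_mem ?_ (prod_mem fun i _ => pow_mem (hcA i) _)
    obtain ⟨r, hr⟩ : d ((Q b).coeff e) ∣ D :=
      (Finset.dvd_prod_of_mem _ he).trans
        (Finset.dvd_prod_of_mem (fun b => ∏ e ∈ (Q b).support, d ((Q b).coeff e))
          (Finset.mem_univ b))
    rw [hr, Nat.cast_mul, mul_right_comm]
    exact mul_mem (hdA _) (natCast_mem A r)
  have hfin : (D : QBar) / C.π ^ n ∈ A := by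
    have h1 := congrArg (MvPolynomial.eval c) hQ
    simp only [map_sum, map_one, smul_eq_mul, map_mul] at h1
    have e : (D : QBar) / C.π ^ n = ∑ b, ((D : QBar) * MvPolynomial.eval c (Q b)) *
        (MvPolynomial.eval c (P b) / C.π ^ n) := by
      calc (D : QBar) / C.π ^ n
          = (D : QBar) / C.π ^ n *
              ∑ b, MvPolynomial.eval c (Q b) * MvPolynomial.eval c (P b) := by rw [h1, mul_one]
        _ = _ := by
          rw [Finset.mul_sum]
          refine Finset.sum_congr rfl fun b _ => ?_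
          ring
    rw [e]
    exact sum_mem fun b _ => mul_mem (hQA b) (hPn b)
  rw [← A.valuation_le_one_iff, map_div₀, div_le_one₀ ((Valuation.pos_iff _).mpr hπn)] at hfin
  exact not_lt.mpr hfin hn

variable [CharP (Res A) p] [FF.IsFunctionField (Res A) (KM A M)]
variable (hA : A.LiesOverPrime p) (hM : (M : Res A) ≠ 0) (V : VUnit A hpM) (hV : V.Simple)
include hA hM V hV

/-- A function deeply congruent to one with matched sections is a `p`-th power. -/
theorem exists_root_of_deep {g g' : intFix C hpM} (hgg : g * g' = 1)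
    (hd : DivP p (g : FB (p * M))) {n₀ : ℕ} (hn₀ : 0 < n₀) (he : C.e + 1 ≤ (p - 1) * n₀)
    (hg : piI C hpM ^ (C.e + n₀) ∣ g - 1)
    (hmatch : ∀ f : intFix C hpM, f = g ∨ f = g' → ∃ m₀ : ℕ, ∀ m, m₀ ≤ m → ∀ φ : intFix C hpM,
      (φ : FB (p * M)) ^ p * f ∈ HN M p (p * m) →
        ∃ ψ : intFix C hpM, (ψ : FB (p * M)) ∈ HN M p m ∧ piI C hpM ^ n₀ ∣ φ - ψ) :
    ∃ x : FB (p * M), x ^ p = (g : FB (p * M)) := by
  have hg' : piI C hpM ^ (C.e + n₀) ∣ g' - 1 := by
    obtain ⟨y, hy⟩ := hg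
    exact ⟨-(g' * y), by linear_combination -g' * hy + hgg⟩
  have hr : red C hpM g = 1 :=
    (red_sub_eq_zero (by have := C.e_pos; omega) hg).trans (map_one _)
  have hr' : red C hpM g' = 1 :=
    (red_sub_eq_zero (by have := C.e_pos; omega) hg').trans (map_one _)
  have hd' : DivP p (g' : FB (p * M)) := divP_inv hgg hd
  obtain ⟨l₁, hl⟩ := exists_section_lift hA hM V hV g hr hd
  obtain ⟨l₂, hl'⟩ := exists_section_lift hA hM V hV g' hr' hd'
  obtain ⟨a₁, ha⟩ := hmatch g (Or.inl rfl)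
  obtain ⟨a₂, ha'⟩ := hmatch g' (Or.inr rfl)
  obtain ⟨s₁, hs⟩ := appr_step hA hM V hV hgg hn₀ he
  obtain ⟨s₂, hs'⟩ := appr_step hA hM V hV ((mul_comm g' g).trans hgg) hn₀ he
  set m := l₁ + l₂ + a₁ + a₂ + s₁ + s₂ + 1
  have h1 := one_mem_sp (C := C) (hpM := hpM) m
  have hJ := red_mem_sp (jI_pow_mem (C := C) (hpM := hpM) m)
  obtain ⟨φ₁, hφ₁, hφ₁r⟩ := hl m (by omega) _ h1
  obtain ⟨φJ, hφJ, hφJr⟩ := hl m (by omega) _ hJ
  obtain ⟨χ₁, hχ₁, hχ₁r⟩ := hl' m (by omega) _ h1
  obtain ⟨χJ, hχJ, hχJr⟩ := hl' m (by omega) _ hJ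
  have hj0 : jK A M ≠ 0 := fun h => jK_transcendental A M (h ▸ isAlgebraic_zero)
  have hJne : ∀ s, red C hpM (jI C hpM ^ m) s ≠ 0 := fun s => by
    rw [map_pow, Pi.pow_apply, red_jI]
    exact pow_ne_zero _ fun h => pow_ne_zero _ hj0 (Subtype.ext h)
  have h1ne : ∀ {x : intFix C hpM}, red C hpM x = 1 → ∀ s, red C hpM x s ≠ 0 :=
    fun h s => by rw [h]; exact one_ne_zero
  have all : ∀ d, Appr g n₀ m (n₀ + d) φ₁ ∧ Appr g n₀ m (n₀ + d) φJ ∧
      Appr g' n₀ m (n₀ + d) χ₁ ∧ Appr g' n₀ m (n₀ + d) χJ := by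
    intro d
    induction d with
    | zero =>
      obtain ⟨ψ, hψ, h⟩ := ha m (by omega) φ₁ hφ₁
      obtain ⟨ψ₂, hψ₂, h₂⟩ := ha m (by omega) φJ hφJ
      obtain ⟨ψ₃, hψ₃, h₃⟩ := ha' m (by omega) χ₁ hχ₁
      obtain ⟨ψ₄, hψ₄, h₄⟩ := ha' m (by omega) χJ hχJ
      exact ⟨appr_base he hg hψ h, appr_base he hg hψ₂ h₂, appr_base he hg' hψ₃ h₃,
        appr_base he hg' hψ₄ h₄⟩
    | succ d ih =>
      obtain ⟨i1, i2, i3, i4⟩ := ih
      exact ⟨hs m (by omega) _ (Nat.le_add_right _ _) φ₁ χ₁ χJ hφ₁ hχ₁ hχJ (h1ne hφ₁r) hχ₁r hχJr i1 i3 i4,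
        hs m (by omega) _ (Nat.le_add_right _ _) φJ χ₁ χJ hφJ hχ₁ hχJ (fun s => hφJr ▸ hJne s) hχ₁r hχJr
          i2 i3 i4,
        hs' m (by omega) _ (Nat.le_add_right _ _) χ₁ φ₁ φJ hχ₁ hφ₁ hφJ (h1ne hχ₁r) hφ₁r hφJr i3 i1 i2,
        hs' m (by omega) _ (Nat.le_add_right _ _) χJ φ₁ φJ hχJ hφ₁ hφJ (fun s => hχJr ▸ hJne s) hφ₁r hφJr
          i4 i1 i2⟩
  obtain ⟨x, hx⟩ := exists_root_of_approx hA (C := C) (T := φ₁ ^ p * g) (m := m) hφ₁ fun n => by
    obtain ⟨ψ, hψ, -, h⟩ := (all n).1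
    exact ⟨ψ, hψ, (pow_dvd_pow _ (by omega)).trans h⟩
  have hφ0 : (φ₁ : FB (p * M)) ≠ 0 := fun h0 => h1ne hφ₁r 0 (by
    rw [show φ₁ = 0 from Subtype.ext h0, map_zero]; rfl)
  refine ⟨x / (φ₁ : FB (p * M)), ?_⟩
  rw [div_pow, hx, Subring.coe_mul, Subring.coe_pow,
    mul_div_cancel_left₀ _ (pow_ne_zero _ hφ0)]

end Fermat.Agent.RT.AtP

end
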