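import Fermat.Agent.RT.AtP.Hecke

/-!
# Normalising the reductions of eigen Kummer functions

The orders of the reductions of an eigen Kummer function are divisible by `p` in the tame case;
then either a congruent form exists or the function is, up to constants and `p`-th powers,
congruent to one.
-/

set_option autoImplicit false
set_option linter.unusedSectionVars false

noncomputable section

namespace Fermat.Agent.RT.AtP

open ModularCurve AlgebraicCurve Fermat.Agent.Semistable Fermat.Agent.Arith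
open Fermat.Agent.RT.Mazur Fermat.Agent.RT.MazurP
open scoped IntermediateField

variable {A : ValuationSubring QBar} {p M : ℕ} [Fact p.Prime] [NeZero M]
variable {hpM : ¬ p ∣ M} {C : CoefField A p} {G : ℕ → Prop} {a : ℕ → ℕ}

variable (hA : A.LiesOverPrime p)
include hA

/-- The orders along the components of a Hecke norm. -/
theorem gord_norm (K : Kum hpM C p) {l : ℕ} [NeZero l] (hl : l.Prime) (hN : ¬ l ∣ p * M)
    (s : Fin 2) :
    C.gord (iota2 M p hpM s (heckeNorm (p * M) l K.f)) = ((l : ℤ) + 1) * K.v s := by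
  rw [← K.gord_eq s]
  exact gord_heckeImage hA (Fact.out : p.Prime) C (iota2_fracS M p hpM s K.f)
    ((_root_.map_ne_zero _).mpr K.f_ne) (K.iota_fix s) (iota2_fracS M p hpM s _)
    fun ζ hζ => qExpand_iota2_heckeNorm p M l hpM hl hN s hζ K.f

/-- The difference of the orders is divisible by `p`. -/
theorem dvd_delta (K : Kum hpM C p) (E : EigK C G a K.f) {l : ℕ} (hl : l.Prime) (hGl : G l)
    (hne : ¬ (p : ℤ) ∣ (a l : ℤ) - ((l : ℤ) + 1)) : (p : ℤ) ∣ K.δ := by
  have hp : p.Prime := Fact.out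
  have : NeZero l := ⟨hl.ne_zero⟩
  obtain ⟨c, k, hc, hk, hcf, hkf, e⟩ := E.eigen l hl hGl
  have hN := E.good l hl hGl
  have key : ∀ s, ((l : ℤ) + 1) * K.v s =
      C.gord (algebraMap QBar LSer c) + p * C.gord (iota2 M p hpM s k) + (a l : ℤ) * K.v s := by
    intro s
    have hkfix : C.Fix (iota2 M p hpM s k) := fun τ hτ => by rw [← iota2_galF, hkf τ hτ]
    have hk0 : iota2 M p hpM s k ≠ 0 := (_root_.map_ne_zero _).mpr hk
    have hf0 : iota2 M p hpM s K.f ≠ 0 := (_root_.map_ne_zero _).mpr K.f_ne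
    rw [← gord_norm hA K hl hN s, e, map_mul, map_mul, map_pow, map_pow, AlgHom.commutes,
      CoefField.gord_mul hA hp (mul_mem (algebraMap_mem_fracS c)
        (pow_mem (iota2_fracS M p hpM s k) p)) (pow_mem (iota2_fracS M p hpM s K.f) _)
        (mul_ne_zero ((_root_.map_ne_zero _).mpr hc) (pow_ne_zero _ hk0)) (pow_ne_zero _ hf0)
        ((CoefField.fix_algebraMap hcf).mul (hkfix.pow p)) ((K.iota_fix s).pow _),
      CoefField.gord_mul hA hp (algebraMap_mem_fracS c) (pow_mem (iota2_fracS M p hpM s k) p)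
        ((_root_.map_ne_zero _).mpr hc) (pow_ne_zero _ hk0) (CoefField.fix_algebraMap hcf)
        (hkfix.pow p),
      CoefField.gord_pow hA hp (iota2_fracS M p hpM s k) hk0 hkfix,
      CoefField.gord_pow hA hp (iota2_fracS M p hpM s K.f) hf0 (K.iota_fix s), Kum.gord_eq]
  have h0 := key 0
  have h1 := key 1
  have hd : (p : ℤ) ∣ ((a l : ℤ) - ((l : ℤ) + 1)) * K.δ :=
    ⟨C.gord (iota2 M p hpM 0 k) - C.gord (iota2 M p hpM 1 k), by
      rw [Kum.δ]; linear_combination h0 - h1⟩
  exact ((Nat.prime_iff_prime_int.mp hp).dvd_or_dvd hd).resolve_left hne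

variable [CharP (Res A) p] [FF.IsFunctionField (Res A) (KM A M)]
variable (hM : (M : Res A) ≠ 0) (V : VUnit A hpM) (hV : V.Simple)
include hM V hV

/-- In the tame case all the orders of the reductions are divisible by `p`. -/
theorem dvd_ord_fb_of_tame (K : Kum hpM C p) (hδ : (p : ℤ) ∣ K.δ) (he : ¬ p ∣ C.e) (s : Fin 2)
    (P : Place (Res A) (KM A M)) : (p : ℤ) ∣ P.ord (K.fb s) := by
  have hp : Prime (p : ℤ) := Nat.prime_iff_prime_int.mp Fact.out
  have he' : ¬ (p : ℤ) ∣ (C.e : ℤ) := fun h => he (by exact_mod_cast h)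
  obtain ⟨hoff, hnode, -⟩ := K.res V hA hM hV
  rcases hV.val P with h | h
  · rcases (by fin_cases s <;> simp : s = 0 ∨ s = 1) with rfl | rfl
    · exact (hoff P h).1
    · exact (hoff P h).2
  · rcases (by fin_cases s <;> simp : s = 0 ∨ s = 1) with rfl | rfl
    · exact (hp.dvd_or_dvd ((dvd_sub_right hδ).mp (hnode P h).1)).resolve_left he'
    · exact (hp.dvd_or_dvd ((dvd_add_right hδ).mp (hnode P h).2)).resolve_left he'

variable [IsAlgClosed (Res A)] [FiniteDimensional (Res A)⟮jK A M⟯ (KM A M)]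
  [Algebra.IsSeparable (Res A)⟮jK A M⟯ (KM A M)] (hg' : GoodM A M) (hnu : NoEll M)
include hg' hnu

/-- Reductions with orders divisible by `p`: a form, or the function is congruent to one. -/
theorem hasForm_or_flat (K : Kum hpM C p) (E : EigK C G a K.f) (hδ : (p : ℤ) ∣ K.δ)
    (hord : ∀ s (P : Place (Res A) (KM A M)), (p : ℤ) ∣ P.ord (K.fb s)) :
    HasCong M p G a ∨ ∃ f : intFix C hpM, PEq C K.f (f : FB (p * M)) ∧ red C hpM f = 1 := by
  have hp : p.Prime := Fact.out
  have hJ : Transcendental (Res A) (jK A M) := jK_transcendental A M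
  by_cases hall : ∀ s, dd (K := Res A) (jK A M) (K.fb s) = 0
  · right
    choose z hz using fun s => exists_pow_eq_of_dd_eq_zero p hJ (hall s)
    have hz0 : ∀ s, z s ≠ 0 := fun s h0 => K.fb_ne s (by rw [← hz s, h0, zero_pow hp.ne_zero])
    obtain ⟨d, hd⟩ := hδ
    obtain ⟨φ, hφ0, hφf, hφ⟩ := exists_fixed_pair (C := C) hA hM V hV z hz0 d
    have hv : ∀ s : Fin 2, K.v s = K.v 0 + p * ![0, d] s := by
      intro s
      fin_cases s
      · simp
      · show K.v 1 = K.v 0 + p * d
        rw [← hd, Kum.δ]; ring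
    have hc : C.π ^ (-K.v 0) ≠ 0 := zpow_ne_zero _ C.π_ne_zero
    set f' : FB (p * M) := algebraMap QBar _ (C.π ^ (-K.v 0)) * φ⁻¹ ^ p * K.f with hf'
    have hpeq : PEq C K.f f' := ⟨_, φ⁻¹, hc, inv_ne_zero hφ0,
      fun τ hτ => by rw [map_zpow₀, C.π_fixed τ hτ],
      fun τ hτ => by rw [map_inv₀, hφf τ hτ], rfl⟩
    have key : ∀ s, ∃ h : iota2 M p hpM s f' ∈ locS A, redL A ⟨_, h⟩ = 1 := by
      intro s
      obtain ⟨h1, e1⟩ := K.spec s
      obtain ⟨h2, e2⟩ := hφ s
      have hne : redL A ⟨_, h2⟩ ≠ 0 := by rw [e2]; exact fun h => hz0 s (Subtype.ext h)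
      obtain ⟨h3, e3⟩ := inv_mem_locS h2 hne
      have e : iota2 M p hpM s f' = algebraMap QBar LSer (C.π ^ (-K.v s)) * iota2 M p hpM s K.f *
          (algebraMap QBar LSer (C.π ^ (-(![0, d] s))) * iota2 M p hpM s φ)⁻¹ ^ p := by
        have hb0 : algebraMap QBar LSer (C.π ^ (![0, d] s)) ≠ 0 :=
          (_root_.map_ne_zero _).mpr (zpow_ne_zero _ C.π_ne_zero)
        have h4 : algebraMap QBar LSer (C.π ^ ((p : ℤ) * ![0, d] s)) =
            algebraMap QBar LSer (C.π ^ (![0, d] s)) ^ p := by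
          rw [← map_pow, mul_comm (p : ℤ), zpow_mul, zpow_natCast]
        rw [hf', map_mul, map_mul, map_pow, map_inv₀, AlgHom.commutes, hv s, neg_add,
          zpow_add₀ C.π_ne_zero, map_mul, zpow_neg C.π ((p : ℤ) * ![0, d] s),
          zpow_neg C.π (![0, d] s), map_inv₀, map_inv₀, h4]
        field_simp
        rw [div_pow, div_pow, one_pow]
        field_simp
      refine ⟨by rw [e]; exact mul_mem h1 (pow_mem h3 p), ?_⟩
      rw [redL_congr _ (mul_mem h1 (pow_mem h3 p)) e, redL_mul' h1 (pow_mem h3 p), redL_pow' h3,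
        e1, e3, e2, inv_pow, ← hz s]
      push_cast
      exact mul_inv_cancel₀ (pow_ne_zero _ fun h => hz0 s (Subtype.ext h))
    choose h hr using key
    let f : intFix C hpM := ⟨f', (mem_loc2 _).mpr h, hpeq.fix E.fix⟩
    exact ⟨f, hpeq, funext fun s => (red_eq_of_val (x := f) (h s) rfl).trans (hr s)⟩
  · left
    push Not at hall
    obtain ⟨s, hs⟩ := hall
    obtain ⟨h, e⟩ := K.spec s
    obtain ⟨hθ, hθr⟩ := theta_mem_locS h
    obtain ⟨hinv, hinvr⟩ := inv_mem_locS h (K.isGUnit_spec s).2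
    have he : algebraMap QBar LSer (C.π ^ 0)⁻¹ * dlog (iota2 M p hpM s K.f) =
        theta QBar (algebraMap QBar LSer (C.π ^ (-K.v s)) * iota2 M p hpM s K.f) *
          (algebraMap QBar LSer (C.π ^ (-K.v s)) * iota2 M p hpM s K.f)⁻¹ := by
      rw [pow_zero, inv_one, map_one, one_mul,
        ← dlog_const_mul (zpow_ne_zero (-K.v s) C.π_ne_zero) ((_root_.map_ne_zero _).mpr K.f_ne),
        dlog, div_eq_mul_inv]
    refine hasForm_of_dlog hA hM hnu E s 0 (Or.inl C.e_pos)
      (g := dd (K := Res A) (jK A M) (K.fb s) / K.fb s)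
      (by rw [he]; exact mul_mem hθ hinv) ?_
      (dlog_mem_regular p hA hM hg' (K.fb_ne s) (hord s)) (div_ne_zero hs (K.fb_ne s))
    rw [redL_congr _ (mul_mem hθ hinv) he, redL_mul' hθ hinv, hθr, hinvr, e, mulTheta_apply,
      coe_dd_mul_theta]
    push_cast
    ring

/-- A layer with nonzero regular differential gives a form. -/
theorem hasForm_of_layer {g y : intFix C hpM} (E : EigK C G a (g : FB (p * M)))
    (hg : red C hpM g = 1) {i : ℕ} (hie : i ≤ C.e) (hy : g - 1 = piI C hpM ^ i * y) {s : Fin 2}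
    {b : KM A M} (hb : red C hpM y s = (b : LaurentSeries (Res A)))
    (hne : dd (K := Res A) (jK A M) b ≠ 0)
    (hreg : dd (K := Res A) (jK A M) b ∈ riemannRochSpace (regDiv A M)) :
    HasCong M p G a := by
  set x := iota2 M p hpM s (g : FB (p * M))
  obtain ⟨hθ, hθr⟩ := theta_mem_locS (locS_of_intFix y s)
  have hg1 : redL A ⟨x, locS_of_intFix g s⟩ = 1 := by
    have := congrFun hg s
    rwa [red_apply] at this
  obtain ⟨hinv, hinvr⟩ := inv_mem_locS (locS_of_intFix g s) (by rw [hg1]; exact one_ne_zero)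
  have hx : x = 1 + algebraMap QBar LSer (C.π ^ i) * iota2 M p hpM s (y : FB (p * M)) := by
    have h := congrArg (fun u : intFix C hpM => iota2 M p hpM s (u : FB (p * M)))
      (sub_eq_iff_eq_add'.mp hy)
    simp only [Subring.coe_add, Subring.coe_mul, Subring.coe_pow, coe_piI, OneMemClass.coe_one,
      map_add, map_one, map_mul, map_pow, AlgHom.commutes] at h
    rw [map_pow]
    exact h
  have he : algebraMap QBar LSer (C.π ^ i)⁻¹ * dlog x =
      theta QBar (iota2 M p hpM s (y : FB (p * M))) * x⁻¹ := by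
    rw [dlog, div_eq_mul_inv, ← mul_assoc]
    congr 1
    rw [hx, map_add, Derivation.map_one_eq_zero, zero_add, theta_mul,
      MazurP.algebraMap_eq_C (C.π ^ i), theta_C, MazurP.algebraMap_eq_C]
    simp only [mul_zero, add_zero, ← mul_assoc, ← map_mul]
    rw [inv_mul_cancel₀ (pow_ne_zero _ C.π_ne_zero), map_one, one_mul]
  refine hasForm_of_dlog hA hM hnu E s i (Or.inr ⟨hie, locS_of_intFix g s, hg1⟩) (g := dd (K := Res A) (jK A M) b)
    (by rw [he]; exact mul_mem hθ hinv) ?_ hreg hne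
  rw [redL_congr _ (mul_mem hθ hinv) he, redL_mul' hθ hinv, hθr, hinvr, hg1, inv_one, mul_one,
    ← red_apply, hb, mulTheta_apply, coe_dd_mul_theta]

end Fermat.Agent.RT.AtP

end
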