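import Fermat.Agent.RT.AtP.Wild
import Fermat.Agent.RT.AtP.NonFlat
import Fermat.Agent.RT.MazurP.Node

/-!
# The wild case

For an eigen Kummer function moved by the wild generator through a class fixed by the tame group
the orders of the reductions are divisible by `p`; so either a congruent form exists or the class
is fixed by the generator.
-/

set_option autoImplicit false
set_option linter.unusedSectionVars false

noncomputable section

namespace Fermat.Agent.RT.AtP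

open ModularCurve AlgebraicCurve Fermat.Agent.Semistable Fermat.Agent.Arith
open Fermat.Agent.RT.Mazur Fermat.Agent.RT.MazurP
open scoped IntermediateField

variable {A : ValuationSubring QBar} {p M : ℕ} [Fact p.Prime] [NeZero M]
variable {hpM : ¬ p ∣ M} {W : Wild A p} {G : ℕ → Prop} {a : ℕ → ℕ}
theorem coeffMap_algebraMap (σ : QBar →+* QBar) (c : QBar) :
    coeffMap σ (algebraMap QBar LSer c) = algebraMap QBar LSer (σ c) := by
  rw [algebraMap_laurentSeries_eq_single, algebraMap_laurentSeries_eq_single, coeffMap_single]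

variable (hA : A.LiesOverPrime p)
include hA

/-- Ratios of conjugate powers of the uniformiser are principal units. -/
theorem residue_sigma_pi (v : ℤ) :
    ∃ h : W.C.π ^ v / W.σ (W.C.π ^ v) ∈ A, IsLocalRing.residue A ⟨_, h⟩ = 1 := by
  have hp : p.Prime := Fact.out
  obtain ⟨w, hw, ew⟩ := W.exists_σ_π_pow v.natAbs
  set n := v.natAbs with hndef
  have hn : W.C.π ^ n ≠ 0 := pow_ne_zero _ W.C.π_ne_zero
  set δ := (n : QBar) * (W.u : QBar) * W.C.π + w * W.C.π ^ 2 with hδ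
  have hδn : δ ∈ A.nonunits := by
    rw [hδ, show (n : QBar) * (W.u : QBar) * W.C.π + w * W.C.π ^ 2 =
      ((n : QBar) * (W.u : QBar) + w * W.C.π) * W.C.π by ring]
    exact nonunits_mul_left (add_mem (mul_mem (natCast_mem A n) W.u.2)
      (mul_mem hw (mem_of_mem_nonunits W.C.π_nonunit))) W.C.π_nonunit
  have hone : A.valuation (1 + δ) = 1 := by
    rw [A.valuation.map_add_eq_of_lt_left] <;> rw [map_one]
    exact (ValuationSubring.mem_nonunits_iff A).mp hδn
  have hmem : 1 + δ ∈ A := add_mem (one_mem A) (mem_of_mem_nonunits hδn)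
  have hres : IsLocalRing.residue A ⟨1 + δ, hmem⟩ = 1 := by
    rw [show (⟨1 + δ, hmem⟩ : A) = 1 + ⟨δ, mem_of_mem_nonunits hδn⟩ from rfl, map_add,
      map_one, (residue_eq_zero_iff _).mpr hδn, add_zero]
  have e1 : W.σ (W.C.π ^ n) = W.C.π ^ n * (1 + δ) := by rw [ew, hδ]; ring
  have h10 : 1 + δ ≠ 0 := fun h0 => by simp [h0] at hone
  set r := W.C.π ^ v / W.σ (W.C.π ^ v) with hr
  rcases Int.natAbs_eq v with hh | hh <;> rw [← hndef] at hh
  · have er : r = (1 + δ)⁻¹ := by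
      rw [hr, hh, zpow_natCast, e1]
      field_simp
    have hmem' : (1 + δ)⁻¹ ∈ A :=
      (A.valuation_le_one_iff _).mp (by rw [map_inv₀, hone, inv_one])
    refine ⟨er ▸ hmem', ?_⟩
    have hprod : (⟨1 + δ, hmem⟩ : A) * ⟨r, er ▸ hmem'⟩ = 1 :=
      Subtype.ext (by simp [er, mul_inv_cancel₀ h10])
    have := congrArg (IsLocalRing.residue A) hprod
    rwa [map_mul, map_one, hres, one_mul] at this
  · have er : r = 1 + δ := by
      rw [hr, hh, zpow_neg, zpow_natCast, map_inv₀, e1]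
      field_simp
    exact ⟨er ▸ hmem, by simp only [er]; exact hres⟩

/-- A conjugate keeps the normalised reduction. -/
theorem isGUnit_sigma {x : LSer} {v : ℤ}
    (hx : algebraMap QBar LSer (W.C.π ^ (-v)) * x ∈ locS A) (hfix : W.C.Fix x)
    (hne : redL A ⟨_, hx⟩ ≠ 0) :
    (∃ h : algebraMap QBar LSer (W.C.π ^ (-v)) * coeffMap (W.σ : QBar →+* QBar) x ∈ locS A,
        redL A ⟨_, h⟩ = redL A ⟨_, hx⟩) ∧
      IsRed A (coeffMap (W.σ : QBar →+* QBar) x) (redL A ⟨_, hx⟩) ∧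
      IsGUnit A (algebraMap QBar LSer (W.C.π ^ (-v)) * coeffMap (W.σ : QBar →+* QBar) x) := by
  have hp : p.Prime := Fact.out
  have hxf : W.C.Fix (algebraMap QBar LSer (W.C.π ^ (-v)) * x) :=
    (CoefField.fix_algebraMap fun τ hτ => by rw [map_zpow₀, W.C.π_fixed τ hτ]).mul hfix
  obtain ⟨z, hz, e⟩ := W.exists_σ_locS hA hp hx hxf
  rw [map_mul, coeffMap_algebraMap] at e
  have hπ2 : algebraMap QBar LSer (W.C.π ^ 2) * z ∈ locS A :=
    mul_mem (algebraMap_mem_locS (pow_mem (mem_of_mem_nonunits W.C.π_nonunit) 2)) hz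
  have hm : algebraMap QBar LSer ((W.σ : QBar →+* QBar) (W.C.π ^ (-v))) *
      coeffMap (W.σ : QBar →+* QBar) x ∈ locS A := by
    rw [e]; exact add_mem hx hπ2
  have hr : redL A ⟨_, hm⟩ = redL A ⟨_, hx⟩ := by
    have hn : W.C.π ^ 2 ∈ A.nonunits := by
      rw [pow_two]
      exact nonunits_mul_left (mem_of_mem_nonunits W.C.π_nonunit) W.C.π_nonunit
    obtain ⟨h', e'⟩ := redL_const_mul (mem_of_mem_nonunits hn) hz
    rw [(residue_eq_zero_iff _).mpr hn, map_zero, zero_mul] at e'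
    rw [redL_congr hm (add_mem hx hπ2) e]
    refine (map_add (redL A) (⟨_, hx⟩ : locS A) ⟨_, hπ2⟩).trans ?_
    rw [show (⟨_, hπ2⟩ : locS A) = ⟨_, h'⟩ from rfl, e', add_zero]
  obtain ⟨hρA, hρ1⟩ := residue_sigma_pi (W := W) hA (-v)
  obtain ⟨h', e'⟩ := redL_const_mul hρA hm
  have hc : W.σ (W.C.π ^ (-v)) ≠ 0 := (_root_.map_ne_zero W.σ).mpr (zpow_ne_zero _ W.C.π_ne_zero)
  have e2 : algebraMap QBar LSer (W.C.π ^ (-v)) * coeffMap (W.σ : QBar →+* QBar) x =
      algebraMap QBar LSer (W.C.π ^ (-v) / W.σ (W.C.π ^ (-v))) *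
        (algebraMap QBar LSer ((W.σ : QBar →+* QBar) (W.C.π ^ (-v))) *
          coeffMap (W.σ : QBar →+* QBar) x) := by
    rw [← mul_assoc, ← map_mul]
    congr 2
    exact (div_mul_cancel₀ _ hc).symm
  have hmem : algebraMap QBar LSer (W.C.π ^ (-v)) * coeffMap (W.σ : QBar →+* QBar) x ∈ locS A :=
    e2 ▸ h'
  have hred : redL A ⟨_, hmem⟩ = redL A ⟨_, hx⟩ := by
    rw [redL_congr _ h' e2, e', hr, hρ1, map_one, one_mul]
  exact ⟨⟨hmem, hred⟩, ⟨hne, _, zpow_ne_zero _ W.C.π_ne_zero, hmem, hred⟩, hmem,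
    by rw [hred]; exact hne⟩

variable [CharP (Res A) p] [FF.IsFunctionField (Res A) (KM A M)]
variable (hM : (M : Res A) ≠ 0) (V : VUnit A hpM) (hV : V.Simple)
include hM V hV

/-- The relation with normalised ingredients. -/
theorem exists_sigmaRel (K : Kum hpM W.C p) {f₀ : intFix W.C hpM} (hf₀ : red W.C hpM f₀ = 1)
    (hf₀d : DivP p (f₀ : FB (p * M)))
    (hf₀f : ∀ τ ∈ W.C₁.H, galF (p * M) τ (f₀ : FB (p * M)) = f₀)
    {κ : QBar} {q : FB (p * M)} (hκ : κ ≠ 0) (hq : q ≠ 0)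
    (hqf : ∀ τ ∈ W.C.H, galF (p * M) τ q = q)
    (hrel : galF (p * M) W.σ K.f = algebraMap QBar _ κ * K.f * (f₀ : FB (p * M)) * q ^ p) :
    ∃ R : SigmaRel W K, R.f₀ = (f₀ : FB (p * M)) ∧
      ∀ s, IsGUnit A (iota2 M p hpM s R.q) := by
  have hp : p.Prime := Fact.out
  have := residueField_isAlgClosed A
  have hf₀0 : (f₀ : FB (p * M)) ≠ 0 := fun h => one_ne_zero (α := LaurentSeries (Res A)) (by
    have := congrFun hf₀ 0
    rw [show f₀ = 0 from Subtype.ext h, map_zero] at this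
    exact this.symm)
  -- the constant is fixed
  have hκf : ∀ τ ∈ W.C.H, τ κ = κ := by
    intro τ hτ
    have h := sig_fix K.fix hτ
    rw [hrel, map_mul, map_mul, map_mul, map_pow, K.fix τ hτ, hqf τ hτ,
      hf₀f τ (W.le hτ), arithmeticRingAut_algebraMap] at h
    exact (algebraMap QBar (FB (p * M))).injective
      (mul_right_cancel₀ K.f_ne (mul_right_cancel₀ hf₀0 (mul_right_cancel₀ (pow_ne_zero p hq) h)))
  obtain ⟨k, hk⟩ := W.C.discrete κ hκ hκf
  -- the orders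
  have hQ0 : ∀ s, iota2 M p hpM s q ≠ 0 := fun s => (_root_.map_ne_zero _).mpr hq
  have hQf : ∀ s, W.C.Fix (iota2 M p hpM s q) := fun s τ hτ => by rw [← iota2_galF, hqf τ hτ]
  have hkey : ∀ s, k + (p : ℤ) * W.C.gord (iota2 M p hpM s q) = 0 := by
    intro s
    obtain ⟨h, e⟩ := K.spec s
    obtain ⟨-, -, hg⟩ := isGUnit_sigma hA h (K.iota_fix s) (by
      rw [e]; exact fun h0 => K.fb_ne s (Subtype.ext h0))
    rw [← iota2_galF, hrel] at hg
    have hX0 : iota2 M p hpM s K.f ≠ 0 := (_root_.map_ne_zero _).mpr K.f_ne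
    have h1 := CoefField.gord_eq hg
    have hF : W.C.Fix (iota2 M p hpM s (f₀ : FB (p * M))) := iota_fix f₀ s
    have hF0 : iota2 M p hpM s (f₀ : FB (p * M)) ≠ 0 := (_root_.map_ne_zero _).mpr hf₀0
    have hκ' : algebraMap QBar LSer κ ≠ 0 := (_root_.map_ne_zero _).mpr hκ
    have hκF := CoefField.fix_algebraMap (C := W.C) hκf
    have hκg : W.C.gord (algebraMap QBar LSer κ) = k := by
      refine CoefField.gord_eq ?_
      rw [← map_mul]
      have hv : A.valuation (W.C.π ^ (-k) * κ) = 1 := by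
        rw [map_mul, map_zpow₀, hk, ← zpow_add₀ ((Valuation.ne_zero_iff _).mpr W.C.π_ne_zero),
          neg_add_cancel, zpow_zero]
      obtain ⟨hm, hne⟩ := residue_unit_ne_zero hv
      exact ⟨algebraMap_mem_locS hm, by
        rw [redL_algebraMap hm]; exact (_root_.map_ne_zero _).mpr hne⟩
    have hFg : W.C.gord (iota2 M p hpM s (f₀ : FB (p * M))) = 0 :=
      CoefField.gord_of_isGUnit ⟨locS_of_intFix f₀ s, by
        rw [← red_apply, hf₀]; exact one_ne_zero⟩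
    have m1 := mul_mem (algebraMap_mem_fracS κ) (iota2_fracS (A := A) M p hpM s K.f)
    have m2 := mul_mem m1 (iota2_fracS (A := A) M p hpM s (f₀ : FB (p * M)))
    rw [map_mul, map_mul, map_mul, map_pow, AlgHom.commutes,
      CoefField.gord_mul hA hp m2 (pow_mem (iota2_fracS M p hpM s q) p)
        (mul_ne_zero (mul_ne_zero hκ' hX0) hF0) (pow_ne_zero _ (hQ0 s))
        ((hκF.mul (K.iota_fix s)).mul hF) ((hQf s).pow p),
      CoefField.gord_mul hA hp m1 (iota2_fracS M p hpM s _) (mul_ne_zero hκ' hX0) hF0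
        (hκF.mul (K.iota_fix s)) hF,
      CoefField.gord_mul hA hp (algebraMap_mem_fracS κ) (iota2_fracS M p hpM s _) hκ' hX0 hκF
        (K.iota_fix s),
      CoefField.gord_pow hA hp (iota2_fracS M p hpM s q) (hQ0 s) (hQf s), hFg, Kum.gord_eq,
      hκg] at h1
    linarith
  set g := W.C.gord (iota2 M p hpM 0 q) with hgdef
  have hg : ∀ s, W.C.gord (iota2 M p hpM s q) = g := fun s =>
    mul_left_cancel₀ (Int.natCast_ne_zero.mpr hp.ne_zero) (by linarith [hkey s, hkey 0])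
  set q₁ : FB (p * M) := algebraMap QBar _ (W.C.π ^ (-g)) * q with hq₁
  have hq₁f : ∀ τ ∈ W.C.H, galF (p * M) τ q₁ = q₁ := fun τ hτ => by
    rw [hq₁, map_mul, arithmeticRingAut_algebraMap, map_zpow₀, W.C.π_fixed τ hτ, hqf τ hτ]
  have hq₁u : ∀ s, IsGUnit A (iota2 M p hpM s q₁) := fun s => by
    have := CoefField.gord_spec hA hp (iota2_fracS M p hpM s q) (hQ0 s) (hQf s)
    rw [hg s] at this
    rwa [hq₁, map_mul, AlgHom.commutes]
  set κ₁ := κ * (W.C.π ^ g) ^ p with hκ₁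
  have hκ₁0 : κ₁ ≠ 0 := mul_ne_zero hκ (pow_ne_zero _ (zpow_ne_zero _ W.C.π_ne_zero))
  have hκ₁v : A.valuation κ₁ = 1 := by
    have hπv : A.valuation W.C.π ≠ 0 := (Valuation.ne_zero_iff _).mpr W.C.π_ne_zero
    rw [hκ₁, map_mul, map_pow, map_zpow₀, hk, ← zpow_natCast, ← zpow_mul, ← zpow_add₀ hπv,
      show k + g * (p : ℤ) = 0 by linarith [hkey 0], zpow_zero]
  have hrel₁ : galF (p * M) W.σ K.f =
      algebraMap QBar _ κ₁ * K.f * (f₀ : FB (p * M)) * q₁ ^ p := by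
    have h1 : algebraMap QBar (FB (p * M)) (W.C.π ^ g) *
        algebraMap QBar (FB (p * M)) (W.C.π ^ (-g)) = 1 := by
      rw [← map_mul, ← zpow_add₀ W.C.π_ne_zero, add_neg_cancel, zpow_zero, map_one]
    have h2 : (algebraMap QBar (FB (p * M)) (W.C.π ^ g)) ^ p *
        (algebraMap QBar (FB (p * M)) (W.C.π ^ (-g))) ^ p = 1 := by
      rw [← mul_pow, h1, one_pow]
    rw [hrel, hκ₁, hq₁, map_mul, map_pow, mul_pow]
    linear_combination (-(algebraMap QBar (FB (p * M)) κ * K.f * (f₀ : FB (p * M)) * q ^ p)) * h2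
  let Q : intFix W.C hpM := ⟨q₁, (mem_loc2 _).mpr fun s => (hq₁u s).1, hq₁f⟩
  have hQne : ∀ s, red W.C hpM Q s ≠ 0 := fun s => (hq₁u s).2
  obtain ⟨hκA, hκne⟩ := residue_unit_ne_zero hκ₁v
  -- the reduction of the root is constant
  have hredQ : ∀ s, ∃ t : Res A, t ≠ 0 ∧ red W.C hpM Q s ^ p =
      algebraMap (Res A) (LaurentSeries (Res A)) t := by
    intro s
    obtain ⟨h, e⟩ := K.spec s
    have hne : redL A ⟨_, h⟩ ≠ 0 := by rw [e]; exact fun h0 => K.fb_ne s (Subtype.ext h0)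
    obtain ⟨-, h1, -⟩ := isGUnit_sigma hA h (K.iota_fix s) hne
    rw [← iota2_galF, hrel₁, map_mul, map_mul, map_mul, map_pow, AlgHom.commutes] at h1
    have hF : IsRed A (iota2 M p hpM s (f₀ : FB (p * M))) 1 := by
      have h0 := IsRed.of_locS (locS_of_intFix f₀ s) (by rw [← red_apply, hf₀]; exact one_ne_zero)
      rwa [← red_apply, hf₀] at h0
    have hX : IsRed A (iota2 M p hpM s K.f) (redL A ⟨_, h⟩) :=
      ⟨hne, _, zpow_ne_zero _ W.C.π_ne_zero, h, rfl⟩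
    have h2 := (((IsRed.const hκ₁0).mul hX).mul hF).mul
      ((IsRed.of_locS (locS_of_intFix Q s) (hQne s)).pow p)
    rw [← red_apply] at h2
    obtain ⟨u, hu, e2⟩ := h1.unique h2
    rw [one_mul, mul_one, mul_comm _ (redL A ⟨_, h⟩)] at e2
    exact ⟨u, hu, mul_left_cancel₀ hne e2⟩
  choose t ht hQp using hredQ
  have hLp := charP_laurent A p
  choose c hc using fun s => IsAlgClosed.exists_pow_nat_eq (t s) hp.pos
  have hQc : ∀ s, red W.C hpM Q s = algebraMap (Res A) _ (c s) := fun s =>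
    frobenius_inj _ p (by rw [frobenius_def, frobenius_def, hQp s, ← hc s, map_pow])
  -- the same constant on both sides
  have hκc : ∀ s, IsLocalRing.residue A ⟨κ₁, hκA⟩ * c s ^ p = 1 := by
    intro s
    obtain ⟨h, e⟩ := K.spec s
    have hne : redL A ⟨_, h⟩ ≠ 0 := by rw [e]; exact fun h0 => K.fb_ne s (Subtype.ext h0)
    obtain ⟨⟨hm, hmr⟩, -, -⟩ := isGUnit_sigma hA h (K.iota_fix s) hne
    have hmR := mul_mem (mul_mem (mul_mem (algebraMap_mem_locS hκA) h) (locS_of_intFix f₀ s))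
      (pow_mem (locS_of_intFix Q s) p)
    have eL : algebraMap QBar LSer (W.C.π ^ (-K.v s)) *
        coeffMap (W.σ : QBar →+* QBar) (iota2 M p hpM s K.f) =
        algebraMap QBar LSer κ₁ *
          (algebraMap QBar LSer (W.C.π ^ (-K.v s)) * iota2 M p hpM s K.f) *
          iota2 M p hpM s (f₀ : FB (p * M)) * iota2 M p hpM s (Q : FB (p * M)) ^ p := by
      rw [← iota2_galF, hrel₁, map_mul, map_mul, map_mul, map_pow, AlgHom.commutes]
      ring
    have h3 := redL_congr hm hmR eL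
    rw [redL_mul' (mul_mem (mul_mem (algebraMap_mem_locS hκA) h) (locS_of_intFix f₀ s))
        (pow_mem (locS_of_intFix Q s) p),
      redL_mul' (mul_mem (algebraMap_mem_locS hκA) h) (locS_of_intFix f₀ s),
      redL_mul' (algebraMap_mem_locS hκA) h, redL_pow' (locS_of_intFix Q s),
      ← red_apply, ← red_apply, hf₀, Pi.one_apply, mul_one, hQc s, redL_algebraMap hκA, hmr] at h3
    refine (algebraMap (Res A) (LaurentSeries (Res A))).injective ?_
    rw [map_mul, map_pow, map_one]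
    refine mul_right_cancel₀ hne ?_
    rw [one_mul]
    linear_combination -h3
  have hc01 : ∀ s, c s = c 0 := fun s => frobenius_inj _ p (by
    have hres : IsLocalRing.residue A ⟨κ₁, hκA⟩ ≠ 0 := hκne
    exact mul_left_cancel₀ hres ((hκc s).trans (hκc 0).symm))
  have hc0 : c 0 ≠ 0 := fun h0 => hQne 0 (by rw [hQc 0, h0, map_zero])
  obtain ⟨b, hb, hbf, hbr⟩ := exists_inertiaFixed_lift hA hp (c 0)⁻¹
  have hb0 : b ≠ 0 := by
    rintro rfl
    rw [show (⟨0, hb⟩ : A) = 0 from rfl, map_zero] at hbr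
    exact inv_ne_zero hc0 hbr.symm
  have hbfix : ∀ τ ∈ W.C.H, τ b = b := fun τ hτ => hbf τ (W.C.le_inertia hτ)
  set Q₂ := cst W.C hpM b hb hbfix * Q with hQ₂
  have hQ₂r : red W.C hpM Q₂ = 1 := by
    rw [hQ₂, map_mul, red_cst, hbr]
    funext s
    rw [Pi.mul_apply, hQc s, hc01 s, ← map_mul, inv_mul_cancel₀ hc0, map_one, Pi.one_apply]
  obtain ⟨Y, hY⟩ := piI_dvd hA (x := Q₂ - 1) (by rw [map_sub, hQ₂r, map_one, sub_self])
  refine ⟨{ f₀ := (f₀ : FB (p * M))
            f₀_ne := hf₀0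
            f₀_dvd := hf₀d
            f₀_fix := hf₀f
            f₀_red := fun s => ⟨locS_of_intFix f₀ s, by rw [← red_apply, hf₀]; rfl⟩
            q := (Q₂ : FB (p * M))
            q_fix := Q₂.2.2
            y := fun s => iota2 M p hpM s (Y : FB (p * M))
            y_mem := fun s => locS_of_intFix Y s
            q_eq := fun s => ?_
            κ := κ₁ * (b ^ p)⁻¹
            κ_ne := mul_ne_zero hκ₁0 (inv_ne_zero (pow_ne_zero _ hb0))
            rel := ?_ }, rfl, fun s => ⟨locS_of_intFix Q₂ s, ?_⟩⟩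
  · have h := congrArg (fun u : intFix W.C hpM => iota2 M p hpM s (u : FB (p * M)))
      (sub_eq_iff_eq_add'.mp hY)
    simp only [Subring.coe_add, Subring.coe_mul, coe_piI, OneMemClass.coe_one, map_add, map_one,
      map_mul, AlgHom.commutes] at h
    exact h
  · rw [hrel₁, hQ₂, Subring.coe_mul, show ((cst W.C hpM b hb hbfix : intFix W.C hpM) : FB (p * M)) =
      algebraMap QBar _ b from rfl, mul_pow, map_mul _ κ₁, map_inv₀, map_pow]
    have : algebraMap QBar (FB (p * M)) b ≠ 0 := (_root_.map_ne_zero _).mpr hb0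
    field_simp
    rw [show (Q : FB (p * M)) = algebraMap QBar _ (W.C.π ^ (-g)) * q from hq₁, mul_pow, mul_pow]
    ring
  · rw [← red_apply, hQ₂r]; exact one_ne_zero

variable [IsAlgClosed (Res A)] [FiniteDimensional (Res A)⟮jK A M⟯ (KM A M)]
  [Algebra.IsSeparable (Res A)⟮jK A M⟯ (KM A M)] (hg' : GoodM A M) (hnu : NoEll M)
include hg' hnu

/-- The orders are divisible by `p`. -/
theorem dvd_ord_fb_of_sigmaRel (K : Kum hpM W.C p) (E : EigK W.C G a K.f) (R : SigmaRel W K)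
    (E₀ : EigK W.C₁ G a R.f₀) {l : ℕ} (hl : l.Prime) (hGl : G l)
    (hne : ¬ (p : ℤ) ∣ (a l : ℤ) - ((l : ℤ) + 1)) :
    (p : ℤ) ∣ K.δ ∧ ∀ s (P : Place (Res A) (KM A M)), (p : ℤ) ∣ P.ord (K.fb s) := by
  have hp : p.Prime := Fact.out
  have hδ := dvd_delta hA K E hl hGl hne
  refine ⟨hδ, fun s P => ?_⟩
  obtain ⟨hoff, -, -⟩ := K.res V hA hM hV
  rcases hV.val P with hP | hP
  · rcases (by fin_cases s <;> simp : s = 0 ∨ s = 1) with rfl | rfl
    · exact (hoff P hP).1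
    · exact (hoff P hP).2
  have : NeZero l := ⟨hl.ne_zero⟩
  have hN := E.good l hl hGl
  obtain ⟨r, hr⟩ := R.exists_red_const V hA hM hV
  obtain ⟨d, hd, e1, e2⟩ := R.node_eq V hA hM hV hr hP
  obtain ⟨c, k, hc, hk, hcf, hkf, e⟩ := E.eigen l hl hGl
  obtain ⟨c₀, k₀, hc₀, hk₀, -, -, e₀⟩ := E₀.eigen l hl hGl
  set g := heckeNorm (p * M) l K.f with hg
  have hgf : ∀ τ ∈ W.C.H, galF (p * M) τ g = g := fun τ hτ => by
    rw [hg, ← heckeNorm_galF hl hN, K.fix τ hτ]
  have hgd : DivP p g := (E.eigen l hl hGl).divP fun v => by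
    rw [FF.ord_pow v]; exact dvd_mul_of_dvd_right (E.divP v) _
  obtain ⟨K', hK'⟩ := Kum.exists_of (Fact.out : p.Prime).pos hA hM ((E.eigen l hl hGl).ne_zero (pow_ne_zero _ E.ne)) hgd hgf
  obtain ⟨ζ, hζ⟩ := exists_primitive (l := l)
  have hkey := fun (s : Fin 2) (x : FB (p * M)) =>
    qExpand_iota2_heckeNorm p M l hpM hl hN s hζ x
  have hf₀' : ∀ s, ∃ h : iota2 M p hpM s (heckeNorm (p * M) l R.f₀) ∈ locS A,
      redL A ⟨_, h⟩ = 1 := by
    intro s
    obtain ⟨h0, hr0⟩ := R.f₀_red s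
    obtain ⟨hm, hmr⟩ := heckeProd_mem_locS hζ.pow_eq_one h0
    obtain ⟨hy, hyr⟩ := locS_of_qExpand hA hp
      (iota2_fracS M p hpM s (heckeNorm (p * M) l R.f₀)) (by rw [hkey]; exact hm)
    exact ⟨hy, qExpand_injective l (by
      rw [hyr, redL_congr _ hm (hkey s _), hmr, hr0, map_one, map_one])⟩
  have hq' : ∀ s, ∃ y₁, ∃ h : y₁ ∈ locS A,
      iota2 M p hpM s (heckeNorm (p * M) l R.q) = 1 + algebraMap QBar LSer W.C.π * y₁ ∧
        redL A ⟨y₁, h⟩ = algebraMap (Res A) _ (((l : Res A) + 1) * r s) := fun s =>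
    heckeImage_congr_one hA hp W.C.π_nonunit W.C.π_ne_zero (R.y_mem s) (hr s)
      (iota2_fracS M p hpM s _) hζ (by rw [hkey, R.q_eq])
  choose y' hy'm hy'q hy'r using hq'
  let R' : SigmaRel W K' :=
    { f₀ := heckeNorm (p * M) l R.f₀
      f₀_ne := heckeNorm_ne_zero R.f₀_ne
      f₀_dvd := (E₀.eigen l hl hGl).divP fun v => by
        rw [FF.ord_pow v]; exact dvd_mul_of_dvd_right (E₀.divP v) _
      f₀_fix := fun τ hτ => by rw [← heckeNorm_galF hl hN, R.f₀_fix τ hτ]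
      f₀_red := hf₀'
      q := heckeNorm (p * M) l R.q
      q_fix := fun τ hτ => by rw [← heckeNorm_galF hl hN, R.q_fix τ hτ]
      y := y'
      y_mem := hy'm
      q_eq := hy'q
      κ := R.κ ^ (l + 1)
      κ_ne := pow_ne_zero _ R.κ_ne
      rel := by
        rw [hK', ← heckeNorm_galF hl hN, R.rel, map_mul, map_mul, map_mul, map_pow,
          heckeNorm_algebraMap hl hN] }
  obtain ⟨d', hd', e1', e2'⟩ := R'.node_eq V hA hM hV
    (r := fun s => ((l : Res A) + 1) * r s) hy'r hP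
  -- the orders of the image
  have hv : ∀ s, K'.v s = ((l : ℤ) + 1) * K.v s := fun s => by
    rw [← K'.gord_eq s, hK', gord_norm hA K hl hN s]
  have hdd : d' = ((l : ℤ) + 1) * d := by
    refine mul_left_cancel₀ (Int.natCast_ne_zero.mpr hp.ne_zero) ?_
    rw [← hd', Kum.δ, hv, hv, mul_left_comm, ← hd, Kum.δ]
    ring
  have hs' : ∀ s, ∃ u : ℤ, P.ord (K'.fb s) = (p : ℤ) * u + (a l : ℤ) * P.ord (K.fb s) := by
    intro s
    obtain ⟨z, hz⟩ := IsRed.exists_of_ne_zero hA hp (iota2_fracS M p hpM s k)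
      ((_root_.map_ne_zero _).mpr hk)
    set zK : KM A M := ⟨z, isRed_mem_KM p M hpM hA hM hz⟩
    have hzK : zK ≠ 0 := fun h => hz.1 (congrArg Subtype.val h)
    have h1 : IsRed A (iota2 M p hpM s g)
        (1 * z ^ p * (K.fb s : LaurentSeries (Res A)) ^ a l) := by
      rw [e, map_mul, map_mul, map_pow, map_pow, AlgHom.commutes]
      exact ((IsRed.const hc).mul (hz.pow p)).mul ((K.isRed_fb s).pow _)
    have h2 : IsRed A (iota2 M p hpM s g) (K'.fb s : LaurentSeries (Res A)) := by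
      rw [show g = K'.f from hK'.symm]
      exact K'.isRed_fb s
    obtain ⟨u, hu, eu⟩ := h1.unique h2
    have eK : K'.fb s = algebraMap (Res A) (KM A M) u * (zK ^ p * K.fb s ^ a l) :=
      Subtype.ext (by
        rw [eu, one_mul]
        push_cast
        rfl)
    refine ⟨P.ord zK, ?_⟩
    rw [eK, P.ord_mul ((_root_.map_ne_zero _).mpr hu)
        (mul_ne_zero (pow_ne_zero _ hzK) (pow_ne_zero _ (K.fb_ne s))), FF.ord_algebraMap,
      P.ord_mul (pow_ne_zero _ hzK) (pow_ne_zero _ (K.fb_ne s)), FF.ord_pow P, FF.ord_pow P,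
      zero_add]
  have hfin : ∀ x : ℤ, (((a l : ℤ) - ((l : ℤ) + 1) : ℤ) : Res A) * (x : Res A) *
      IsLocalRing.residue A W.u = 0 → (p : ℤ) ∣ x := fun x hx => by
    have h1 := (mul_eq_zero.mp hx).resolve_right W.u_ne
    rcases mul_eq_zero.mp h1 with h2 | h2
    · exact absurd ((CharP.intCast_eq_zero_iff (Res A) p _).mp h2) hne
    · exact (CharP.intCast_eq_zero_iff (Res A) p _).mp h2
  rw [hdd] at e1' e2'
  obtain ⟨u0, h0⟩ := hs' 0
  obtain ⟨u1, h1⟩ := hs' 1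
  rcases (by fin_cases s <;> simp : s = 0 ∨ s = 1) with rfl | rfl
  · refine hfin _ ?_
    rw [show K'.s₀ P = P.ord (K'.fb 0) from rfl, h0] at e1'
    rw [show K.s₀ P = P.ord (K.fb 0) from rfl] at e1
    push_cast at e1 e1' ⊢
    rw [CharP.cast_eq_zero (Res A) p] at e1'
    linear_combination e1' - ((l : Res A) + 1) * e1
  · refine hfin _ ?_
    rw [show K'.t₀ P = P.ord (K'.fb 1) from rfl, h1] at e2'
    rw [show K.t₀ P = P.ord (K.fb 1) from rfl] at e2
    push_cast at e2 e2' ⊢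
    rw [CharP.cast_eq_zero (Res A) p] at e2'
    linear_combination ((l : Res A) + 1) * e2 - e2'

/-- The wild case: a congruent form, or the class is fixed by the generator. -/
theorem hasForm_or_root_wild {f f₀ : FB (p * M)} (E : EigK W.C G a f) (E₀ : EigK W.C₁ G a f₀)
    {κ : QBar} {q : FB (p * M)} (hκ : κ ≠ 0) (hq : q ≠ 0)
    (hqf : ∀ τ ∈ W.C.H, galF (p * M) τ q = q)
    (hrel : galF (p * M) W.σ f = algebraMap QBar _ κ * f * f₀ * q ^ p)
    {l : ℕ} (hl : l.Prime) (hGl : G l) (hne : ¬ (p : ℤ) ∣ (a l : ℤ) - ((l : ℤ) + 1)) :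
    HasCong M p G a ∨ ∃ g x : FB (p * M), PEq W.C f g ∧ x ≠ 0 ∧
      galF (p * M) W.σ g = x ^ p * g := by
  have hp : p.Prime := Fact.out
  obtain ⟨K, hKf⟩ := Kum.exists_of (C := W.C) (Fact.out : p.Prime).pos hA hM E.ne E.divP E.fix
  obtain ⟨K₁, hK₁f⟩ := Kum.exists_of (C := W.C₁) (Fact.out : p.Prime).pos hA hM E₀.ne E₀.divP E₀.fix
  rw [← hKf] at E hrel ⊢
  rw [← hK₁f] at E₀ hrel
  have hδ₁ := dvd_delta hA K₁ E₀ hl hGl hne
  have he₁ : ¬ p ∣ W.C₁.e := by
    rw [W.e₁_eq]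
    intro h
    have := hp.two_le
    have := Nat.le_of_dvd (by omega) h
    omega
  rcases hasForm_or_flat hA hM V hV hg' hnu K₁ E₀ hδ₁
    (dvd_ord_fb_of_tame hA hM V hV K₁ hδ₁ he₁) with h | ⟨F₁, hF₁, hF₁r⟩
  · exact Or.inl h
  obtain ⟨c₁, k₁, hc₁, hk₁, hc₁f, hk₁f, eF₁⟩ := hF₁
  let F : intFix W.C hpM := ⟨(F₁ : FB (p * M)), F₁.2.1, fun τ hτ => F₁.2.2 τ (W.le hτ)⟩
  have hFr : red W.C hpM F = 1 := by
    funext s
    exact (red_eq_of_val (x := F) (locS_of_intFix F₁ s) rfl).trans (by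
      rw [← red_apply, hF₁r])
  have hFd : DivP p (F : FB (p * M)) :=
    (show PEq W.C₁ K₁.f (F₁ : FB (p * M)) from ⟨c₁, k₁, hc₁, hk₁, hc₁f, hk₁f, eF₁⟩).divP E₀.divP
  have hE₀' : EigK W.C₁ G a (F₁ : FB (p * M)) := E₀.of_peq ⟨c₁, k₁, hc₁, hk₁, hc₁f, hk₁f, eF₁⟩
  obtain ⟨R, hRf, -⟩ := exists_sigmaRel hA hM V hV K hFr hFd F₁.2.2
    (κ := κ * c₁⁻¹) (q := q / k₁) (mul_ne_zero hκ (inv_ne_zero hc₁)) (div_ne_zero hq hk₁)
    (fun τ hτ => by rw [map_div₀, hqf τ hτ, hk₁f τ (W.le hτ)]) (by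
      rw [hrel, show (F : FB (p * M)) = algebraMap QBar _ c₁ * k₁ ^ p * K₁.f from eF₁, div_pow,
        map_mul, map_inv₀]
      have : algebraMap QBar (FB (p * M)) c₁ ≠ 0 := (_root_.map_ne_zero _).mpr hc₁
      field_simp)
  obtain ⟨hδ, hord⟩ := dvd_ord_fb_of_sigmaRel hA hM V hV hg' hnu K E R
    (by rw [hRf]; exact hE₀') hl hGl hne
  rcases hasForm_or_flat hA hM V hV hg' hnu K E hδ hord with h | ⟨F', hF', hF'r⟩
  · exact Or.inl h
  have hB : (p - 1) * (p ^ 2 - 1) < p * W.C.e := by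
    rw [W.e_eq]
    have h2 : 0 < p - 1 := by have := hp.two_le; omega
    have h3 : 0 < p ^ 2 := pow_pos hp.pos 2
    calc (p - 1) * (p ^ 2 - 1) < (p - 1) * p ^ 2 := Nat.mul_lt_mul_of_pos_left (by omega) h2
      _ = p * (p * (p - 1)) := by ring
  rcases deepen hA hM V hV hg' hF'r (hF'.divP E.divP) (p ^ 2) hB with
    ⟨g, hg, -, hgB⟩ | ⟨g, y, i, s, b, hg, hgr, -, hpi, hie, hy, hb, hbne, hbreg⟩
  · refine Or.inr ?_
    obtain ⟨g', hgg, -⟩ := exists_inv g (fun s => by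
      rw [red_sub_eq_zero (pow_pos hp.pos 2) hgB, map_one]; exact one_ne_zero)
    obtain ⟨x, hx⟩ := exists_root_sigma hA hM V hV hgg ((hF'.trans hg).divP E.divP) hgB
    have hg0 := coe_unit_inv hgg
    have hinv : (g : FB (p * M)) * (g' : FB (p * M)) = 1 := congrArg Subtype.val hgg
    refine ⟨(g : FB (p * M)), x, hF'.trans hg, fun h0 => ?_, ?_⟩
    · rw [h0, zero_pow hp.ne_zero] at hx
      exact mul_ne_zero ((_root_.map_ne_zero _).mpr hg0.2) hg0.1 hx.symm
    · rw [hx, mul_assoc, mul_comm (g' : FB (p * M)), hinv, mul_one]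
  · refine Or.inl (hasForm_of_layer hA hM V hV hg' hnu ((E.of_peq hF').of_peq hg) hgr ?_ hy hb hbne
      hbreg)
    obtain ⟨j, rfl⟩ := hpi
    rw [W.e_eq] at hie ⊢
    refine Nat.mul_le_mul_left p ?_
    have h1 : (p - 1) * j < p * (p - 1) := by
      rw [mul_left_comm] at hie
      exact Nat.lt_of_mul_lt_mul_left hie
    rw [mul_comm p (p - 1)] at h1
    have := Nat.lt_of_mul_lt_mul_left h1
    omega

end Fermat.Agent.RT.AtP

end
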