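import Fermat.Agent.RT.MazurP.Lift
import Fermat.Agent.RT.MazurP.Level

/-!
# The ring of fixed integral functions of level `p M`

`intFix C hpM` consists of the functions integral at both Gauss valuations with coefficients in
the field of `C`; `red C hpM` is the pair of reductions. The reductions of those with poles
bounded by `m` times the cusps fill `sp C hpM m`, whose pairs are glued at the zeros of the
reduced unit.
-/

set_option autoImplicit false
set_option linter.unusedSectionVars false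

noncomputable section

namespace Fermat.Agent.RT.AtP

open ModularCurve AlgebraicCurve Fermat.Agent.Semistable Fermat.Agent.Arith
open Fermat.Agent.RT.Mazur Fermat.Agent.RT.MazurP

variable {A : ValuationSubring QBar} {p M : ℕ} [Fact p.Prime] [NeZero M]

/-- The fixed integral functions. -/
def intFix (C : CoefField A p) (hpM : ¬ p ∣ M) : Subring (FB (p * M)) where
  carrier := {x | x ∈ loc2 A (iota2 M p hpM) ∧ ∀ τ ∈ C.H, galF (p * M) τ x = x}
  zero_mem' := ⟨zero_mem _, fun _ _ => map_zero _⟩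
  one_mem' := ⟨one_mem _, fun _ _ => map_one _⟩
  add_mem' hx hy := ⟨add_mem hx.1 hy.1, fun τ hτ => by rw [map_add, hx.2 τ hτ, hy.2 τ hτ]⟩
  mul_mem' hx hy := ⟨mul_mem hx.1 hy.1, fun τ hτ => by rw [map_mul, hx.2 τ hτ, hy.2 τ hτ]⟩
  neg_mem' hx := ⟨neg_mem hx.1, fun τ hτ => by rw [map_neg, hx.2 τ hτ]⟩

variable (C : CoefField A p) (hpM : ¬ p ∣ M)

/-- The pair of reductions. -/
def red : intFix C hpM →+* (Fin 2 → LaurentSeries (Res A)) :=
  (red2 A (iota2 M p hpM)).comp (Subring.inclusion fun _ hx => hx.1)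

variable {C hpM}

theorem locS_of_intFix (x : intFix C hpM) (s : Fin 2) : iota2 M p hpM s x ∈ locS A :=
  (mem_loc2 _).mp x.2.1 s

theorem red_apply (x : intFix C hpM) (s : Fin 2) :
    red C hpM x s = redL A ⟨_, locS_of_intFix x s⟩ := rfl

theorem iota_fix (x : intFix C hpM) (s : Fin 2) : C.Fix (iota2 M p hpM s x) := fun τ hτ => by
  rw [← iota2_galF, x.2.2 τ hτ]

theorem red_eq_of_val {x : intFix C hpM} {y : LSer} {s : Fin 2} (hy : y ∈ locS A)
    (h : iota2 M p hpM s x = y) : red C hpM x s = redL A ⟨y, hy⟩ := redL_congr _ _ h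

/-- Constants of the field in the valuation ring. -/
def cst (C : CoefField A p) (hpM : ¬ p ∣ M) (c : QBar) (hc : c ∈ A)
    (hfix : ∀ τ ∈ C.H, τ c = c) : intFix C hpM :=
  ⟨algebraMap QBar (FB (p * M)) c, algebraMap_mem_loc2 _ hc, fun τ hτ => by
    rw [arithmeticRingAut_algebraMap, hfix τ hτ]⟩

theorem red_cst {c : QBar} (hc : c ∈ A) (hfix : ∀ τ ∈ C.H, τ c = c) :
    red C hpM (cst C hpM c hc hfix) =
      fun _ => algebraMap (Res A) _ (IsLocalRing.residue A ⟨c, hc⟩) := by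
  funext s
  exact red2_const _ (c := ⟨c, hc⟩) s

variable (C hpM) in
/-- The uniformiser. -/
def piI : intFix C hpM := cst C hpM C.π (mem_of_mem_nonunits C.π_nonunit) C.π_fixed

@[simp] theorem coe_piI :
    ((piI C hpM : intFix C hpM) : FB (p * M)) = algebraMap QBar _ C.π := rfl

theorem piI_ne_zero : piI C hpM ≠ 0 := fun h =>
  C.π_ne_zero ((algebraMap QBar (FB (p * M))).injective
    (by rw [map_zero]; exact congrArg Subtype.val h))

@[simp] theorem red_piI : red C hpM (piI C hpM) = 0 := by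
  rw [piI, red_cst]
  funext s
  rw [(residue_eq_zero_iff _).mpr C.π_nonunit, map_zero]
  rfl

/-- A function with zero reductions is divisible by the uniformiser. -/
theorem piI_dvd (hA : A.LiesOverPrime p) {x : intFix C hpM} (h : red C hpM x = 0) :
    piI C hpM ∣ x := by
  refine ⟨⟨algebraMap QBar _ C.π⁻¹ * (x : FB (p * M)), (mem_loc2 _).mpr fun s => ?_,
    fun τ hτ => ?_⟩, Subtype.ext ?_⟩
  · rw [map_mul, AlgHom.commutes]
    exact C.inv_π_mul_mem hA Fact.out (locS_of_intFix x s) (iota_fix x s) (congrFun h s)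
  · rw [map_mul, x.2.2 τ hτ, arithmeticRingAut_algebraMap, map_inv₀, C.π_fixed τ hτ]
  · rw [Subring.coe_mul, coe_piI, ← mul_assoc, ← map_mul, mul_inv_cancel₀ C.π_ne_zero, map_one,
      one_mul]

theorem red_piI_pow_mul {n : ℕ} (hn : 0 < n) (x : intFix C hpM) :
    red C hpM (piI C hpM ^ n * x) = 0 := by
  rw [map_mul, map_pow, red_piI, zero_pow hn.ne', zero_mul]

/-- Elements with nonzero reductions are units. -/
theorem exists_inv (x : intFix C hpM) (h : ∀ s, red C hpM x s ≠ 0) :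
    ∃ y : intFix C hpM, x * y = 1 ∧ ∀ s, red C hpM y s = (red C hpM x s)⁻¹ := by
  obtain ⟨h', e⟩ := inv_mem_loc2 (iota2 M p hpM) ⟨_, x.2.1⟩ h
  refine ⟨⟨(x : FB (p * M))⁻¹, h', fun τ hτ => by rw [map_inv₀, x.2.2 τ hτ]⟩, Subtype.ext ?_, e⟩
  refine mul_inv_cancel₀ fun h0 => h 0 ?_
  have : x = 0 := Subtype.ext h0
  rw [this, map_zero]
  rfl

/-- A rational constant `p / π ^ e` with nonzero residue. -/
theorem exists_natCast_p (C : CoefField A p) (hpM : ¬ p ∣ M) :
    ∃ (ε : intFix C hpM) (c : Res A), c ≠ 0 ∧ (p : intFix C hpM) = piI C hpM ^ C.e * ε ∧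
      red C hpM ε = fun _ => algebraMap (Res A) _ c := by
  have hπe : C.π ^ C.e ≠ 0 := pow_ne_zero _ C.π_ne_zero
  have hv : A.valuation ((p : QBar) / C.π ^ C.e) = 1 := by
    rw [map_div₀, map_pow, ← C.val_p, div_self]
    exact (Valuation.ne_zero_iff _).mpr (Nat.cast_ne_zero.mpr (Fact.out : p.Prime).ne_zero)
  obtain ⟨hmem, hne⟩ := residue_unit_ne_zero hv
  have hfix : ∀ τ ∈ C.H, τ ((p : QBar) / C.π ^ C.e) = (p : QBar) / C.π ^ C.e := fun τ hτ => by
    rw [map_div₀, map_natCast, map_pow, C.π_fixed τ hτ]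
  refine ⟨cst C hpM _ hmem hfix, _, hne, Subtype.ext ?_, red_cst hmem hfix⟩
  rw [Subring.coe_mul, Subring.coe_pow, coe_piI, SubringClass.coe_natCast,
    show ((cst C hpM _ hmem hfix : intFix C hpM) : FB (p * M)) =
      algebraMap QBar _ ((p : QBar) / C.π ^ C.e) from rfl,
    ← map_pow, ← map_mul, mul_div_cancel₀ _ hπe, map_natCast]

theorem one_V_eq (m : ℕ) : (Kum.one C hpM).V m = HN M p m := by
  have hD : (Kum.one C hpM).D = 0 := Finsupp.ext fun v => by
    have h := (Kum.one C hpM).D_mul v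
    rw [show v.ord (Kum.one C hpM).f = 0 from v.ord_one, mul_eq_zero] at h
    exact h.resolve_left (Int.natCast_ne_zero.mpr (Fact.out : p.Prime).ne_zero)
  rw [Kum.V, hD, zero_add]

theorem mem_HN_of_galF {τ : GQ} {m : ℕ} {x : FB (p * M)} (hx : x ∈ HN M p m) :
    galF (p * M) τ x ∈ HN M p m :=
  galF_mem_poles (p * M) (by rw [galF_upF, galF_jM]) hx

variable (C hpM) in
/-- The reductions of the functions with poles bounded by `m` times the cusps. -/
def sp (m : ℕ) : Submodule (Res A) (Fin 2 → LaurentSeries (Res A)) :=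
  (Kum.one C hpM).Im 0 m

theorem red_mem_sp {x : intFix C hpM} {m : ℕ} (hx : (x : FB (p * M)) ∈ HN M p m) :
    red C hpM x ∈ sp C hpM m := by
  have h : ∀ s, tw hpM C.π 0 (x : FB (p * M)) s ∈ locS A := fun s => by
    rw [tw_zero]; exact locS_of_intFix x s
  have := (Kum.one C hpM).red_mem_Im (k := 0) (by rwa [one_V_eq]) h
  have e : red C hpM x = fun s => redL A ⟨tw hpM C.π 0 (x : FB (p * M)) s, h s⟩ :=
    funext fun s => red_eq_of_val (h s) (tw_zero _ _ _ _).symm
  rw [e]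
  exact this

theorem exists_sp_lift (hA : A.LiesOverPrime p) {m : ℕ} {r : Fin 2 → LaurentSeries (Res A)}
    (hr : r ∈ sp C hpM m) :
    ∃ x : intFix C hpM, (x : FB (p * M)) ∈ HN M p m ∧ red C hpM x = r := by
  obtain ⟨φ, hφ, hφf, h, hred⟩ := ((Kum.one C hpM).Im_spec hA 0 m).2.2 r hr
  have h' : ∀ s, iota2 M p hpM s φ ∈ locS A := fun s => by rw [← tw_zero C]; exact h s
  rw [one_V_eq] at hφ
  have hm : φ ∈ loc2 A (iota2 M p hpM) := (mem_loc2 _).mpr h'
  let x : intFix C hpM := ⟨φ, hm, hφf⟩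
  refine ⟨x, hφ, funext fun s => ?_⟩
  exact (red_eq_of_val (x := x) (h s) (tw_zero C hpM φ s).symm).trans (hred s)

theorem sp_mul (hA : A.LiesOverPrime p) {m n : ℕ} {r r' : Fin 2 → LaurentSeries (Res A)}
    (hr : r ∈ sp C hpM m) (hr' : r' ∈ sp C hpM n) : r * r' ∈ sp C hpM (m + n) := by
  obtain ⟨x, hx, rfl⟩ := exists_sp_lift hA hr
  obtain ⟨y, hy, rfl⟩ := exists_sp_lift hA hr'
  rw [← map_mul]
  exact red_mem_sp (mul_mem_polesSpace hx hy)

theorem one_mem_sp (m : ℕ) : (1 : Fin 2 → LaurentSeries (Res A)) ∈ sp C hpM m := by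
  rw [← map_one (red C hpM)]
  exact red_mem_sp (one_mem_polesSpace _ _)

theorem sp_mono (hA : A.LiesOverPrime p) {m n : ℕ} (h : m ≤ n) :
    sp C hpM m ≤ sp C hpM n := fun r hr => by
  obtain ⟨x, hx, rfl⟩ := exists_sp_lift hA hr
  exact red_mem_sp (RedTorsion.polesSpace_mono h hx)

variable [CharP (Res A) p]

variable (C hpM) in
/-- `j`. -/
def jI : intFix C hpM :=
  ⟨upF M p (jM M), upF_mem_loc2 M p hpM (jM_mem M), fun τ _ => by rw [galF_upF, galF_jM]⟩

theorem jI_mem : ((jI C hpM : intFix C hpM) : FB (p * M)) ∈ HN M p 1 := by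
  exact upF_mem_HN M p (self_mem_polesSpace _)

theorem red_jI (s : Fin 2) :
    red C hpM (jI C hpM) s = ((jK A M ^ sideDeg p s : KM A M) : LaurentSeries (Res A)) := by
  show red2 A (iota2 M p hpM) ⟨upF M p (jM M), _⟩ s = _
  rw [show (⟨upF M p (jM M), (jI C hpM).2.1⟩ : loc2 A (iota2 M p hpM)) =
    ⟨_, upF_mem_loc2 M p hpM (jM_mem M)⟩ from rfl, red2_upF M p hpM ⟨jM M, jM_mem M⟩, red1_jM]
  push_cast
  rw [coe_jK]
  fin_cases s
  · exact (pow_one _).symm
  · exact (pow_eq_qExpand_gen_one p).symm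

theorem jI_pow_mem (m : ℕ) : ((jI C hpM ^ m : intFix C hpM) : FB (p * M)) ∈ HN M p m := by
  rw [Subring.coe_pow]
  have := pow_mem_polesSpace (jI_mem (C := C) (hpM := hpM)) m
  rwa [mul_one] at this

theorem exists_red_KM (hA : A.LiesOverPrime p) (hM : (M : Res A) ≠ 0) (x : intFix C hpM)
    (s : Fin 2) : ∃ a : KM A M, red C hpM x s = (a : LaurentSeries (Res A)) := by
  by_cases h : red C hpM x s = 0
  · exact ⟨0, h⟩
  · exact ⟨⟨_, isRed_mem_KM p M hpM hA hM (IsRed.of_locS (locS_of_intFix x s) h)⟩, rfl⟩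

variable [FF.IsFunctionField (Res A) (KM A M)]

theorem lA_one_zero (V : VUnit A hpM) (P : Place (Res A) (KM A M)) :
    (Kum.one C hpM).lA V 0 P = 0 ∧ (Kum.one C hpM).lB V 0 P = 0 := by
  have hs : (Kum.one C hpM).s₀ P = 0 ∧ (Kum.one C hpM).t₀ P = 0 := ⟨P.ord_one, P.ord_one⟩
  have hd : (Kum.one C hpM).δ = 0 := rfl
  constructor <;> simp [Kum.lA, Kum.lB, hs.1, hs.2, hd, cdiv_zero]

/-- Reductions satisfy the polar bounds. -/
theorem sp_bound (hA : A.LiesOverPrime p) (hM : (M : Res A) ≠ 0) (V : VUnit A hpM) {m : ℕ}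
    {r : Fin 2 → LaurentSeries (Res A)} (hr : r ∈ sp C hpM m) (s : Fin 2) :
    r s ∈ LS ((sideDeg p s * m) • FF.poles (Res A) (jK A M)) := by
  obtain ⟨h0, h1⟩ := (Kum.one C hpM).Pr_le V hA hM (k := 0) m (by
    rw [show (Kum.one C hpM).δ = 0 from rfl]; simp)
  have eA : (Kum.one C hpM).EA V 0 m = (sideDeg p 0 * m) • FF.poles (Res A) (jK A M) := by
    refine Finsupp.ext fun P => ?_
    rw [Kum.EA, Finsupp.sub_apply, Finsupp.onFinset_apply, (lA_one_zero V P).1, sub_zero,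
      show sideDeg p 0 * m = m from one_mul m]
  have eB : (Kum.one C hpM).EB V 0 m = (sideDeg p 1 * m) • FF.poles (Res A) (jK A M) := by
    refine Finsupp.ext fun P => ?_
    rw [Kum.EB, Finsupp.sub_apply, Finsupp.onFinset_apply, (lA_one_zero V P).2, sub_zero]
    rfl
  rcases (by fin_cases s <;> simp : s = 0 ∨ s = 1) with rfl | rfl
  · exact eA ▸ h0 ⟨r, hr, rfl⟩
  · exact eB ▸ h1 ⟨r, hr, rfl⟩

theorem exists_node (hM : (M : Res A) ≠ 0) (V : VUnit A hpM) (hV : V.Simple) :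
    ∃ P : Place (Res A) (KM A M), V.oW P = 12 := by
  by_contra hnone
  push Not at hnone
  have h0 : V.oD = 0 := Finsupp.ext fun P => (hV.val P).resolve_right (hnone P)
  have h := degree_oD (hpM := hpM) hM V
  rw [h0, map_zero] at h
  have hψ : (1 : ℤ) ≤ dedekindPsi M := by exact_mod_cast dedekindPsi_pos M
  have hp2 : (2 : ℤ) ≤ p := by exact_mod_cast (Fact.out : p.Prime).two_le
  nlinarith

/-- Pairs of constants in the reductions are diagonal. -/
theorem sp_const (hA : A.LiesOverPrime p) (hM : (M : Res A) ≠ 0) (V : VUnit A hpM)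
    (hV : V.Simple) {m : ℕ} {c : Fin 2 → Res A}
    (hc : (fun s => algebraMap (Res A) (LaurentSeries (Res A)) (c s)) ∈ sp C hpM m) :
    c 0 = c 1 := by
  classical
  by_contra hne
  have h1 : (fun s => algebraMap (Res A) (LaurentSeries (Res A)) (c s - c 1)) ∈ sp C hpM m := by
    have := sub_mem hc (Submodule.smul_mem _ (c 1) (one_mem_sp (C := C) (hpM := hpM) m))
    convert this using 1
    funext s
    rw [Pi.sub_apply, Pi.smul_apply, Pi.one_apply, map_sub, ← HahnSeries.C_mul_eq_smul,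
      algebraMap_laurentSeries_eq_single, algebraMap_laurentSeries_eq_single, mul_one]
    rfl
  obtain ⟨-, h2⟩ := ((Kum.one C hpM).mem_ker_proj_one hA 0 m _).mp ⟨h1, by simp⟩
  have h3 := ((Kum.one C hpM).Pr_le V hA hM (k := (0 : ℤ) + 1) m (by
    rw [show (Kum.one C hpM).δ = 0 from rfl]; simp)).1 h2
  obtain ⟨P, hP⟩ := exists_node hM V hV
  have hj : 0 ≤ P.ord (jK A M) := by
    by_contra h
    rw [VUnit.oW, if_neg h] at hP
    omega
  rw [show algebraMap (Res A) (LaurentSeries (Res A)) (c 0 - c 1) =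
    ((algebraMap (Res A) (KM A M) (c 0 - c 1) : KM A M) : LaurentSeries (Res A)) from rfl,
    mem_LS, FF.mem_riemannRochSpace'] at h3
  have h4 := FF.le_ord_of_mem_ordGe P ((_root_.map_ne_zero _).mpr (sub_ne_zero.mpr hne)) (h3 P)
  rw [FF.ord_algebraMap] at h4
  have hl : (Kum.one C hpM).lA V ((0 : ℤ) + 1) P = 1 := by
    rw [(Kum.one C hpM).lA_of_node V hP, show (Kum.one C hpM).s₀ P = 0 from P.ord_one,
      show (Kum.one C hpM).δ = 0 from rfl, mul_zero, sub_zero, cdiv_zero]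
    refine cdiv_eq (by exact_mod_cast C.e_pos) ?_ ?_ <;> have := C.e_pos <;> omega
  simp only [Kum.EA, Finsupp.sub_apply, Finsupp.smul_apply, Finsupp.onFinset_apply, hl,
    FF.poles_apply, max_eq_left (show -P.ord (jK A M) ≤ 0 by omega), smul_zero] at h4
  omega

/-- For large `m` a pair within the bounds is a reduction as soon as it is one in higher degree. -/
theorem exists_saturated (hA : A.LiesOverPrime p) (hM : (M : Res A) ≠ 0) (V : VUnit A hpM)
    (hV : V.Simple) :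
    ∃ m₀ : ℕ, ∀ m, m₀ ≤ m → ∀ m' : ℕ, ∀ z ∈ sp C hpM m',
      (∀ s, z s ∈ LS ((sideDeg p s * m) • FF.poles (Res A) (jK A M))) → z ∈ sp C hpM m := by
  classical
  set T := Kum.one C hpM
  have hk : 0 ≤ (p : ℤ) * 0 + T.δ := by rw [show T.δ = 0 from rfl]; simp
  obtain ⟨m₀, hm₀⟩ := ((T.res V hA hM hV).2.2 0 hk).2
  refine ⟨m₀, fun m hm m' z hz hb => ?_⟩
  obtain ⟨e0, e1⟩ := hm₀ m hm
  -- match the second component
  have hz1 : z 1 ∈ T.Pr 0 m 1 := by
    rw [e1]
    have e : T.EB V 0 m = (sideDeg p 1 * m) • FF.poles (Res A) (jK A M) := by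
      refine Finsupp.ext fun P => ?_
      rw [Kum.EB, Finsupp.sub_apply, Finsupp.onFinset_apply, (lA_one_zero V P).2, sub_zero]
      rfl
    rw [e]
    exact hb 1
  obtain ⟨x, hx, hx1⟩ := hz1
  have hd : z - x ∈ sp C hpM (max m m') :=
    sub_mem (sp_mono hA (le_max_right _ _) hz) (sp_mono hA (le_max_left _ _) hx)
  obtain ⟨hd1, hd0⟩ := (T.mem_ker_proj_one hA 0 _ _).mp ⟨hd, by
    rw [Pi.sub_apply, ← hx1]; exact sub_self _⟩
  have hd0' := (T.Pr_le V hA hM (k := (0 : ℤ) + 1) (max m m') (by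
    rw [show T.δ = 0 from rfl]; simp)).1 hd0
  have hxb := sp_bound hA hM V (show x ∈ sp C hpM m from hx) 0
  have hsub := sub_mem (hb 0) hxb
  suffices h : z - x ∈ sp C hpM m by
    have h2 := add_mem h (show x ∈ sp C hpM m from hx)
    rwa [sub_add_cancel] at h2
  refine ((T.mem_ker_proj_one hA 0 m _).mpr ⟨hd1, ?_⟩).1
  rw [e0]
  obtain ⟨a, ha, hae⟩ := hsub
  have hae' : (a : LaurentSeries (Res A)) = (z - x) 0 := hae
  rw [← hae', mem_LS] at hd0'
  rw [← hae', mem_LS, FF.mem_riemannRochSpace']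
  intro P
  have h1 := FF.mem_riemannRochSpace'.mp ha P
  have h2 := FF.mem_riemannRochSpace'.mp hd0' P
  rw [show sideDeg p 0 * m = m from one_mul m, Finsupp.smul_apply] at h1
  simp only [Kum.EA, Finsupp.sub_apply, Finsupp.smul_apply, Finsupp.onFinset_apply] at h2 ⊢
  by_cases hj : 0 ≤ P.ord (jK A M)
  · simpa [FF.poles_apply, max_eq_left (show -P.ord (jK A M) ≤ 0 by omega)] using h2
  · have hoW : V.oW P = 0 := by rw [VUnit.oW, if_neg hj]
    have hl : T.lA V ((0 : ℤ) + 1) P = 0 := by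
      rw [(T.lAB_of_off V hoW _).1, show T.s₀ P = 0 from P.ord_one, neg_zero, cdiv_zero]
    rw [hl, sub_zero]
    exact h1

end Fermat.Agent.RT.AtP

end
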