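import Fermat.Agent.RT.AtP.Node
import Fermat.Agent.RT.MazurP.Level

/-!
# The unramified case
-/

set_option autoImplicit false
set_option linter.unusedSectionVars false

noncomputable section

namespace Fermat.Agent.RT.AtP

open ModularCurve AlgebraicCurve Fermat.Agent.Semistable Fermat.Agent.Arith
open Fermat.Agent.RT.Mazur Fermat.Agent.RT.MazurP
open scoped IntermediateField

variable {A : ValuationSubring QBar} {p M : ℕ} [Fact p.Prime] [NeZero M]
variable {hpM : ¬ p ∣ M} {C : CoefField A p} {G : ℕ → Prop} {a : ℕ → ℕ}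
variable [CharP (Res A) p] [FF.IsFunctionField (Res A) (KM A M)]
variable [IsAlgClosed (Res A)] [FiniteDimensional (Res A)⟮jK A M⟯ (KM A M)]
  [Algebra.IsSeparable (Res A)⟮jK A M⟯ (KM A M)]

/-- With `e = 1`, an eigen class gives a form or is trivial. -/
theorem hasForm_or_root_tame (hA : A.LiesOverPrime p) (hM : (M : Res A) ≠ 0) (V : VUnit A hpM)
    (hV : V.Simple) (hg' : GoodM A M) (hp2' : p ≠ 2) (hnu : NoEll M) (he : C.e = 1) {f : FB (p * M)}
    (E : EigK C G a f) {l : ℕ} (hl : l.Prime) (hGl : G l)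
    (hne : ¬ (p : ℤ) ∣ (a l : ℤ) - ((l : ℤ) + 1)) :
    HasCong M p G a ∨ ∃ g x : FB (p * M), PEq C f g ∧ x ≠ 0 ∧ g = x ^ p := by
  have hp : p.Prime := Fact.out
  have hp2 := hp.two_le
  have hp3 : p ≠ 2 := hp2'
  obtain ⟨K, hKf⟩ := Kum.exists_of (C := C) (Fact.out : p.Prime).pos hA hM E.ne E.divP E.fix
  rw [← hKf] at E ⊢
  have hδ := dvd_delta hA K E hl hGl hne
  have hpe : ¬ p ∣ C.e := by rw [he]; exact hp.not_dvd_one
  rcases hasForm_or_flat hA hM V hV hg' hnu K E hδ (dvd_ord_fb_of_tame hA hM V hV K hδ hpe) with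
    h | ⟨F, hF, hFr⟩
  · exact Or.inl h
  have hB : (p - 1) * (2 - 1) < p * C.e := by rw [he]; omega
  rcases deepen hA hM V hV hg' hFr (hF.divP E.divP) 2 hB with
    ⟨g, hg, hgr, hgB⟩ | ⟨g, y, i, s, b, -, -, hi0, hpi, hie, -⟩
  · refine Or.inr ?_
    obtain ⟨g', hgg, hg'r⟩ := exists_inv g (fun s => by rw [hgr]; exact one_ne_zero)
    have hgB' : piI C hpM ^ 2 ∣ g' - 1 := by
      obtain ⟨y, hy⟩ := hgB
      exact ⟨-(g' * y), by linear_combination -g' * hy + hgg⟩
    have hj : ∀ k < 1, p * k < 2 ∧ p * k < C.e + k := fun k hk => by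
      obtain rfl : k = 0 := by omega
      rw [he]; simp
    obtain ⟨x, hx⟩ := exists_root_of_deep hA hM V hV hgg ((hF.trans hg).divP E.divP)
      (n₀ := 1) Nat.one_pos (by rw [he]; omega) (by rw [he]; exact hgB) (fun h hh => by
        rcases hh with rfl | rfl
        · obtain ⟨m₀, hm⟩ := exists_match hA hM V hV hgB
          exact ⟨m₀, fun m hm' => hm m hm' 1 hj⟩
        · obtain ⟨m₀, hm⟩ := exists_match hA hM V hV hgB'
          exact ⟨m₀, fun m hm' => hm m hm' 1 hj⟩)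
    exact ⟨(g : FB (p * M)), x, hF.trans hg, fun h0 => (coe_unit_inv hgg).2 (by
      rw [← hx, h0, zero_pow hp.ne_zero]), hx.symm⟩
  · exfalso
    rw [he, mul_one] at hie
    have h1 := Nat.le_of_dvd hi0 hpi
    have h2 := Nat.mul_le_mul_left (p - 1) h1
    have h3 : p ≤ (p - 1) * p := Nat.le_mul_of_pos_left p (by omega)
    omega

end Fermat.Agent.RT.AtP

end
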