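import Fermat.Agent.RT.AtP.Limit
import Fermat.Agent.RT.MazurP.Cong

/-!
# The wild generator on functions congruent to one

If `f ≡ 1 (mod π ^ (p ^ 2))` and the divisor of `f` is divisible by `p`, then `σ f / f` is a `p`-th
power for the wild generator `σ`.
-/

set_option autoImplicit false
set_option linter.unusedSectionVars false

noncomputable section

namespace Fermat.Agent.RT.AtP

open ModularCurve AlgebraicCurve Fermat.Agent.Semistable Fermat.Agent.Arith
open Fermat.Agent.RT.Mazur Fermat.Agent.RT.MazurP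

variable {A : ValuationSubring QBar} {p M : ℕ} [Fact p.Prime] [NeZero M]
variable {hpM : ¬ p ∣ M} {W : Wild A p}

theorem sig_fix {x : FB (p * M)} (hx : ∀ τ ∈ W.C.H, galF (p * M) τ x = x) {τ : GQ}
    (hτ : τ ∈ W.C.H) : galF (p * M) τ (galF (p * M) W.σ x) = galF (p * M) W.σ x := by
  have e : ∀ (a b : GQ) (y : FB (p * M)),
      galF (p * M) (a * b) y = galF (p * M) a (galF (p * M) b y) := fun a b y => by
    refine Subtype.ext (HahnSeries.ext (funext fun n => ?_))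
    simp only [galF, coe_arithmeticRingAut, coeff_coeffMap]
    rfl
  rw [← e, show τ * W.σ = W.σ * (W.σ⁻¹ * τ * W.σ) by group, e, hx _ (W.normal τ hτ)]

theorem galF_sub_mem (hA : A.LiesOverPrime p) (x : intFix W.C hpM) (s : Fin 2) :
    algebraMap QBar LSer (W.C.π ^ 2)⁻¹ *
      iota2 M p hpM s (galF (p * M) W.σ (x : FB (p * M)) - x) ∈ locS A := by
  obtain ⟨z, hz, e⟩ := W.exists_σ_locS hA (Fact.out : p.Prime) (locS_of_intFix x s) (iota_fix x s)
  rw [map_sub, iota2_galF, e, add_sub_cancel_left, ← mul_assoc, ← map_mul,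
    inv_mul_cancel₀ (pow_ne_zero _ W.C.π_ne_zero), map_one, one_mul]
  exact hz

theorem galF_mem_intFix (hA : A.LiesOverPrime p) (x : intFix W.C hpM) :
    galF (p * M) W.σ (x : FB (p * M)) ∈ intFix W.C hpM := by
  refine ⟨(mem_loc2 _).mpr fun s => ?_, fun τ hτ => sig_fix x.2.2 hτ⟩
  obtain ⟨z, hz, e⟩ := W.exists_σ_locS hA (Fact.out : p.Prime) (locS_of_intFix x s) (iota_fix x s)
  rw [iota2_galF, e]
  exact add_mem (locS_of_intFix x s)
    (mul_mem (algebraMap_mem_locS (pow_mem (mem_of_mem_nonunits W.C.π_nonunit) 2)) hz)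

/-- The action of the wild generator. -/
def sigI (hA : A.LiesOverPrime p) : intFix W.C hpM →+* intFix W.C hpM where
  toFun x := ⟨galF (p * M) W.σ (x : FB (p * M)), galF_mem_intFix hA x⟩
  map_one' := Subtype.ext (map_one _)
  map_mul' _ _ := Subtype.ext (map_mul _ _ _)
  map_zero' := Subtype.ext (map_zero _)
  map_add' _ _ := Subtype.ext (map_add _ _ _)

@[simp] theorem coe_sigI (hA : A.LiesOverPrime p) (x : intFix W.C hpM) :
    ((sigI hA x : intFix W.C hpM) : FB (p * M)) = galF (p * M) W.σ (x : FB (p * M)) := rfl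

variable (hA : A.LiesOverPrime p)
include hA

/-- The generator is the identity modulo `π ^ 2`. -/
theorem exists_sigI_eq (x : intFix W.C hpM) :
    ∃ z, sigI hA x = x + piI W.C hpM ^ 2 * z := by
  refine ⟨⟨algebraMap QBar _ (W.C.π ^ 2)⁻¹ * (galF (p * M) W.σ (x : FB (p * M)) - x),
    (mem_loc2 _).mpr fun s => ?_, fun τ hτ => ?_⟩, Subtype.ext ?_⟩
  · rw [map_mul, AlgHom.commutes]
    exact galF_sub_mem hA x s
  · rw [map_mul, map_sub, sig_fix x.2.2 hτ, x.2.2 τ hτ, arithmeticRingAut_algebraMap, map_inv₀,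
      map_pow, W.C.π_fixed τ hτ]
  · rw [coe_sigI, Subring.coe_add, Subring.coe_mul, Subring.coe_pow, coe_piI, ← mul_assoc,
      ← map_pow, ← map_mul, mul_inv_cancel₀ (pow_ne_zero _ W.C.π_ne_zero), map_one, one_mul]
    ring

theorem exists_sigI_pow_mul (n : ℕ) (x : intFix W.C hpM) :
    ∃ t, sigI hA (piI W.C hpM ^ n * x) = piI W.C hpM ^ n * (x + piI W.C hpM * t) := by
  induction n generalizing x with
  | zero =>
    obtain ⟨z, hz⟩ := exists_sigI_eq hA x
    exact ⟨piI W.C hpM * z, by rw [pow_zero, one_mul, one_mul, hz]; ring⟩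
  | succ n ih =>
    obtain ⟨t, ht⟩ := ih x
    obtain ⟨z, hz⟩ := exists_sigI_eq hA (piI W.C hpM)
    refine ⟨z * x + t + piI W.C hpM * (z * t), ?_⟩
    rw [pow_succ', mul_assoc, map_mul, ht, hz]
    ring

@[simp] theorem red_sigI (x : intFix W.C hpM) : red W.C hpM (sigI hA x) = red W.C hpM x := by
  obtain ⟨z, hz⟩ := exists_sigI_eq hA x
  rw [hz, map_add, red_piI_pow_mul two_pos, add_zero]

omit hA in
theorem divP_galF {f : FB (p * M)} (hd : DivP p f) (τ : GQ) : DivP p (galF (p * M) τ f) := by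
  intro v
  set g := arithmeticGalois (modularFunctionFieldFull (p * M)) τ
  have h := SemilinearAut.ord_smul g (g⁻¹ • v) f
  rw [smul_inv_smul] at h
  rw [show galF (p * M) τ f = g • f from rfl, h]
  exact hd _

variable [CharP (Res A) p] [FF.IsFunctionField (Res A) (KM A M)]
variable (hM : (M : Res A) ≠ 0) (V : VUnit A hpM) (hV : V.Simple)
include hM V hV

/-- Sections of `σ f / f` matched modulo `π ^ (p + 1)`. -/
theorem exists_special {f f' : intFix W.C hpM} (hff : f * f' = 1)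
    (hd : DivP p (f : FB (p * M))) (hf : piI W.C hpM ^ (p ^ 2) ∣ f - 1) :
    ∃ k₀ : ℕ, ∀ k, k₀ ≤ k → ∀ r ∈ sp W.C hpM k, ∃ φ ψ : intFix W.C hpM,
      (φ : FB (p * M)) ^ p * (sigI hA f * f' : intFix W.C hpM) ∈ HN M p (p * (k + k)) ∧
      (ψ : FB (p * M)) ∈ HN M p (k + k) ∧ piI W.C hpM ^ (p + 1) ∣ φ - ψ ∧
      red W.C hpM φ = r * r := by
  have hp : p.Prime := Fact.out
  have hp2 : 0 < p ^ 2 := pow_pos hp.pos 2
  have hf' : piI W.C hpM ^ (p ^ 2) ∣ f' - 1 := by
    obtain ⟨y, hy⟩ := hf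
    exact ⟨-(f' * y), by linear_combination -f' * hy + hff⟩
  have hr : red W.C hpM f = 1 := (red_sub_eq_zero hp2 hf).trans (map_one _)
  have hr' : red W.C hpM f' = 1 := (red_sub_eq_zero hp2 hf').trans (map_one _)
  have hd' : DivP p (f' : FB (p * M)) := divP_inv hff hd
  obtain ⟨a₁, ha⟩ := exists_section_lift hA hM V hV f hr hd
  obtain ⟨a₂, ha'⟩ := exists_section_lift hA hM V hV f' hr' hd'
  obtain ⟨b₁, hb⟩ := exists_match hA hM V hV hf
  obtain ⟨b₂, hb'⟩ := exists_match hA hM V hV hf'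
  refine ⟨a₁ + a₂ + b₁ + b₂, fun k hk r hrk => ?_⟩
  obtain ⟨ξ, hξ, hξr⟩ := ha k (by omega) r hrk
  obtain ⟨ξ', hξ', hξ'r⟩ := ha' k (by omega) r hrk
  have hj : ∀ l < p, p * l < p ^ 2 ∧ p * l < W.C.e + l := by
    intro l hl
    refine ⟨by rw [pow_two]; exact Nat.mul_lt_mul_of_pos_left hl hp.pos, ?_⟩
    rw [W.e_eq, mul_comm p (p - 1), pred_mul_add hp.pos l]
    have := Nat.mul_lt_mul_of_pos_left hl (show 0 < p - 1 by have := hp.two_le; omega)
    omega
  obtain ⟨Ψ, hΨ, a, hea⟩ := hb k (by omega) p hj ξ hξ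
  obtain ⟨Ψ', hΨ', b, heb⟩ := hb' k (by omega) p hj ξ' hξ'
  rw [sub_eq_iff_eq_add'] at hea heb
  have e1 : (ξ * ξ' : intFix W.C hpM) = Ψ * Ψ' + piI W.C hpM ^ p * (a * Ψ' + Ψ * b) +
      piI W.C hpM ^ (p + 1) * (piI W.C hpM ^ (p - 1) * (a * b)) := by
    rw [hea, heb, show piI W.C hpM ^ (p + 1) * (piI W.C hpM ^ (p - 1) * (a * b)) =
      piI W.C hpM ^ (p + 1 + (p - 1)) * (a * b) by rw [pow_add]; ring,
      show p + 1 + (p - 1) = p + p by have := hp.pos; omega, pow_add]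
    ring
  obtain ⟨t, ht⟩ := exists_sigI_pow_mul hA p a
  obtain ⟨z, hz⟩ := exists_sigI_eq hA Ψ
  have hsξ : sigI hA ξ = sigI hA Ψ + piI W.C hpM ^ p * (a + piI W.C hpM * t) := by
    rw [hea, map_add, ht]
  refine ⟨sigI hA ξ * ξ', ξ * ξ' + (sigI hA Ψ - Ψ) * Ψ', ?_, ?_, ?_, ?_⟩
  · have h1 : (sigI hA ξ : FB (p * M)) ^ p * (sigI hA f : FB (p * M)) ∈ HN M p (p * k) := by
      rw [coe_sigI, coe_sigI, ← map_pow, ← map_mul]
      exact mem_HN_of_galF hξ
    have h2 := mul_mem_polesSpace h1 hξ'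
    rw [← Nat.left_distrib] at h2
    convert h2 using 1
    rw [Subring.coe_mul, Subring.coe_mul]
    ring
  · rw [Subring.coe_add, Subring.coe_mul (intFix W.C hpM) (sigI hA Ψ - Ψ), AddSubgroupClass.coe_sub]
    refine add_mem ?_ (mul_mem_polesSpace (sub_mem ?_ hΨ) hΨ')
    · refine root_mem_HN W.C hpM ?_
      have h2 := mul_mem_polesSpace hξ hξ'
      rw [← Nat.left_distrib] at h2
      convert h2 using 1
      have h3 : (f : FB (p * M)) * (f' : FB (p * M)) = 1 := congrArg Subtype.val hff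
      rw [Subring.coe_mul, mul_pow]
      linear_combination (-((ξ : FB (p * M)) ^ p * (ξ' : FB (p * M)) ^ p)) * h3
    · rw [coe_sigI]; exact mem_HN_of_galF hΨ
  · refine ⟨t * Ψ' + piI W.C hpM * (z * b) +
      piI W.C hpM ^ (p - 1) * ((a + piI W.C hpM * t) * b) -
      piI W.C hpM ^ (p - 1) * (a * b), ?_⟩
    rw [hsξ, e1, hz, heb]
    have hpp : piI W.C hpM ^ p = piI W.C hpM ^ (p - 1) * piI W.C hpM := by
      rw [← pow_succ]; congr 1; have := hp.pos; omega
    rw [pow_succ]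
    linear_combination (piI W.C hpM ^ p * (a * b) + piI W.C hpM * piI W.C hpM ^ p * (t * b)) * hpp
  · rw [map_mul, red_sigI, hξr, hξ'r]

/-- Sections of `g` are matched modulo `π ^ (p + 1)` given such sections for the inverse. -/
theorem exists_match_succ {g g' : intFix W.C hpM} (hgg : g * g' = 1)
    (hg : piI W.C hpM ^ (p ^ 2 + 1) ∣ g - 1) {k : ℕ} {φ₁ ψ₁ φJ ψJ : intFix W.C hpM}
    (h₁ : (φ₁ : FB (p * M)) ^ p * g' ∈ HN M p (p * k)) (h₁' : (ψ₁ : FB (p * M)) ∈ HN M p k)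
    (h₁c : piI W.C hpM ^ (p + 1) ∣ φ₁ - ψ₁) (h₁r : red W.C hpM φ₁ = 1)
    (hJ : (φJ : FB (p * M)) ^ p * g' ∈ HN M p (p * k)) (hJ' : (ψJ : FB (p * M)) ∈ HN M p k)
    (hJc : piI W.C hpM ^ (p + 1) ∣ φJ - ψJ)
    (hJr : red W.C hpM φJ = red W.C hpM (jI W.C hpM ^ k)) :
    ∃ m₀ : ℕ, ∀ m, m₀ ≤ m → ∀ φ : intFix W.C hpM,
      (φ : FB (p * M)) ^ p * g ∈ HN M p (p * m) →
        ∃ ψ : intFix W.C hpM, (ψ : FB (p * M)) ∈ HN M p m ∧ piI W.C hpM ^ (p + 1) ∣ φ - ψ := by
  have hp : p.Prime := Fact.out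
  obtain ⟨b₁, hb⟩ := exists_match hA hM V hV hg
  obtain ⟨s₁, hsat⟩ := exists_saturated (C := W.C) hA hM V hV
  refine ⟨b₁ + s₁, fun m hm φ hφ => ?_⟩
  have hj : ∀ l < p, p * l < p ^ 2 + 1 ∧ p * l < W.C.e + l := by
    intro l hl
    have h1 := Nat.mul_lt_mul_of_pos_left hl hp.pos
    refine ⟨by rw [pow_two]; omega, ?_⟩
    rw [W.e_eq, mul_comm p (p - 1), pred_mul_add hp.pos l]
    have := Nat.mul_lt_mul_of_pos_left hl (show 0 < p - 1 by have := hp.two_le; omega)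
    omega
  obtain ⟨ψ, hψ, w, hw⟩ := hb m (by omega) p hj φ hφ
  have key : ∀ (φ' ψ' : intFix W.C hpM), (φ' : FB (p * M)) ^ p * g' ∈ HN M p (p * k) →
      (ψ' : FB (p * M)) ∈ HN M p k → piI W.C hpM ^ (p + 1) ∣ φ' - ψ' →
      red W.C hpM w * red W.C hpM φ' ∈ sp W.C hpM (m + k) := by
    intro φ' ψ' h h' hc
    obtain ⟨t, ht⟩ := hc
    have e : φ * φ' - ψ * ψ' = piI W.C hpM ^ p * (w * φ' + piI W.C hpM * (ψ * t)) := by
      rw [pow_succ] at ht
      linear_combination φ' * hw + ψ * ht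
    have hmem : ((φ * φ' - ψ * ψ' : intFix W.C hpM) : FB (p * M)) ∈ HN M p (m + k) := by
      rw [AddSubgroupClass.coe_sub, Subring.coe_mul, Subring.coe_mul]
      refine sub_mem (root_mem_HN W.C hpM ?_) (mul_mem_polesSpace hψ h')
      have h2 := mul_mem_polesSpace hφ h
      rw [← Nat.left_distrib] at h2
      convert h2 using 1
      have h3 : (g : FB (p * M)) * (g' : FB (p * M)) = 1 := congrArg Subtype.val hgg
      rw [mul_pow]
      linear_combination (-((φ : FB (p * M)) ^ p * (φ' : FB (p * M)) ^ p)) * h3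
    have := red_mem_sp (mem_HN_of_piI_pow_mul e hmem)
    rwa [map_add, map_mul (red W.C hpM) (piI W.C hpM), red_piI, zero_mul, add_zero,
      map_mul] at this
  have hw₁ := key φ₁ ψ₁ h₁ h₁' h₁c
  rw [h₁r, mul_one] at hw₁
  have hwJ := key φJ ψJ hJ hJ' hJc
  rw [hJr] at hwJ
  have hb' : ∀ s, red W.C hpM w s ∈ LS ((sideDeg p s * m) • FF.poles (Res A) (jK A M)) := by
    intro s
    obtain ⟨a, ha⟩ := exists_red_KM hA hM w s
    have g1 := sp_bound hA hM V hw₁ s
    have g2 := sp_bound hA hM V hwJ s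
    rw [Pi.mul_apply, ha, map_pow, Pi.pow_apply, red_jI,
      show (a : LaurentSeries (Res A)) *
        ((jK A M ^ sideDeg p s : KM A M) : LaurentSeries (Res A)) ^ k =
        ((a * (jK A M ^ sideDeg p s) ^ k : KM A M) : LaurentSeries (Res A)) by push_cast; rfl,
      mem_LS, FF.mem_riemannRochSpace'] at g2
    rw [ha, mem_LS, FF.mem_riemannRochSpace'] at g1 ⊢
    intro P
    rcases eq_or_ne a 0 with h0 | h0
    · rw [h0]; exact zero_mem _
    refine FF.mem_ordGe_of_le P ?_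
    have k1 := FF.le_ord_of_mem_ordGe P h0 (g1 P)
    simp only [Finsupp.smul_apply, FF.poles_apply, nsmul_eq_mul] at k1 ⊢
    by_cases hj : 0 ≤ P.ord (jK A M)
    · rw [max_eq_left (show -P.ord (jK A M) ≤ 0 by omega)] at k1 ⊢
      simpa using k1
    · have hjne : jK A M ≠ 0 := fun h => hj (by rw [h, P.ord_zero])
      have k2 := FF.le_ord_of_mem_ordGe P (mul_ne_zero h0 (pow_ne_zero _ (pow_ne_zero _ hjne)))
        (g2 P)
      rw [P.ord_mul h0 (pow_ne_zero _ (pow_ne_zero _ hjne)), FF.ord_pow P, FF.ord_pow P,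
        Finsupp.smul_apply, FF.poles_apply, nsmul_eq_mul] at k2
      rw [max_eq_right (show 0 ≤ -P.ord (jK A M) by omega)] at k2 ⊢
      push_cast at k2 ⊢
      linarith
  obtain ⟨ψ', hψ', hψ'r⟩ := exists_sp_lift hA (hsat m (by omega) _ _ hw₁ hb')
  obtain ⟨u, hu⟩ := piI_dvd hA (x := w - ψ') (by rw [map_sub, hψ'r, sub_self])
  refine ⟨ψ + piI W.C hpM ^ p * ψ', ?_, u, ?_⟩
  · rw [Subring.coe_add, Subring.coe_mul, Subring.coe_pow, coe_piI, ← map_pow, ← Algebra.smul_def]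
    exact add_mem hψ (Submodule.smul_mem _ _ hψ')
  · rw [pow_succ]
    linear_combination hw + piI W.C hpM ^ p * hu

/-- `σ f / f` is a `p`-th power. -/
theorem exists_root_sigma {f f' : intFix W.C hpM} (hff : f * f' = 1)
    (hd : DivP p (f : FB (p * M))) (hf : piI W.C hpM ^ (p ^ 2) ∣ f - 1) :
    ∃ x : FB (p * M), x ^ p = galF (p * M) W.σ (f : FB (p * M)) * (f' : FB (p * M)) := by
  have hp : p.Prime := Fact.out
  have hd' : DivP p (f' : FB (p * M)) := divP_inv hff hd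
  have hf' : piI W.C hpM ^ (p ^ 2) ∣ f' - 1 := by
    obtain ⟨y, hy⟩ := hf
    exact ⟨-(f' * y), by linear_combination -f' * hy + hff⟩
  have hgg : sigI hA f * f' * (sigI hA f' * f) = 1 := by
    have h1 : sigI hA f * sigI hA f' = 1 := by rw [← map_mul, hff, map_one]
    linear_combination (f' * f) * h1 + hff
  have hdeep : ∀ {h h' : intFix W.C hpM}, h * h' = 1 → piI W.C hpM ^ (p ^ 2) ∣ h - 1 →
      piI W.C hpM ^ (p ^ 2 + 1) ∣ sigI hA h * h' - 1 := by
    intro h h' hh hy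
    obtain ⟨y, hy⟩ := hy
    obtain ⟨t, ht⟩ := exists_sigI_pow_mul hA (p ^ 2) y
    rw [← hy, map_sub, map_one] at ht
    refine ⟨h' * t, ?_⟩
    rw [pow_succ]
    linear_combination h' * ht - h' * hy + hh
  have hdg : DivP p ((sigI hA f * f' : intFix W.C hpM) : FB (p * M)) := by
    intro v
    obtain ⟨h0', h0⟩ := coe_unit_inv hff
    rw [Subring.coe_mul, coe_sigI,
      v.ord_mul ((_root_.map_ne_zero _).mpr h0) h0']
    exact dvd_add (divP_galF hd W.σ v) (hd' v)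
  obtain ⟨k₁, hs⟩ := exists_special hA hM V hV hff hd hf
  obtain ⟨k₂, hs'⟩ := exists_special hA hM V hV ((mul_comm f' f).trans hff) hd' hf'
  set k := k₁ + k₂
  have hJ := red_mem_sp (jI_pow_mem (C := W.C) (hpM := hpM) k)
  obtain ⟨a, a', ha, ha', hac, har⟩ := hs k (by omega) _ (one_mem_sp k)
  obtain ⟨b, b', hb, hb', hbc, hbr⟩ := hs k (by omega) _ hJ
  obtain ⟨c, c', hc, hc', hcc, hcr⟩ := hs' k (by omega) _ (one_mem_sp k)
  obtain ⟨d, d', hdd, hd'', hdc, hdr⟩ := hs' k (by omega) _ hJ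
  rw [one_mul] at har hcr
  rw [← map_mul, ← pow_add] at hbr hdr
  have hgg' := (mul_comm (sigI hA f' * f) (sigI hA f * f')).trans hgg
  obtain ⟨x, hx⟩ := exists_root_of_deep hA hM V hV hgg hdg (n₀ := p + 1) (Nat.succ_pos p)
    (by
      rw [W.e_eq, mul_add, mul_one, mul_comm p (p - 1)]
      have := hp.two_le
      omega)
    (by
      rw [W.e_eq]
      refine (pow_dvd_pow _ ?_).trans (hdeep hff hf)
      have h1 := pred_mul_add hp.pos p
      rw [pow_two, mul_comm p (p - 1)]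
      omega)
    (fun h hh => by
      rcases hh with rfl | rfl
      · exact exists_match_succ hA hM V hV hgg (hdeep hff hf) hc hc' hcc hcr hdd hd'' hdc hdr
      · exact exists_match_succ hA hM V hV hgg' (hdeep ((mul_comm f' f).trans hff) hf')
          ha ha' hac har hb hb' hbc hbr)
  exact ⟨x, by rw [hx, Subring.coe_mul, coe_sigI]⟩

end Fermat.Agent.RT.AtP

end
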